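/-
Finite-group `H¹` toolkit (Mathlib only), in the language of Mathlib's
`groupCohomology.IsCocycle₁` / `groupCohomology.IsCoboundary₁`
(`f (g * h) = g • f h + f g`, resp. `∃ x, ∀ g, g • x - x = f g`).

* `isCoboundary₁_of_central` / `isCoboundary₁_of_central_smul` : Sah's lemma.
* `isCoboundary₁_of_restrict` : a cocycle whose restriction to a subgroup of invertible index is
  a coboundary is a coboundary (averaging over cosets).
* `conj_apply_of_isCocycle₁` : restrictions are stable under conjugation up to a coboundary.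
* `exists_forall_mem_zpowers` / `isCoboundary₁_of_forall_mem_zpowers` : cyclic groups:
  `ker (norm) ⊆ im (u - 1)` implies vanishing.
* `map_eq_zero_of_central_of_trivial`, `exists_isCocycle₁_of_ker`, `isCoboundary₁_of_quotient` :
  inflation–restriction in degree one, by hand.
* `sum_range_one_add_pow_eq` : in characteristic `p`, `∑_{i<p} (1+T)^i = T^(p-1)`.
-/
import Mathlib

set_option autoImplicit false

namespace Fermat.Agent.S56.Group

open groupCohomology

section Basic

variable {G A : Type*} [Group G] [AddCommGroup A] [DistribMulAction G A]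

/-- `f (g * n) = f g` if the cocycle `f` vanishes at `n`. -/
theorem map_mul_of_map_eq_zero {f : G → A} (hf : IsCocycle₁ f) {n : G} (hn : f n = 0) (g : G) :
    f (g * n) = f g := by
  rw [hf g n, hn, smul_zero, zero_add]

/-- `f (n * g) = n • f g` if the cocycle `f` vanishes at `n`. -/
theorem map_mul_left_of_map_eq_zero {f : G → A} (hf : IsCocycle₁ f) {n : G} (hn : f n = 0)
    (g : G) : f (n * g) = n • f g := by
  rw [hf n g, hn, add_zero]

/-- The value of a cocycle at an inverse. -/
theorem map_inv_eq_of_isCocycle₁ {f : G → A} (hf : IsCocycle₁ f) (g : G) :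
    f g⁻¹ = -(g⁻¹ • f g) := by
  have h := map_inv_of_isCocycle₁ hf g
  have h2 : g⁻¹ • (g • f g⁻¹) = g⁻¹ • (-f g) := by rw [h]
  rwa [smul_smul, inv_mul_cancel, one_smul, smul_neg] at h2

/-- Subtracting a coboundary from a cocycle gives a cocycle. -/
theorem isCocycle₁_sub_coboundary {f : G → A} (hf : IsCocycle₁ f) (x : A) :
    IsCocycle₁ (fun g => f g - (g • x - x)) := by
  intro g h
  simp only
  rw [hf g h, smul_sub, smul_sub, mul_smul]
  abel

/-- A function differing from a coboundary by a coboundary is a coboundary. -/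
theorem isCoboundary₁_of_sub_coboundary {f : G → A} (x : A)
    (h : IsCoboundary₁ (fun g => f g - (g • x - x))) : IsCoboundary₁ f := by
  obtain ⟨y, hy⟩ := h
  refine ⟨y + x, fun g => ?_⟩
  have := hy g
  simp only at this
  rw [smul_add]
  rw [sub_eq_iff_eq_add] at this
  rw [this]
  abel

/-- **Conjugation formula.** For a cocycle `f` on `G` and `g, p : G`, the conjugated value
`g • f (g⁻¹ p g)` differs from `f p` by the coboundary of `f g`, evaluated at `p`.  Hence the
restriction of a class to a subgroup `P` is invariant under the normaliser of `P`. -/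
theorem conj_apply_of_isCocycle₁ {f : G → A} (hf : IsCocycle₁ f) (g p : G) :
    g • f (g⁻¹ * p * g) = f p + (p • f g - f g) := by
  have h1 : f (g⁻¹ * p * g) = g⁻¹ • f (p * g) + f g⁻¹ := by
    rw [mul_assoc]; exact hf g⁻¹ (p * g)
  rw [h1, hf p g, smul_add, smul_smul, mul_inv_cancel, one_smul, map_inv_of_isCocycle₁ hf]
  abel

end Basic

section Sah

variable {G A : Type*} [Group G] [AddCommGroup A] [DistribMulAction G A]

/-- **Sah's lemma**, abstract form: if a central element `z` of `G` acts on `A` in such a way that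
`x ↦ z • x - x` is bijective, then every `1`-cocycle of `G` in `A` is a coboundary. -/
theorem isCoboundary₁_of_central {f : G → A} (hf : IsCocycle₁ f) (z : G)
    (hz : ∀ g, z * g = g * z) (hbij : Function.Bijective (fun x : A => z • x - x)) :
    IsCoboundary₁ f := by
  obtain ⟨x, hx⟩ := hbij.2 (f z)
  simp only at hx
  refine ⟨x, fun g => hbij.1 ?_⟩
  have h1 : z • f g + f z = g • f z + f g := by rw [← hf z g, ← hf g z, hz g]
  have h2 : z • f g - f g = g • f z - f z := by
    rw [sub_eq_sub_iff_add_eq_add, h1]
  have hcomm : z • g • x = g • z • x := by rw [smul_smul, smul_smul, hz g]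
  simp only
  rw [h2, ← hx, smul_sub, smul_sub, hcomm]
  abel

/-- **Sah's lemma**, scalar form: if a central element `z` of `G` acts on the `k`-module `A` as
multiplication by a scalar `c` with `c - 1` a unit, then every `1`-cocycle is a coboundary. -/
theorem isCoboundary₁_of_central_smul {k : Type*} [Ring k] [Module k A] {f : G → A}
    (hf : IsCocycle₁ f) (z : G) (hz : ∀ g, z * g = g * z) (c : k) (hc : IsUnit (c - 1))
    (hzc : ∀ x : A, z • x = c • x) : IsCoboundary₁ f := by
  refine isCoboundary₁_of_central hf z hz ?_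
  obtain ⟨u, hu⟩ := hc
  have key : ∀ x : A, z • x - x = (u : k) • x := by
    intro x; rw [hzc, hu, sub_smul, one_smul]
  constructor
  · intro x y hxy
    simp only [key] at hxy
    have := congrArg (fun t => (↑u⁻¹ : k) • t) hxy
    simpa only [smul_smul, Units.inv_mul, one_smul] using this
  · intro y
    refine ⟨(↑u⁻¹ : k) • y, ?_⟩
    simp only [key, smul_smul, Units.mul_inv, one_smul]

end Sah

section Restrict

variable {G A : Type*} [Group G] [AddCommGroup A] [DistribMulAction G A]

/-- **Restriction to a subgroup of invertible index is injective on `H¹`.**  If `P ≤ G` has finite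
index `m`, multiplication by `m` is bijective on `A`, and the restriction of the cocycle `f` to
`P` is a coboundary, then `f` is a coboundary. -/
theorem isCoboundary₁_of_restrict {f : G → A} (hf : IsCocycle₁ f) (P : Subgroup G)
    [P.FiniteIndex] (hm : Function.Bijective (fun x : A => P.index • x))
    (hP : ∃ x : A, ∀ p ∈ P, p • x - x = f p) : IsCoboundary₁ f := by
  classical
  obtain ⟨x, hx⟩ := hP
  refine isCoboundary₁_of_sub_coboundary x ?_
  set f' : G → A := fun g => f g - (g • x - x) with hf'def
  have hf' : IsCocycle₁ f' := isCocycle₁_sub_coboundary hf x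
  have hf'P : ∀ p ∈ P, f' p = 0 := fun p hp => by
    simp only [hf'def]; rw [hx p hp, sub_self]
  -- `f'` is constant on left cosets
  have hcoset : ∀ a b : G, (QuotientGroup.leftRel P) a b → f' a = f' b := by
    intro a b hab
    rw [QuotientGroup.leftRel_apply] at hab
    have : b = a * (a⁻¹ * b) := by group
    rw [this, map_mul_of_map_eq_zero hf' (hf'P _ hab)]
  let F : G ⧸ P → A := Quotient.lift f' hcoset
  have hF : ∀ g : G, F (QuotientGroup.mk g) = f' g := fun g => rfl
  let _inst : Fintype (G ⧸ P) := Fintype.ofFinite _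
  set y : A := ∑ c : G ⧸ P, F c with hy
  have hcard : Fintype.card (G ⧸ P) = P.index := by
    rw [Subgroup.index, Nat.card_eq_fintype_card]
  -- the key identity
  have hkey : ∀ h : G, y = h • y + P.index • f' h := by
    intro h
    have h1 : ∀ c : G ⧸ P, F (h • c) = h • F c + f' h := by
      intro c
      induction c using QuotientGroup.induction_on with
      | H g =>
        rw [show h • (QuotientGroup.mk g : G ⧸ P) = QuotientGroup.mk (h * g) from rfl, hF, hF,
          hf' h g]
    have h2 : ∑ c : G ⧸ P, F (h • c) = y := by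
      rw [hy]
      exact Fintype.sum_equiv (MulAction.toPerm h) _ _ (fun c => rfl)
    calc y = ∑ c : G ⧸ P, F (h • c) := h2.symm
      _ = ∑ c : G ⧸ P, (h • F c + f' h) := by simp only [h1]
      _ = h • y + P.index • f' h := by
        rw [Finset.sum_add_distrib, Finset.sum_const, Finset.card_univ, hcard, hy,
          Finset.smul_sum]
  obtain ⟨y', hy'⟩ := hm.2 (-y)
  simp only at hy'
  refine ⟨y', fun h => hm.1 ?_⟩
  simp only
  rw [smul_sub, smul_comm (P.index) h y', hy', smul_neg]
  have := hkey h
  rw [eq_comm, ← eq_sub_iff_add_eq'] at this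
  rw [this]
  abel

/-- Special case `P = ⊥`: if `|G|` is invertible on `A` then `H¹(G, A) = 0`. -/
theorem isCoboundary₁_of_card_bijective [Finite G] {f : G → A} (hf : IsCocycle₁ f)
    (hm : Function.Bijective (fun x : A => Nat.card G • x)) : IsCoboundary₁ f := by
  have : (⊥ : Subgroup G).FiniteIndex := ⟨by
    rw [Subgroup.index_bot]; exact Nat.card_pos.ne'⟩
  refine isCoboundary₁_of_restrict hf ⊥ (by rwa [Subgroup.index_bot]) ⟨0, fun p hp => ?_⟩
  rw [Subgroup.mem_bot] at hp
  rw [hp, map_one_of_isCocycle₁ hf, smul_zero, sub_zero]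

end Restrict

section Cyclic

variable {G A : Type*} [Group G] [AddCommGroup A] [DistribMulAction G A]

/-- Values of a cocycle on powers of an element. -/
theorem map_pow_of_isCocycle₁ {f : G → A} (hf : IsCocycle₁ f) (u : G) (i : ℕ) :
    f (u ^ i) = ∑ j ∈ Finset.range i, u ^ j • f u := by
  induction i with
  | zero => simp [map_one_of_isCocycle₁ hf]
  | succ i ih =>
    rw [pow_succ, hf (u ^ i) u, ih, Finset.sum_range_succ, add_comm]

/-- A cocycle vanishing at `u` vanishes on the subgroup generated by `u`. -/
theorem map_eq_zero_of_mem_zpowers {f : G → A} (hf : IsCocycle₁ f) {u : G} (hu : f u = 0)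
    {g : G} (hg : g ∈ Subgroup.zpowers u) : f g = 0 := by
  have hpow : ∀ i : ℕ, f (u ^ i) = 0 := fun i => by
    rw [map_pow_of_isCocycle₁ hf, hu]; simp
  obtain ⟨k, rfl⟩ := Subgroup.mem_zpowers_iff.1 hg
  obtain ⟨i, rfl | rfl⟩ := Int.eq_nat_or_neg k
  · rw [zpow_natCast]; exact hpow i
  · rw [zpow_neg, zpow_natCast, map_inv_eq_of_isCocycle₁ hf, hpow i, smul_zero, neg_zero]

/-- **Cyclic groups.**  Let `u ^ n = 1` and suppose that the kernel of the norm
`a ↦ ∑_{i<n} u^i • a` is contained in the image of `x ↦ u • x - x`.  Then every cocycle is a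
coboundary on the subgroup generated by `u`. -/
theorem exists_forall_mem_zpowers {f : G → A} (hf : IsCocycle₁ f) (u : G) (n : ℕ)
    (hn : u ^ n = 1)
    (hex : ∀ a : A, (∑ i ∈ Finset.range n, u ^ i • a) = 0 → ∃ x : A, u • x - x = a) :
    ∃ x : A, ∀ g ∈ Subgroup.zpowers u, g • x - x = f g := by
  have h0 : (∑ i ∈ Finset.range n, u ^ i • f u) = 0 := by
    rw [← map_pow_of_isCocycle₁ hf, hn, map_one_of_isCocycle₁ hf]
  obtain ⟨x, hx⟩ := hex _ h0
  refine ⟨x, fun g hg => ?_⟩
  have hf' : IsCocycle₁ (fun g => f g - (g • x - x)) := isCocycle₁_sub_coboundary hf x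
  have hu : (fun g => f g - (g • x - x)) u = 0 := by simp only; rw [hx, sub_self]
  have h3 : f g - (g • x - x) = 0 := map_eq_zero_of_mem_zpowers hf' hu hg
  rw [sub_eq_zero] at h3
  exact h3.symm

/-- **Cyclic groups**, global form. -/
theorem isCoboundary₁_of_forall_mem_zpowers {f : G → A} (hf : IsCocycle₁ f) (u : G)
    (hu : ∀ g : G, g ∈ Subgroup.zpowers u) (n : ℕ) (hn : u ^ n = 1)
    (hex : ∀ a : A, (∑ i ∈ Finset.range n, u ^ i • a) = 0 → ∃ x : A, u • x - x = a) :
    IsCoboundary₁ f := by
  obtain ⟨x, hx⟩ := exists_forall_mem_zpowers hf u n hn hex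
  exact ⟨x, fun g => hx g (hu g)⟩

/-- A cocycle whose restriction to a cyclic subgroup `⟨u⟩` of invertible index satisfies the
norm criterion is a coboundary (e.g. `⟨u⟩` a cyclic Sylow subgroup acting through a free
module). -/
theorem isCoboundary₁_of_zpowers_index {f : G → A} (hf : IsCocycle₁ f) (u : G)
    [(Subgroup.zpowers u).FiniteIndex]
    (hm : Function.Bijective (fun x : A => (Subgroup.zpowers u).index • x)) (n : ℕ)
    (hn : u ^ n = 1)
    (hex : ∀ a : A, (∑ i ∈ Finset.range n, u ^ i • a) = 0 → ∃ x : A, u • x - x = a) :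
    IsCoboundary₁ f :=
  isCoboundary₁_of_restrict hf _ hm (exists_forall_mem_zpowers hf u n hn hex)

end Cyclic

section Inflation

variable {G A : Type*} [Group G] [AddCommGroup A] [DistribMulAction G A]

/-- A cocycle vanishes at a central element acting trivially, if `A` has no nonzero invariants. -/
theorem map_eq_zero_of_central_of_trivial {f : G → A} (hf : IsCocycle₁ f) (n : G)
    (hn : ∀ g, n * g = g * n) (htriv : ∀ x : A, n • x = x)
    (hfix : ∀ a : A, (∀ g : G, g • a = a) → a = 0) : f n = 0 := by
  refine hfix _ fun g => ?_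
  have h1 : f (g * n) = g • f n + f g := hf g n
  have h2 : f (n * g) = f g + f n := by rw [hf n g, htriv]
  rw [← hn g, h2] at h1
  have : f n = g • f n := by
    have := h1
    rw [add_comm] at this
    exact add_right_cancel this
  exact this.symm

/-- A cocycle of `G` vanishing on the kernel of a surjection `π : G → Q` (through which the action
factors) is inflated from a cocycle of `Q`. -/
theorem exists_isCocycle₁_of_ker {Q : Type*} [Group Q] [DistribMulAction Q A] (π : G →* Q)
    (hπ : Function.Surjective π) (hcompat : ∀ (g : G) (a : A), g • a = π g • a) {f : G → A}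
    (hf : IsCocycle₁ f) (hker : ∀ n ∈ π.ker, f n = 0) :
    ∃ fbar : Q → A, IsCocycle₁ fbar ∧ ∀ g, f g = fbar (π g) := by
  have hconst : ∀ g g' : G, π g = π g' → f g = f g' := by
    intro g g' h
    have hmem : g⁻¹ * g' ∈ π.ker := by
      rw [MonoidHom.mem_ker, map_mul, map_inv, h, inv_mul_cancel]
    have : g' = g * (g⁻¹ * g') := by group
    rw [this, map_mul_of_map_eq_zero hf (hker _ hmem)]
  refine ⟨fun q => f (Function.surjInv hπ q), ?_, fun g => ?_⟩
  · intro q q'
    simp only
    have h1 : f (Function.surjInv hπ (q * q')) =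
        f (Function.surjInv hπ q * Function.surjInv hπ q') := by
      apply hconst
      rw [map_mul, Function.surjInv_eq hπ, Function.surjInv_eq hπ, Function.surjInv_eq hπ]
    rw [h1, hf, hcompat, Function.surjInv_eq hπ]
  · apply hconst
    rw [Function.surjInv_eq hπ]

/-- Inflation of a coboundary is a coboundary. -/
theorem isCoboundary₁_comp {Q : Type*} [Group Q] [DistribMulAction Q A] (π : G →* Q)
    (hcompat : ∀ (g : G) (a : A), g • a = π g • a) {fbar : Q → A} (h : IsCoboundary₁ fbar) :
    IsCoboundary₁ (fun g => fbar (π g)) := by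
  obtain ⟨x, hx⟩ := h
  exact ⟨x, fun g => by rw [hcompat, hx]⟩

/-- **Inflation–restriction, vanishing form.**  If every cocycle of the quotient `Q` is a
coboundary and the cocycle `f` of `G` vanishes on `ker π`, then `f` is a coboundary. -/
theorem isCoboundary₁_of_quotient {Q : Type*} [Group Q] [DistribMulAction Q A] (π : G →* Q)
    (hπ : Function.Surjective π) (hcompat : ∀ (g : G) (a : A), g • a = π g • a)
    (hQ : ∀ fbar : Q → A, IsCocycle₁ fbar → IsCoboundary₁ fbar) {f : G → A}
    (hf : IsCocycle₁ f) (hker : ∀ n ∈ π.ker, f n = 0) : IsCoboundary₁ f := by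
  obtain ⟨fbar, hfbar, hffbar⟩ := exists_isCocycle₁_of_ker π hπ hcompat hf hker
  have := isCoboundary₁_comp π hcompat (hQ fbar hfbar)
  obtain ⟨x, hx⟩ := this
  exact ⟨x, fun g => by rw [hx, hffbar]⟩

/-- **Central kernel acting trivially, no invariants.**  If `ker π` is central in `G` and acts
trivially on `A`, `A` has no nonzero `G`-invariants, and `H¹(Q, A) = 0`, then `H¹(G, A) = 0`. -/
theorem isCoboundary₁_of_central_ker {Q : Type*} [Group Q] [DistribMulAction Q A] (π : G →* Q)
    (hπ : Function.Surjective π) (hcompat : ∀ (g : G) (a : A), g • a = π g • a)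
    (hQ : ∀ fbar : Q → A, IsCocycle₁ fbar → IsCoboundary₁ fbar)
    (hcentral : ∀ n ∈ π.ker, ∀ g : G, n * g = g * n)
    (hfix : ∀ a : A, (∀ g : G, g • a = a) → a = 0) {f : G → A} (hf : IsCocycle₁ f) :
    IsCoboundary₁ f := by
  refine isCoboundary₁_of_quotient π hπ hcompat hQ hf fun n hn => ?_
  refine map_eq_zero_of_central_of_trivial hf n (hcentral n hn) (fun x => ?_) hfix
  rw [hcompat, MonoidHom.mem_ker.1 hn, one_smul]

end Inflation

section CharP

open Polynomial

/-- In characteristic `p`, `∑_{i<p} (1+T)^i = T^(p-1)`: the norm element of a cyclic group of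
order `p` generated by `u = 1 + T`. -/
theorem sum_range_one_add_pow_eq (p : ℕ) [Fact p.Prime] {R : Type*} [Ring R] [Algebra (ZMod p) R]
    (T : R) : ∑ i ∈ Finset.range p, (1 + T) ^ i = T ^ (p - 1) := by
  have hpoly : ∑ i ∈ Finset.range p, (1 + (X : (ZMod p)[X])) ^ i = X ^ (p - 1) := by
    have hX : (X : (ZMod p)[X]) ≠ 0 := X_ne_zero
    apply mul_left_cancel₀ hX
    have h1 : (X : (ZMod p)[X]) * ∑ i ∈ Finset.range p, (1 + X) ^ i = (1 + X) ^ p - 1 := by
      have := mul_geom_sum (1 + (X : (ZMod p)[X])) p
      rw [add_sub_cancel_left] at this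
      exact this
    rw [h1, add_pow_char, one_pow, add_sub_cancel_left, ← pow_succ',
      Nat.sub_add_cancel (Fact.out : p.Prime).one_le]
  have := congrArg (aeval T) hpoly
  simpa using this

end CharP

end Fermat.Agent.S56.Group
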