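/-
Fixed-point counting for a finite group acting on a finite set in which every element outside a
normal subgroup `Z` (acting trivially) has exactly one or exactly two fixed points
(the situation of a finite subgroup of `SL₂` acting on the projective line).

Main result `dvd_two_mul`: if the "parabolic" points (fixed points of the elements with exactly
one fixed point) form one orbit of size `1 + m q` (`m ≥ 1`, `q ≥ 3`), with stabiliser of order
`z q c`, of which `z q` elements are in `Z` or parabolic, then `m (q - 2) + 1 ∣ 2 c`.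
In particular `q - 1 ≤ 2 c`.
-/
import Mathlib

set_option autoImplicit false

namespace Fermat.Agent.S56.Group.FixCount

open MulAction Finset

open scoped Classical in
/-- Number of fixed points of `g`. -/
noncomputable def fixN {G : Type*} (P : Type*) [Group G] [MulAction G P] [Fintype P] (g : G) : ℕ :=
  (univ.filter fun x : P => g • x = x).card

open scoped Classical in
/-- Order of the stabiliser of `x`. -/
noncomputable def stabN (G : Type*) {P : Type*} [Group G] [MulAction G P] [Fintype G] (x : P) : ℕ :=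
  (univ.filter fun g : G => g • x = x).card

section Basic

variable {G P : Type*} [Group G] [MulAction G P] [Fintype G] [Fintype P]

open scoped Classical in
/-- Double counting of the pairs `(g, x)` with `g • x = x`. -/
theorem sum_fixN_eq_sum_stabN : ∑ g : G, fixN P g = ∑ x : P, stabN G x := by
  unfold fixN stabN
  exact sum_card_bipartiteAbove_eq_sum_card_bipartiteBelow (fun (g : G) (x : P) => g • x = x)

open scoped Classical in
theorem fixN_conj (h g : G) : fixN P (h * g * h⁻¹) = fixN P g := by
  unfold fixN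
  refine (card_bij (fun x _ => h • x) ?_ ?_ ?_).symm
  · intro x hx
    simp only [mem_filter, mem_univ, true_and] at hx ⊢
    rw [mul_smul, mul_smul, inv_smul_smul, hx]
  · intro x _ y _ hxy
    exact smul_left_cancel h hxy
  · intro y hy
    simp only [mem_filter, mem_univ, true_and] at hy
    refine ⟨h⁻¹ • y, ?_, smul_inv_smul h y⟩
    simp only [mem_filter, mem_univ, true_and]
    rw [mul_smul, mul_smul] at hy
    have := congrArg (fun t => h⁻¹ • t) hy
    simpa using this

open scoped Classical in
theorem stabN_smul (h : G) (x : P) : stabN G (h • x) = stabN G x := by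
  unfold stabN
  refine (card_bij (fun g _ => h * g * h⁻¹) ?_ ?_ ?_).symm
  · intro g hg
    simp only [mem_filter, mem_univ, true_and] at hg ⊢
    rw [mul_smul, mul_smul, inv_smul_smul, hg]
  · intro g _ g' _ hgg'
    simpa using hgg'
  · intro g hg
    simp only [mem_filter, mem_univ, true_and] at hg
    refine ⟨h⁻¹ * g * h, ?_, by group⟩
    simp only [mem_filter, mem_univ, true_and]
    rw [mul_smul, mul_smul, hg, inv_smul_smul]

open scoped Classical in
/-- Orbit–stabiliser, in `Finset.filter` form. -/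
theorem card_orbit_mul_stabN (x : P) :
    (univ.filter fun y : P => y ∈ orbit G x).card * stabN G x = Fintype.card G := by
  have h := card_orbit_mul_card_stabilizer_eq_card_group G x
  rw [← h]
  congr 1
  · rw [Fintype.card_subtype]
  · unfold stabN
    rw [Fintype.card_subtype]
    rfl

omit [Fintype P] in
theorem stabN_eq_natCard (x : P) : stabN G x = Nat.card (stabilizer G x) := by
  classical
  unfold stabN
  rw [Nat.card_eq_fintype_card, Fintype.card_subtype]
  rfl

omit [Fintype P] in
/-- The order of a subgroup contained in a stabiliser divides the order of the stabiliser. -/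
theorem card_dvd_stabN (Z : Subgroup G) (x : P) (hZ : ∀ g ∈ Z, g • x = x) :
    Nat.card Z ∣ stabN G x := by
  rw [stabN_eq_natCard]
  exact Subgroup.card_dvd_of_le (fun g hg => hZ g hg)

end Basic


section Arithmetic

/-- The arithmetic heart: `q d ∣ (1 + m q) q c` with `d = m (q - 2) + 1` forces `d ∣ 2 c`. -/
theorem arith_dvd {m q c : ℕ} (hq : 2 ≤ q)
    (h : (1 + m * q) * (q - 2) + 2 ∣ (1 + m * q) * q * c) : m * (q - 2) + 1 ∣ 2 * c := by
  obtain ⟨k, rfl⟩ : ∃ k, q = k + 2 := ⟨q - 2, by omega⟩
  simp only [Nat.add_sub_cancel] at h ⊢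
  set d := m * k + 1 with hd
  have hR : (1 + m * (k + 2)) * k + 2 = (k + 2) * d := by rw [hd]; ring
  have hW : 1 + m * (k + 2) = d + 2 * m := by rw [hd]; ring
  rw [hR, hW] at h
  have h1 : d ∣ (d + 2 * m) * c := by
    have : (k + 2) * d ∣ (k + 2) * ((d + 2 * m) * c) := by
      have e : (d + 2 * m) * (k + 2) * c = (k + 2) * ((d + 2 * m) * c) := by ring
      rwa [e] at h
    exact (Nat.mul_dvd_mul_iff_left (by omega)).1 this
  have h2 : d ∣ 2 * m * c := by
    have e : (d + 2 * m) * c = d * c + 2 * m * c := by ring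
    rw [e] at h1
    exact (Nat.dvd_add_right (Dvd.intro _ rfl)).1 h1
  have hcop : Nat.Coprime d m := by
    rw [hd]
    have : Nat.Coprime (m * k + 1) m := by
      rw [Nat.coprime_mul_left_add_left]
      exact Nat.coprime_one_left m
    exact this
  have h3 : d ∣ m * (2 * c) := by
    have e : 2 * m * c = m * (2 * c) := by ring
    rwa [e] at h2
  exact hcop.dvd_of_dvd_mul_left h3

end Arithmetic


section Orbits

variable {G P : Type*} [Group G] [MulAction G P] [Fintype G] [Fintype P]

open scoped Classical in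
/-- The orbit of `x` as a finset. -/
noncomputable def orb (G : Type*) {P : Type*} [Group G] [MulAction G P] [Fintype P] (x : P) :
    Finset P := univ.filter fun y : P => y ∈ orbit G x

omit [Fintype G] in
theorem mem_orb {x y : P} : y ∈ orb G x ↔ y ∈ orbit G x := by
  classical
  simp [orb]

omit [Fintype G] in
theorem self_mem_orb (x : P) : x ∈ orb G x := mem_orb.2 (mem_orbit_self x)

omit [Fintype G] in
theorem card_orb_eq_natCard (x : P) : (orb G x).card = Nat.card (orbit G x) := by
  classical
  unfold orb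
  rw [Nat.card_eq_fintype_card, Fintype.card_subtype]

theorem card_orb_mul_stabN (x : P) : (orb G x).card * stabN G x = Fintype.card G := by
  classical
  exact card_orbit_mul_stabN x

theorem stabN_eq_of_mem_orb {x y : P} (h : y ∈ orb G x) : stabN G y = stabN G x := by
  obtain ⟨g, rfl⟩ := mem_orbit_iff.1 (mem_orb.1 h)
  exact stabN_smul g x

omit [Fintype G] in
theorem orb_eq_of_mem {x y : P} (h : y ∈ orb G x) : orb G y = orb G x := by
  ext w
  rw [mem_orb, mem_orb, orbit_eq_iff.2 (mem_orb.1 h)]

omit [Fintype G] in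
/-- Distinct orbits are disjoint. -/
theorem disjoint_orb {x y : P} (h : y ∉ orb G x) : Disjoint (orb G x) (orb G y) := by
  rw [Finset.disjoint_left]
  intro w hwx hwy
  apply h
  have h1 := orb_eq_of_mem hwx
  have h2 := orb_eq_of_mem hwy
  have : orb G y = orb G x := by rw [← h2, h1]
  rw [← this]
  exact self_mem_orb y

/-- Sum of `stabN - z` over an orbit. -/
theorem sum_orb_sub (x : P) (z : ℕ) (hz : z ≤ stabN G x) :
    ∑ y ∈ orb G x, (stabN G y - z) + z * (orb G x).card = Fintype.card G := by
  have h1 : ∑ y ∈ orb G x, (stabN G y - z) = (orb G x).card * (stabN G x - z) := by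
    rw [Finset.sum_congr rfl (fun y hy => by rw [stabN_eq_of_mem_orb hy]), Finset.sum_const,
      smul_eq_mul]
  rw [h1, ← card_orb_mul_stabN x, Nat.mul_sub, mul_comm z]
  have : (orb G x).card * z ≤ (orb G x).card * stabN G x := Nat.mul_le_mul_left _ hz
  omega

/-- If the stabiliser of `x` is at least twice as big as `z`, the orbit sum of `stabN - z` is
at least half of `|G|`. -/
theorem two_mul_sum_orb_sub (x : P) (z : ℕ) (hz : 2 * z ≤ stabN G x) :
    Fintype.card G ≤ 2 * ∑ y ∈ orb G x, (stabN G y - z) := by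
  have h1 := sum_orb_sub (G := G) x z (by omega)
  have h2 := card_orb_mul_stabN (G := G) x
  have h3 : (orb G x).card * (2 * z) ≤ Fintype.card G := by
    rw [← h2]; exact Nat.mul_le_mul_left _ hz
  have h4 : (orb G x).card * (2 * z) = 2 * (z * (orb G x).card) := by ring
  omega

end Orbits


section Free

variable {H P : Type*} [Group H] [MulAction H P] [Fintype H] [Fintype P]

/-- A finite set stable under `H` on which `H` acts freely has cardinality divisible by `|H|`. -/
theorem card_dvd_card_of_free (T : Finset P) (hT : ∀ h : H, ∀ x ∈ T, h • x ∈ T)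
    (hfree : ∀ x ∈ T, stabN H x = 1) : Fintype.card H ∣ T.card := by
  classical
  induction T using Finset.strongInduction with
  | H T ih =>
    rcases T.eq_empty_or_nonempty with rfl | ⟨x, hx⟩
    · simp
    · have hsub : orb H x ⊆ T := by
        intro y hy
        obtain ⟨h, rfl⟩ := mem_orbit_iff.1 (mem_orb.1 hy)
        exact hT h x hx
      have hcard : (orb H x).card = Fintype.card H := by
        have := card_orb_mul_stabN (G := H) x
        rw [hfree x hx, mul_one] at this
        exact this
      have hlt : T \ orb H x ⊂ T :=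
        Finset.sdiff_ssubset hsub ⟨x, self_mem_orb x⟩
      have hstable : ∀ h : H, ∀ y ∈ T \ orb H x, h • y ∈ T \ orb H x := by
        intro h y hy
        rw [Finset.mem_sdiff] at hy ⊢
        refine ⟨hT h y hy.1, fun hmem => hy.2 ?_⟩
        rw [mem_orb] at hmem ⊢
        obtain ⟨g, hg⟩ := mem_orbit_iff.1 hmem
        refine mem_orbit_iff.2 ⟨h⁻¹ * g, ?_⟩
        rw [mul_smul, hg, inv_smul_smul]
      have h1 := ih _ hlt hstable (fun y hy => hfree y (Finset.mem_sdiff.1 hy).1)
      have hsplit : T.card = (T \ orb H x).card + (orb H x).card :=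
        (Finset.card_sdiff_add_card_eq_card hsub).symm
      rw [hsplit, hcard]
      exact Dvd.dvd.add h1 (dvd_refl _)

end Free

section Tame

variable {G P : Type*} [Group G] [MulAction G P] [Fintype G] [Fintype P]

open scoped Classical in
/-- **Tame analysis.**  If the sum of `stabN - z` over the complement of the orbit of `x₀` equals
`|G| - z R` with `z R > 0`, and is nonzero, then the points outside that orbit with stabiliser
bigger than `z` form a single orbit, of size `R`. -/
theorem exists_orb_card_eq (x₀ : P) (z R : ℕ) (hz : 0 < z) (hR : 0 < R)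
    (hdvd : ∀ x : P, z ∣ stabN G x) (hpos : ∀ x : P, 0 < stabN G x)
    (hE : ∑ x ∈ (orb G x₀)ᶜ, (stabN G x - z) + z * R = Fintype.card G)
    (hE0 : ∑ x ∈ (orb G x₀)ᶜ, (stabN G x - z) ≠ 0) :
    ∃ x₁ : P, x₁ ∉ orb G x₀ ∧ (orb G x₁).card = R := by
  have hle : ∀ x : P, z ≤ stabN G x := fun x => Nat.le_of_dvd (hpos x) (hdvd x)
  have h2z : ∀ x : P, 0 < stabN G x - z → 2 * z ≤ stabN G x := by
    intro x hx
    obtain ⟨k, hk⟩ := hdvd x
    rw [hk] at hx ⊢
    have : 2 ≤ k := by
      by_contra hk2
      have : k ≤ 1 := by omega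
      have : z * k ≤ z * 1 := Nat.mul_le_mul_left _ this
      omega
    calc 2 * z = z * 2 := by ring
      _ ≤ z * k := Nat.mul_le_mul_left _ this
  obtain ⟨x₁, hx₁mem, hx₁⟩ := Finset.exists_ne_zero_of_sum_ne_zero hE0
  have hx₁Ω : x₁ ∉ orb G x₀ := by simpa using hx₁mem
  have hO₁sub : orb G x₁ ⊆ (orb G x₀)ᶜ := by
    intro w hw
    rw [Finset.mem_compl]
    intro hw0
    exact (Finset.disjoint_left.1 (disjoint_orb hx₁Ω)) hw0 hw
  have hsplit := Finset.sum_sdiff (f := fun x => stabN G x - z) hO₁sub
  have hO₁ := sum_orb_sub (G := G) x₁ z (hle x₁)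
  have hO₁big := two_mul_sum_orb_sub (G := G) x₁ z (h2z x₁ (Nat.pos_of_ne_zero hx₁))
  refine ⟨x₁, hx₁Ω, ?_⟩
  by_cases hrest : ∑ x ∈ (orb G x₀)ᶜ \ orb G x₁, (stabN G x - z) = 0
  · -- the orbit of `x₁` carries everything
    rw [hrest, zero_add] at hsplit
    rw [← hsplit] at hE
    have : z * (orb G x₁).card = z * R := by omega
    exact Nat.eq_of_mul_eq_mul_left hz this
  · exfalso
    obtain ⟨x₂, hx₂mem, hx₂⟩ := Finset.exists_ne_zero_of_sum_ne_zero hrest
    rw [Finset.mem_sdiff, Finset.mem_compl] at hx₂mem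
    have hO₂sub : orb G x₂ ⊆ (orb G x₀)ᶜ \ orb G x₁ := by
      intro w hw
      rw [Finset.mem_sdiff, Finset.mem_compl]
      refine ⟨fun hw0 => ?_, fun hw1 => ?_⟩
      · exact (Finset.disjoint_left.1 (disjoint_orb hx₂mem.1)) hw0 hw
      · exact (Finset.disjoint_left.1 (disjoint_orb hx₂mem.2)) hw1 hw
    have hO₂big := two_mul_sum_orb_sub (G := G) x₂ z (h2z x₂ (Nat.pos_of_ne_zero hx₂))
    have hmono : ∑ y ∈ orb G x₂, (stabN G y - z) ≤
        ∑ x ∈ (orb G x₀)ᶜ \ orb G x₁, (stabN G x - z) :=
      Finset.sum_le_sum_of_subset hO₂sub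
    have hzR : 0 < z * R := Nat.mul_pos hz hR
    omega

end Tame


section Main

variable {G P : Type*} [Group G] [MulAction G P] [Fintype G] [Fintype P]

theorem stabN_pos (x : P) : 0 < stabN G x := by
  classical
  unfold stabN
  exact Finset.card_pos.2 ⟨1, by simp⟩

open scoped Classical in
/-- **Fixed-point count.**  See the header of this file. -/
theorem dvd_two_mul (Z : Subgroup G) [Z.Normal] (x₀ : P) (z q c m : ℕ)
    (hz : Nat.card Z = z) (hZ : ∀ g ∈ Z, ∀ x : P, g • x = x)
    (h12 : ∀ g : G, g ∉ Z → fixN P g = 1 ∨ fixN P g = 2)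
    (hpar : ∀ g : G, g ∉ Z → fixN P g = 1 → ∀ x : P, g • x = x → x ∈ orbit G x₀)
    (hcount : (univ.filter fun g : G => g • x₀ = x₀ ∧ g ∉ Z ∧ fixN P g = 1).card + z = z * q)
    (hstab : stabN G x₀ = z * q * c) (horb : (orb G x₀).card = 1 + m * q)
    (hm : 1 ≤ m) (hq : 3 ≤ q) : m * (q - 2) + 1 ∣ 2 * c := by
  have hzpos : 0 < z := hz ▸ Nat.card_pos
  have hN : (1 + m * q) * (z * q * c) = Fintype.card G := by
    rw [← horb, ← hstab]; exact card_orb_mul_stabN x₀
  have hNpos : 0 < Fintype.card G := Fintype.card_pos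
  have hc : 0 < c := by
    rcases Nat.eq_zero_or_pos c with h0 | h0
    · rw [h0, mul_zero, mul_zero] at hN; omega
    · exact h0
  have hstabΩ : ∀ x ∈ orb G x₀, stabN G x = z * q * c := fun x hx =>
    (stabN_eq_of_mem_orb hx).trans hstab
  -- parabolic elements
  set par : G → Prop := fun g => g ∉ Z ∧ fixN P g = 1 with hpardef
  have hparconj : ∀ h g : G, par (h * g * h⁻¹) ↔ par g := by
    intro h g
    simp only [hpardef, fixN_conj]
    have hZn : h * g * h⁻¹ ∈ Z ↔ g ∈ Z := by
      constructor
      · intro hh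
        have := (inferInstance : Z.Normal).conj_mem _ hh h⁻¹
        simpa [mul_assoc] using this
      · intro hh
        exact (inferInstance : Z.Normal).conj_mem _ hh h
    rw [hZn]
  set a := (univ.filter fun g : G => g • x₀ = x₀ ∧ par g).card with hadef
  have ha : a + z = z * q := hcount
  have hcountω : ∀ ω ∈ orb G x₀, (univ.filter fun g : G => g • ω = ω ∧ par g).card = a := by
    intro ω hω
    obtain ⟨h, rfl⟩ := mem_orbit_iff.1 (mem_orb.1 hω)
    rw [hadef]
    refine (card_bij (fun g _ => h * g * h⁻¹) ?_ ?_ ?_).symm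
    · intro g hg
      simp only [mem_filter, mem_univ, true_and] at hg ⊢
      refine ⟨?_, (hparconj h g).2 hg.2⟩
      rw [mul_smul, mul_smul, inv_smul_smul, hg.1]
    · intro g _ g' _ hgg'
      simpa using hgg'
    · intro g hg
      simp only [mem_filter, mem_univ, true_and] at hg
      refine ⟨h⁻¹ * g * h, ?_, by group⟩
      simp only [mem_filter, mem_univ, true_and]
      refine ⟨?_, ?_⟩
      · rw [mul_smul, mul_smul, hg.1, inv_smul_smul]
      · have := (hparconj h⁻¹ g).2 hg.2
        simpa using this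
  -- the number of parabolic elements
  have hπ : (univ.filter par).card = (1 + m * q) * a := by
    have hdc := sum_card_bipartiteAbove_eq_sum_card_bipartiteBelow
      (s := univ.filter par) (t := orb G x₀) (fun (g : G) (ω : P) => g • ω = ω)
    have hL : ∀ g ∈ univ.filter par, ((orb G x₀).bipartiteAbove (fun (g : G) (ω : P) => g • ω = ω)
        g).card = 1 := by
      intro g hg
      simp only [mem_filter, mem_univ, true_and] at hg
      have : (orb G x₀).bipartiteAbove (fun (g : G) (ω : P) => g • ω = ω) g =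
          univ.filter fun x : P => g • x = x := by
        ext x
        simp only [bipartiteAbove, mem_filter, mem_univ, true_and]
        exact ⟨fun hx => hx.2, fun hx => ⟨mem_orb.2 (hpar g hg.1 hg.2 x hx), hx⟩⟩
      rw [this]
      exact hg.2
    have hR : ∀ ω ∈ orb G x₀, ((univ.filter par).bipartiteBelow
        (fun (g : G) (ω : P) => g • ω = ω) ω).card = a := by
      intro ω hω
      rw [← hcountω ω hω]
      congr 1
      ext g
      simp only [bipartiteBelow, mem_filter, mem_univ, true_and]
      exact and_comm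
    rw [Finset.sum_congr rfl hL, Finset.sum_congr rfl hR, Finset.sum_const, Finset.sum_const,
      smul_eq_mul, smul_eq_mul, mul_one, horb] at hdc
    exact hdc
  -- left-hand side of the master identity
  have hZcard : (univ.filter fun g : G => g ∈ Z).card = z := by
    rw [← hz, Nat.card_eq_fintype_card, Fintype.card_subtype]
  have hNZ : (univ.filter fun g : G => g ∉ Z).card + z = Fintype.card G := by
    rw [← hZcard, add_comm]
    exact Finset.card_filter_add_card_filter_not (s := (univ : Finset G)) (fun g : G => g ∈ Z)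
  have hLZ : ∑ g ∈ univ.filter (fun g : G => g ∈ Z), fixN P g = z * Fintype.card P := by
    have : ∀ g ∈ univ.filter (fun g : G => g ∈ Z), fixN P g = Fintype.card P := by
      intro g hg
      simp only [mem_filter, mem_univ, true_and] at hg
      unfold fixN
      rw [Finset.filter_true_of_mem (fun x _ => hZ g hg x)]
      rfl
    rw [Finset.sum_congr rfl this, Finset.sum_const, smul_eq_mul, hZcard]
  have hLnZ : ∑ g ∈ univ.filter (fun g : G => g ∉ Z), fixN P g + (univ.filter par).card =
      2 * (univ.filter fun g : G => g ∉ Z).card := by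
    have h1 : (univ.filter par).card =
        ∑ g ∈ univ.filter (fun g : G => g ∉ Z), (if fixN P g = 1 then 1 else 0) := by
      rw [← Finset.card_filter, Finset.filter_filter]
    rw [h1, ← Finset.sum_add_distrib]
    have h2 : ∀ g ∈ univ.filter (fun g : G => g ∉ Z),
        fixN P g + (if fixN P g = 1 then 1 else 0) = 2 := by
      intro g hg
      simp only [mem_filter, mem_univ, true_and] at hg
      rcases h12 g hg with h | h <;> simp [h]
    rw [Finset.sum_congr rfl h2, Finset.sum_const, smul_eq_mul, mul_comm]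
  have hL : ∑ g : G, fixN P g = z * Fintype.card P +
      ∑ g ∈ univ.filter (fun g : G => g ∉ Z), fixN P g := by
    rw [← hLZ]
    exact (Finset.sum_filter_add_sum_filter_not univ (fun g : G => g ∈ Z) _).symm
  -- right-hand side
  have hdvd : ∀ x : P, z ∣ stabN G x := fun x => by
    rw [← hz]; exact card_dvd_stabN Z x (fun g hg => hZ g hg x)
  have hle : ∀ x : P, z ≤ stabN G x := fun x => Nat.le_of_dvd (stabN_pos x) (hdvd x)
  have hRΩ : ∑ x ∈ orb G x₀, stabN G x = (1 + m * q) * (z * q * c) := by
    rw [Finset.sum_congr rfl hstabΩ, Finset.sum_const, smul_eq_mul, horb]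
  have hRc : ∑ x ∈ (orb G x₀)ᶜ, stabN G x =
      ∑ x ∈ (orb G x₀)ᶜ, (stabN G x - z) + z * ((orb G x₀)ᶜ).card := by
    have : ∀ x ∈ (orb G x₀)ᶜ, stabN G x = (stabN G x - z) + z := fun x _ => by
      have := hle x; omega
    conv_lhs => rw [Finset.sum_congr rfl this]
    rw [Finset.sum_add_distrib, Finset.sum_const, smul_eq_mul, mul_comm z]
  have hR : ∑ x : P, stabN G x = ∑ x ∈ orb G x₀, stabN G x + ∑ x ∈ (orb G x₀)ᶜ, stabN G x := by
    rw [← Finset.sum_add_sum_compl (orb G x₀)]
  have hPcard : Fintype.card P = (1 + m * q) + ((orb G x₀)ᶜ).card := by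
    rw [← horb, Finset.card_compl]
    have := Finset.card_le_univ (orb G x₀)
    omega
  -- master identity
  have hmaster := sum_fixN_eq_sum_stabN (G := G) (P := P)
  rw [hL, hR, hRΩ, hRc, hPcard] at hmaster
  set E := ∑ x ∈ (orb G x₀)ᶜ, (stabN G x - z) with hEdef
  set Sg := ∑ g ∈ univ.filter (fun g : G => g ∉ Z), fixN P g with hSg
  set N' := (univ.filter fun g : G => g ∉ Z).card with hN'
  set Cc := ((orb G x₀)ᶜ).card with hCc
  rw [hπ] at hLnZ
  -- now pure arithmetic
  have hW4 : 4 ≤ 1 + m * q := by nlinarith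
  have hkey : E + z * ((1 + m * q) * (q - 2) + 2) = Fintype.card G := by
    obtain ⟨k, rfl⟩ : ∃ k, q = k + 2 := ⟨q - 2, by omega⟩
    simp only [Nat.add_sub_cancel] at *
    have e1 : z * (1 + m * (k + 2) + Cc) = z * (1 + m * (k + 2)) + z * Cc := by ring
    have e2 : (1 + m * (k + 2)) * (z * (k + 2) * c) = Fintype.card G := hN
    have e3 : (1 + m * (k + 2)) * (a + z) = (1 + m * (k + 2)) * (z * (k + 2)) := by rw [ha]
    have e4 : z * ((1 + m * (k + 2)) * k + 2) + 2 * (z * (1 + m * (k + 2))) =
        (1 + m * (k + 2)) * (z * (k + 2)) + 2 * z := by ring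
    have e5 : (1 + m * (k + 2)) * (a + z) = (1 + m * (k + 2)) * a + z * (1 + m * (k + 2)) := by
      ring
    omega
  have hR0 : 0 < (1 + m * q) * (q - 2) + 2 := by omega
  have hE0 : E ≠ 0 := by
    intro hE0
    rw [hE0, zero_add] at hkey
    rw [← hN] at hkey
    have h1 : (1 + m * q) * (z * q * c) = z * ((1 + m * q) * (q * c)) := by ring
    rw [h1] at hkey
    have h2 := Nat.eq_of_mul_eq_mul_left hzpos hkey
    have h3 : (1 + m * q) * q ≤ (1 + m * q) * (q * c) := by
      apply Nat.mul_le_mul_left
      exact Nat.le_mul_of_pos_right q hc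
    obtain ⟨k, rfl⟩ : ∃ k, q = k + 2 := ⟨q - 2, by omega⟩
    simp only [Nat.add_sub_cancel] at h2
    have h4 : (1 + m * (k + 2)) * (k + 2) = (1 + m * (k + 2)) * k + 2 * (1 + m * (k + 2)) := by
      ring
    omega
  obtain ⟨x₁, -, hx₁⟩ := exists_orb_card_eq (G := G) x₀ z _ hzpos hR0 hdvd stabN_pos hkey hE0
  have h5 := card_orb_mul_stabN (G := G) x₁
  obtain ⟨k, hk⟩ := hdvd x₁
  rw [hx₁, hk, ← hN] at h5
  have h6 : ((1 + m * q) * (q - 2) + 2) * k = (1 + m * q) * q * c := by
    have e1 : ((1 + m * q) * (q - 2) + 2) * (z * k) = z * (((1 + m * q) * (q - 2) + 2) * k) := by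
      ring
    have e2 : (1 + m * q) * (z * q * c) = z * ((1 + m * q) * q * c) := by ring
    rw [e1, e2] at h5
    exact Nat.eq_of_mul_eq_mul_left hzpos h5
  exact arith_dvd (by omega) ⟨k, h6.symm⟩

/-- Corollary: `q - 1 ≤ 2 c`. -/
theorem sub_one_le_two_mul (Z : Subgroup G) [Z.Normal] (x₀ : P) (z q c m : ℕ)
    (hz : Nat.card Z = z) (hZ : ∀ g ∈ Z, ∀ x : P, g • x = x)
    (h12 : ∀ g : G, g ∉ Z → fixN P g = 1 ∨ fixN P g = 2)
    (hpar : ∀ g : G, g ∉ Z → fixN P g = 1 → ∀ x : P, g • x = x → x ∈ orbit G x₀)
    (hcount : by classical exact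
      (univ.filter fun g : G => g • x₀ = x₀ ∧ g ∉ Z ∧ fixN P g = 1).card + z = z * q)
    (hstab : stabN G x₀ = z * q * c) (horb : (orb G x₀).card = 1 + m * q)
    (hm : 1 ≤ m) (hq : 3 ≤ q) (hc : 0 < c) : q - 1 ≤ 2 * c := by
  classical
  have h := dvd_two_mul Z x₀ z q c m hz hZ h12 hpar hcount hstab horb hm hq
  have h1 : m * (q - 2) + 1 ≤ 2 * c := Nat.le_of_dvd (by omega) h
  have h2 : 1 * (q - 2) ≤ m * (q - 2) := Nat.mul_le_mul_right _ hm
  omega

/-- The fixed-point count in `Nat.card` form. -/
theorem sub_one_le_two_mul' (Z : Subgroup G) [Z.Normal] (x₀ : P) (z q c m : ℕ)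
    (hz : Nat.card Z = z) (hZ : ∀ g ∈ Z, ∀ x : P, g • x = x)
    (h12 : ∀ g : G, g ∉ Z → fixN P g = 1 ∨ fixN P g = 2)
    (hpar : ∀ g : G, g ∉ Z → fixN P g = 1 → ∀ x : P, g • x = x → x ∈ orbit G x₀)
    (hcount : Nat.card {g : G // g • x₀ = x₀ ∧ g ∉ Z ∧ fixN P g = 1} + z = z * q)
    (hstab : Nat.card (stabilizer G x₀) = z * q * c)
    (horb : Nat.card (orbit G x₀) = 1 + m * q)
    (hm : 1 ≤ m) (hq : 3 ≤ q) (hc : 0 < c) : q - 1 ≤ 2 * c := by
  classical
  refine sub_one_le_two_mul Z x₀ z q c m hz hZ h12 hpar ?_ ?_ ?_ hm hq hc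
  · rw [← hcount, Nat.card_eq_fintype_card, Fintype.card_subtype]
  · rw [stabN_eq_natCard, hstab]
  · rw [card_orb_eq_natCard, horb]

end Main

end Fermat.Agent.S56.Group.FixCount
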