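/-
Fixed points of elements of `SL₂(K)` on the projective line `ℙ K (Fin 2 → K)`:
an element different from `±1` which has an eigenvector has exactly one fixed point if its trace
is `±2` and exactly two fixed points otherwise.
-/
import Mathlib
import Fermat.Agent.S56.Group.FixCount

set_option autoImplicit false

namespace Fermat.Agent.S56.Group.SL2Points

open scoped LinearAlgebra.Projectivization Matrix
open Projectivization Finset Fermat.Agent.S56.Group.FixCount

/-- `SL₂(K)`. -/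
abbrev SL2 (K : Type*) [Field K] := Matrix.SpecialLinearGroup (Fin 2) K

/-- The projective line over `K`. -/
abbrev P1 (K : Type*) [Field K] := ℙ K (Fin 2 → K)

section Basic

variable {K : Type*} [Field K]

theorem vec_ne_zero {x y : K} (h : x ≠ 0 ∨ y ≠ 0) : ![x, y] ≠ 0 := by
  intro h0
  have h1 := congrFun h0 0
  have h2 := congrFun h0 1
  simp at h1 h2
  rcases h with h | h
  · exact h h1
  · exact h h2

/-- The point `[x : y]`. -/
noncomputable def pt (x y : K) (h : x ≠ 0 ∨ y ≠ 0) : P1 K := mk K ![x, y] (vec_ne_zero h)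

/-- The point at infinity `[1 : 0]`. -/
noncomputable def inf (K : Type*) [Field K] : P1 K := pt 1 0 (Or.inl one_ne_zero)

theorem exists_pt (w : P1 K) : ∃ (x y : K) (h : x ≠ 0 ∨ y ≠ 0), w = pt x y h := by
  induction w using Projectivization.ind with
  | h v hv =>
    have h : v 0 ≠ 0 ∨ v 1 ≠ 0 := by
      by_contra hcon
      push Not at hcon
      apply hv
      ext i
      fin_cases i
      · exact hcon.1
      · exact hcon.2
    refine ⟨v 0, v 1, h, ?_⟩
    unfold pt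
    congr 1
    ext i
    fin_cases i <;> rfl

theorem pt_eq_pt_iff {a b x y : K} (h : a ≠ 0 ∨ b ≠ 0) (h' : x ≠ 0 ∨ y ≠ 0) :
    pt a b h = pt x y h' ↔ a * y = b * x := by
  unfold pt
  rw [mk_eq_mk_iff']
  constructor
  · rintro ⟨c, hc⟩
    have h0 := congrFun hc 0
    have h1 := congrFun hc 1
    simp at h0 h1
    rw [← h0, ← h1]
    ring
  · intro hab
    by_cases hx : x = 0
    · have hy : y ≠ 0 := by
        rcases h' with h' | h'
        · exact absurd hx h'
        · exact h'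
      have ha : a = 0 := by
        rw [hx, mul_zero] at hab
        rcases mul_eq_zero.1 hab with h1 | h1
        · exact h1
        · exact absurd h1 hy
      refine ⟨b / y, ?_⟩
      ext i
      fin_cases i
      · simp [hx, ha]
      · simp [div_mul_cancel₀ _ hy]
    · refine ⟨a / x, ?_⟩
      ext i
      fin_cases i
      · simp [div_mul_cancel₀ _ hx]
      · simp
        field_simp
        linear_combination hab

theorem smul_vec (g : SL2 K) (x y : K) :
    g • ![x, y] = ![g.1 0 0 * x + g.1 0 1 * y, g.1 1 0 * x + g.1 1 1 * y] := by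
  show g.1 *ᵥ ![x, y] = _
  ext i
  fin_cases i <;> simp [Matrix.mulVec, dotProduct, Fin.sum_univ_two]

theorem det_eq (g : SL2 K) : g.1 0 0 * g.1 1 1 - g.1 0 1 * g.1 1 0 = 1 := by
  have := g.2
  rwa [Matrix.det_fin_two] at this

theorem smul_pt_ne (g : SL2 K) {x y : K} (h : x ≠ 0 ∨ y ≠ 0) :
    g.1 0 0 * x + g.1 0 1 * y ≠ 0 ∨ g.1 1 0 * x + g.1 1 1 * y ≠ 0 := by
  by_contra hcon
  push Not at hcon
  have hd := det_eq g
  have hx : x = 0 := by
    have : x = (g.1 0 0 * g.1 1 1 - g.1 0 1 * g.1 1 0) * x := by rw [hd, one_mul]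
    rw [this]
    linear_combination g.1 1 1 * hcon.1 - g.1 0 1 * hcon.2
  have hy : y = 0 := by
    have : y = (g.1 0 0 * g.1 1 1 - g.1 0 1 * g.1 1 0) * y := by rw [hd, one_mul]
    rw [this]
    linear_combination g.1 0 0 * hcon.2 - g.1 1 0 * hcon.1
  rcases h with h | h
  · exact h hx
  · exact h hy

theorem smul_pt (g : SL2 K) {x y : K} (h : x ≠ 0 ∨ y ≠ 0) :
    g • pt x y h = pt (g.1 0 0 * x + g.1 0 1 * y) (g.1 1 0 * x + g.1 1 1 * y) (smul_pt_ne g h) := by
  unfold pt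
  rw [smul_mk]
  congr 1
  exact smul_vec g x y

/-- Fixed-point equation. -/
theorem smul_pt_eq_iff (g : SL2 K) {x y : K} (h : x ≠ 0 ∨ y ≠ 0) :
    g • pt x y h = pt x y h ↔
      (g.1 0 0 * x + g.1 0 1 * y) * y = (g.1 1 0 * x + g.1 1 1 * y) * x := by
  rw [smul_pt, pt_eq_pt_iff]

theorem smul_inf_eq_iff (g : SL2 K) : g • inf K = inf K ↔ g.1 1 0 = 0 := by
  unfold inf
  rw [smul_pt_eq_iff]
  simp
  exact eq_comm

end Basic


section Upper

variable {K : Type*} [Field K] [Finite K]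

/-- A `Fintype` structure on the projective line over a finite field (scoped). -/
noncomputable scoped instance instFintypeP1 : Fintype (P1 K) := Fintype.ofFinite _

/-- A `Fintype` structure on `SL₂` of a finite field (scoped). -/
noncomputable scoped instance instFintypeSL2 : Fintype (SL2 K) := Fintype.ofFinite _

/-- A `Fintype` structure on subgroups of `SL₂` of a finite field (scoped). -/
noncomputable scoped instance instFintypeSubgroupSL2 (G : Subgroup (SL2 K)) : Fintype G :=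
  Fintype.ofFinite _

open scoped Classical in
/-- An upper triangular element with distinct diagonal entries has exactly two fixed points. -/
theorem fixN_upper_of_ne (t : SL2 K) (h10 : t.1 1 0 = 0) (hne : t.1 0 0 ≠ t.1 1 1) :
    fixN (P1 K) t = 2 := by
  have hw : -t.1 0 1 ≠ 0 ∨ t.1 0 0 - t.1 1 1 ≠ 0 := Or.inr (sub_ne_zero.2 hne)
  have hset : (univ.filter fun w : P1 K => t • w = w) = {inf K, pt (-t.1 0 1) (t.1 0 0 - t.1 1 1) hw} := by
    ext w
    obtain ⟨x, y, h, rfl⟩ := exists_pt w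
    simp only [mem_filter, mem_univ, true_and, mem_insert, mem_singleton]
    rw [smul_pt_eq_iff, h10, inf, pt_eq_pt_iff, pt_eq_pt_iff]
    constructor
    · intro hfix
      have : y * ((t.1 0 0 - t.1 1 1) * x + t.1 0 1 * y) = 0 := by linear_combination hfix
      rcases mul_eq_zero.1 this with h1 | h1
      · left; rw [h1]; ring
      · right; linear_combination h1
    · rintro (h1 | h1)
      · have hy : y = 0 := by linear_combination -h1
        rw [hy]; ring
      · linear_combination y * h1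
  unfold fixN
  rw [hset, Finset.card_pair]
  rw [inf, Ne, pt_eq_pt_iff]
  intro h1
  apply hne
  have : t.1 0 0 - t.1 1 1 = 0 := by linear_combination h1
  exact sub_eq_zero.1 this

open scoped Classical in
/-- An upper triangular element with equal diagonal entries, not diagonal, has `∞` as its only
fixed point. -/
theorem fix_upper_of_eq (t : SL2 K) (h10 : t.1 1 0 = 0) (heq : t.1 0 0 = t.1 1 1)
    (hb : t.1 0 1 ≠ 0) (w : P1 K) : t • w = w ↔ w = inf K := by
  obtain ⟨x, y, h, rfl⟩ := exists_pt w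
  rw [smul_pt_eq_iff, h10, inf, pt_eq_pt_iff, heq]
  constructor
  · intro hfix
    have : t.1 0 1 * (y * y) = 0 := by linear_combination hfix
    rcases mul_eq_zero.1 this with h1 | h1
    · exact absurd h1 hb
    · have hy : y = 0 := by
        rcases mul_eq_zero.1 h1 with h2 | h2 <;> exact h2
      rw [hy]; ring
  · intro h1
    have hy : y = 0 := by linear_combination -h1
    rw [hy]; ring

open scoped Classical in
theorem fixN_upper_of_eq (t : SL2 K) (h10 : t.1 1 0 = 0) (heq : t.1 0 0 = t.1 1 1)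
    (hb : t.1 0 1 ≠ 0) : fixN (P1 K) t = 1 := by
  have hset : (univ.filter fun w : P1 K => t • w = w) = {inf K} := by
    ext w
    simp only [mem_filter, mem_univ, true_and, mem_singleton]
    exact fix_upper_of_eq t h10 heq hb w
  unfold fixN
  rw [hset, Finset.card_singleton]

end Upper


section Scalar

variable {K : Type*} [Field K]

/-- Scalar matrices in `SL₂(K)` (i.e. `±1`). -/
def IsScalar (g : SL2 K) : Prop := g.1 0 1 = 0 ∧ g.1 1 0 = 0 ∧ g.1 0 0 = g.1 1 1

theorem isScalar_iff (g : SL2 K) :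
    IsScalar g ↔ g.1 = (g.1 0 0) • (1 : Matrix (Fin 2) (Fin 2) K) := by
  constructor
  · rintro ⟨h1, h2, h3⟩
    ext i j
    fin_cases i <;> fin_cases j <;> simp [h1, h2, ← h3]
  · intro h
    refine ⟨?_, ?_, ?_⟩
    · have := congrFun (congrFun h 0) 1; simpa using this
    · have := congrFun (congrFun h 1) 0; simpa using this
    · have := congrFun (congrFun h 1) 1; simpa using this.symm

theorem isScalar_of_eq_smul_one (g : SL2 K) (a : K)
    (h : g.1 = a • (1 : Matrix (Fin 2) (Fin 2) K)) : IsScalar g := by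
  refine ⟨?_, ?_, ?_⟩
  · have := congrFun (congrFun h 0) 1; simpa using this
  · have := congrFun (congrFun h 1) 0; simpa using this
  · have h0 := congrFun (congrFun h 0) 0
    have h1 := congrFun (congrFun h 1) 1
    simp at h0 h1
    rw [h0, h1]

theorem isScalar_one : IsScalar (1 : SL2 K) := by
  refine ⟨?_, ?_, ?_⟩ <;> simp

theorem IsScalar.mul {g h : SL2 K} (hg : IsScalar g) (hh : IsScalar h) : IsScalar (g * h) := by
  obtain ⟨a, ha⟩ : ∃ a : K, g.1 = a • (1 : Matrix (Fin 2) (Fin 2) K) := ⟨_, (isScalar_iff g).1 hg⟩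
  obtain ⟨b, hb⟩ : ∃ b : K, h.1 = b • (1 : Matrix (Fin 2) (Fin 2) K) := ⟨_, (isScalar_iff h).1 hh⟩
  apply isScalar_of_eq_smul_one _ (a * b)
  rw [Matrix.SpecialLinearGroup.coe_mul, ha, hb]
  simp [smul_smul, mul_comm]

theorem IsScalar.conj {g : SL2 K} (hg : IsScalar g) (h : SL2 K) : IsScalar (h * g * h⁻¹) := by
  obtain ⟨a, ha⟩ : ∃ a : K, g.1 = a • (1 : Matrix (Fin 2) (Fin 2) K) := ⟨_, (isScalar_iff g).1 hg⟩
  apply isScalar_of_eq_smul_one _ a
  rw [Matrix.SpecialLinearGroup.coe_mul, Matrix.SpecialLinearGroup.coe_mul, ha]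
  rw [Matrix.mul_smul, Matrix.mul_one, Matrix.smul_mul]
  congr 1
  rw [← Matrix.SpecialLinearGroup.coe_mul, mul_inv_cancel]
  rfl

theorem IsScalar.inv {g : SL2 K} (hg : IsScalar g) : IsScalar g⁻¹ := by
  have h1 := hg.conj g⁻¹
  have h2 : g⁻¹ * g * g⁻¹⁻¹ = g := by group
  rw [h2] at h1
  -- inverse of a scalar: use adjugate formula
  obtain ⟨h01, h10, h00⟩ := hg
  refine ⟨?_, ?_, ?_⟩
  · rw [Matrix.SpecialLinearGroup.coe_inv, Matrix.adjugate_fin_two]; simp [h01]
  · rw [Matrix.SpecialLinearGroup.coe_inv, Matrix.adjugate_fin_two]; simp [h10]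
  · rw [Matrix.SpecialLinearGroup.coe_inv, Matrix.adjugate_fin_two]; simp [h00]

theorem isScalar_conj_iff (g h : SL2 K) : IsScalar (h * g * h⁻¹) ↔ IsScalar g := by
  constructor
  · intro hh
    have := hh.conj h⁻¹
    have e : h⁻¹ * (h * g * h⁻¹) * h⁻¹⁻¹ = g := by group
    rwa [e] at this
  · intro hg
    exact hg.conj h

/-- Scalar matrices act trivially on the projective line. -/
theorem IsScalar.smul_eq {g : SL2 K} (hg : IsScalar g) (w : P1 K) : g • w = w := by
  obtain ⟨x, y, h, rfl⟩ := exists_pt w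
  rw [smul_pt_eq_iff, hg.1, hg.2.1, hg.2.2]
  ring

/-- The diagonal entry of a scalar matrix in `SL₂` squares to one. -/
theorem IsScalar.sq_eq_one {g : SL2 K} (hg : IsScalar g) : g.1 0 0 * g.1 0 0 = 1 := by
  have := det_eq g
  rw [hg.1, ← hg.2.2] at this
  linear_combination this

end Scalar

section General

variable {K : Type*} [Field K] [Finite K]

/-- Dichotomy: a non-scalar element of `SL₂(K)` with a fixed point on the projective line has
exactly one or exactly two fixed points. -/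
theorem fixN_eq_one_or_two (g : SL2 K) (hg : ¬ IsScalar g) (hfix : ∃ w : P1 K, g • w = w) :
    fixN (P1 K) g = 1 ∨ fixN (P1 K) g = 2 := by
  obtain ⟨w, hw⟩ := hfix
  obtain ⟨h, hh⟩ := MulAction.exists_smul_eq (SL2 K) w (inf K)
  set t := h * g * h⁻¹ with ht
  have htinf : t • inf K = inf K := by
    rw [ht, mul_smul, mul_smul, ← hh, inv_smul_smul, hw]
  have h10 : t.1 1 0 = 0 := (smul_inf_eq_iff t).1 htinf
  have hfixN : fixN (P1 K) t = fixN (P1 K) g := fixN_conj h g
  have htsc : ¬ IsScalar t := fun hsc => hg ((isScalar_conj_iff g h).1 hsc)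
  rw [← hfixN]
  by_cases hne : t.1 0 0 = t.1 1 1
  · left
    apply fixN_upper_of_eq t h10 hne
    intro hb
    exact htsc ⟨hb, h10, hne⟩
  · right
    exact fixN_upper_of_ne t h10 hne

end General


section Unipotent

variable {K : Type*} [Field K]

/-- The upper unipotent matrix `[[1, x], [0, 1]]`. -/
def u (x : K) : SL2 K := ⟨!![1, x; 0, 1], by simp [Matrix.det_fin_two]⟩

@[simp] theorem u_00 (x : K) : (u x).1 0 0 = 1 := rfl
@[simp] theorem u_01 (x : K) : (u x).1 0 1 = x := rfl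
@[simp] theorem u_10 (x : K) : (u x).1 1 0 = 0 := rfl
@[simp] theorem u_11 (x : K) : (u x).1 1 1 = 1 := rfl

theorem sl2_ext {g h : SL2 K} (h00 : g.1 0 0 = h.1 0 0) (h01 : g.1 0 1 = h.1 0 1)
    (h10 : g.1 1 0 = h.1 1 0) (h11 : g.1 1 1 = h.1 1 1) : g = h := by
  apply Subtype.ext
  ext i j
  fin_cases i <;> fin_cases j <;> assumption

theorem mul_00 (g h : SL2 K) : (g * h).1 0 0 = g.1 0 0 * h.1 0 0 + g.1 0 1 * h.1 1 0 := by
  rw [Matrix.SpecialLinearGroup.coe_mul, Matrix.mul_apply, Fin.sum_univ_two]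

theorem mul_01 (g h : SL2 K) : (g * h).1 0 1 = g.1 0 0 * h.1 0 1 + g.1 0 1 * h.1 1 1 := by
  rw [Matrix.SpecialLinearGroup.coe_mul, Matrix.mul_apply, Fin.sum_univ_two]

theorem mul_10 (g h : SL2 K) : (g * h).1 1 0 = g.1 1 0 * h.1 0 0 + g.1 1 1 * h.1 1 0 := by
  rw [Matrix.SpecialLinearGroup.coe_mul, Matrix.mul_apply, Fin.sum_univ_two]

theorem mul_11 (g h : SL2 K) : (g * h).1 1 1 = g.1 1 0 * h.1 0 1 + g.1 1 1 * h.1 1 1 := by
  rw [Matrix.SpecialLinearGroup.coe_mul, Matrix.mul_apply, Fin.sum_univ_two]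

theorem inv_00 (g : SL2 K) : (g⁻¹).1 0 0 = g.1 1 1 := by
  rw [Matrix.SpecialLinearGroup.coe_inv, Matrix.adjugate_fin_two]; simp

theorem inv_01 (g : SL2 K) : (g⁻¹).1 0 1 = -g.1 0 1 := by
  rw [Matrix.SpecialLinearGroup.coe_inv, Matrix.adjugate_fin_two]; simp

theorem inv_10 (g : SL2 K) : (g⁻¹).1 1 0 = -g.1 1 0 := by
  rw [Matrix.SpecialLinearGroup.coe_inv, Matrix.adjugate_fin_two]; simp

theorem inv_11 (g : SL2 K) : (g⁻¹).1 1 1 = g.1 0 0 := by
  rw [Matrix.SpecialLinearGroup.coe_inv, Matrix.adjugate_fin_two]; simp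

theorem one_00 : (1 : SL2 K).1 0 0 = 1 := by simp
theorem one_01 : (1 : SL2 K).1 0 1 = 0 := by simp
theorem one_10 : (1 : SL2 K).1 1 0 = 0 := by simp
theorem one_11 : (1 : SL2 K).1 1 1 = 1 := by simp

theorem u_zero : u (0 : K) = 1 := by
  apply sl2_ext <;> simp

theorem u_add (x y : K) : u (x + y) = u x * u y := by
  apply sl2_ext
  · rw [mul_00]; simp
  · rw [mul_01]; simp [add_comm]
  · rw [mul_10]; simp
  · rw [mul_11]; simp

theorem u_neg (x : K) : u (-x) = (u x)⁻¹ := by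
  apply sl2_ext
  · rw [inv_00]; simp
  · rw [inv_01]; simp
  · rw [inv_10]; simp
  · rw [inv_11]; simp

theorem u_injective : Function.Injective (u : K → SL2 K) := by
  intro x y h
  have := congrArg (fun g : SL2 K => g.1 0 1) h
  simpa using this

theorem u_pow (x : K) (n : ℕ) : (u x) ^ n = u (n * x) := by
  induction n with
  | zero => simp [u_zero]
  | succ n ih => rw [pow_succ, ih, ← u_add]; congr 1; push_cast; ring

/-- An element of `SL₂` with `g₁₀ = 0`, `g₀₀ = g₁₁ = 1` is `u g₀₁`. -/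
theorem eq_u_of {g : SL2 K} (h10 : g.1 1 0 = 0) (h00 : g.1 0 0 = 1) (h11 : g.1 1 1 = 1) :
    g = u (g.1 0 1) := by
  apply sl2_ext <;> simp [h10, h00, h11]

/-- Entries of powers of an upper triangular matrix with equal diagonal entries. -/
theorem pow_upper (g : SL2 K) (h10 : g.1 1 0 = 0) (heq : g.1 0 0 = g.1 1 1) (n : ℕ) :
    (g ^ n).1 1 0 = 0 ∧ (g ^ n).1 0 0 = g.1 0 0 ^ n ∧ (g ^ n).1 1 1 = g.1 0 0 ^ n ∧
      (g ^ (n + 1)).1 0 1 = (n + 1 : ℕ) * g.1 0 0 ^ n * g.1 0 1 := by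
  induction n with
  | zero => simp
  | succ n ih =>
    obtain ⟨i10, i00, i11, i01⟩ := ih
    have e10 : (g ^ (n + 1)).1 1 0 = 0 := by
      rw [pow_succ, mul_10, i10, h10]; ring
    have e00 : (g ^ (n + 1)).1 0 0 = g.1 0 0 ^ (n + 1) := by
      rw [pow_succ, mul_00, i00, h10]; ring
    have e11 : (g ^ (n + 1)).1 1 1 = g.1 0 0 ^ (n + 1) := by
      rw [pow_succ, mul_11, i11, i10, ← heq]; ring
    refine ⟨e10, e00, e11, ?_⟩
    rw [pow_succ, mul_01, e00, i01, ← heq]
    push_cast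
    ring

/-- The diagonal of powers of an arbitrary upper triangular matrix. -/
theorem pow_upper_diag (g : SL2 K) (h10 : g.1 1 0 = 0) (n : ℕ) :
    (g ^ n).1 1 0 = 0 ∧ (g ^ n).1 0 0 = g.1 0 0 ^ n ∧ (g ^ n).1 1 1 = g.1 1 1 ^ n := by
  induction n with
  | zero => simp
  | succ n ih =>
    obtain ⟨i10, i00, i11⟩ := ih
    refine ⟨?_, ?_, ?_⟩
    · rw [pow_succ, mul_10, i10, h10]; ring
    · rw [pow_succ, mul_00, i00, h10]; ring
    · rw [pow_succ, mul_11, i11, i10]; ring

end Unipotent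


section Group

variable {K : Type*} [Field K] (G : Subgroup (SL2 K))

/-- The scalar matrices of `G`, as a subgroup of `G`. -/
def Zs : Subgroup G where
  carrier := {g | IsScalar (g : SL2 K)}
  mul_mem' := fun ha hb => IsScalar.mul ha hb
  one_mem' := isScalar_one
  inv_mem' := fun ha => IsScalar.inv ha

theorem mem_Zs {g : G} : g ∈ Zs G ↔ IsScalar (g : SL2 K) := Iff.rfl

instance : (Zs G).Normal :=
  ⟨fun n hn g => by
    show IsScalar ((g * n * g⁻¹ : G) : SL2 K)
    have := IsScalar.conj (mem_Zs G |>.1 hn) (g : SL2 K)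
    simpa using this⟩

/-- The additive group of `x` with `u x ∈ G`. -/
def X : AddSubgroup K where
  carrier := {x | u x ∈ G}
  add_mem' := fun {a b} ha hb => by
    show u (a + b) ∈ G
    rw [u_add]; exact G.mul_mem ha hb
  zero_mem' := by
    show u 0 ∈ G
    rw [u_zero]; exact G.one_mem
  neg_mem' := fun {a} ha => by
    show u (-a) ∈ G
    rw [u_neg]; exact G.inv_mem ha

theorem mem_X {x : K} : x ∈ X G ↔ u x ∈ G := Iff.rfl

/-- The unipotent upper triangular elements of `G`, as a subgroup of `G`. -/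
def Us : Subgroup G where
  carrier := {g | g.1.1 1 0 = 0 ∧ g.1.1 0 0 = 1 ∧ g.1.1 1 1 = 1}
  mul_mem' := fun {a b} ha hb => by
    obtain ⟨a10, a00, a11⟩ := ha
    obtain ⟨b10, b00, b11⟩ := hb
    refine ⟨?_, ?_, ?_⟩
    · show ((a : SL2 K) * (b : SL2 K)).1 1 0 = 0
      rw [mul_10, a10, b10]; ring
    · show ((a : SL2 K) * (b : SL2 K)).1 0 0 = 1
      rw [mul_00, a00, b00, b10]; ring
    · show ((a : SL2 K) * (b : SL2 K)).1 1 1 = 1
      rw [mul_11, a11, b11, a10]; ring
  one_mem' := ⟨one_10, one_00, one_11⟩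
  inv_mem' := fun {a} ha => by
    obtain ⟨a10, a00, a11⟩ := ha
    refine ⟨?_, ?_, ?_⟩
    · show ((a : SL2 K)⁻¹).1 1 0 = 0
      rw [inv_10, a10, neg_zero]
    · show ((a : SL2 K)⁻¹).1 0 0 = 1
      rw [inv_00, a11]
    · show ((a : SL2 K)⁻¹).1 1 1 = 1
      rw [inv_11, a00]

theorem mem_Us {g : G} : g ∈ Us G ↔ g.1.1 1 0 = 0 ∧ g.1.1 0 0 = 1 ∧ g.1.1 1 1 = 1 := Iff.rfl

theorem mem_Us_iff_eq_u {g : G} : g ∈ Us G ↔ (g : SL2 K) = u (g.1.1 0 1) := by
  constructor
  · rintro ⟨h10, h00, h11⟩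
    exact eq_u_of h10 h00 h11
  · intro h
    refine ⟨?_, ?_, ?_⟩
    · have := congrArg (fun t : SL2 K => t.1 1 0) h; simpa using this
    · have := congrArg (fun t : SL2 K => t.1 0 0) h; simpa using this
    · have := congrArg (fun t : SL2 K => t.1 1 1) h; simpa using this

/-- `Us G` is in bijection with `X G`. -/
noncomputable def equivUsX : Us G ≃ X G where
  toFun g := ⟨g.1.1.1 0 1, by
    show u (g.1.1.1 0 1) ∈ G
    rw [← (mem_Us_iff_eq_u G).1 g.2]; exact g.1.2⟩
  invFun x := ⟨⟨u x.1, x.2⟩, ⟨u_10 _, u_00 _, u_11 _⟩⟩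
  left_inv g := by
    apply Subtype.ext; apply Subtype.ext
    exact ((mem_Us_iff_eq_u G).1 g.2).symm
  right_inv x := by
    apply Subtype.ext
    rfl

theorem card_Us : Nat.card (Us G) = Nat.card (X G) := Nat.card_congr (equivUsX G)

theorem mem_stabilizer_iff {g : G} :
    g ∈ MulAction.stabilizer G (inf K) ↔ g.1.1 1 0 = 0 := by
  rw [MulAction.mem_stabilizer_iff]
  exact smul_inf_eq_iff (g : SL2 K)

/-- The diagonal entry is nonzero. -/
theorem entry_00_ne_zero {g : SL2 K} (h10 : g.1 1 0 = 0) : g.1 0 0 ≠ 0 := by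
  intro h0
  have := det_eq g
  rw [h0, h10] at this
  simp at this

/-- The character `g ↦ g₀₀²` of the stabiliser of `∞`. -/
noncomputable def alpha : MulAction.stabilizer G (inf K) →* Kˣ where
  toFun g := Units.mk0 (g.1.1.1 0 0 * g.1.1.1 0 0)
    (mul_ne_zero (entry_00_ne_zero ((mem_stabilizer_iff G).1 g.2))
      (entry_00_ne_zero ((mem_stabilizer_iff G).1 g.2)))
  map_one' := by
    apply Units.ext
    show (1 : SL2 K).1 0 0 * (1 : SL2 K).1 0 0 = 1
    simp
  map_mul' := fun a b => by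
    apply Units.ext
    show ((a.1 : SL2 K) * (b.1 : SL2 K)).1 0 0 * ((a.1 : SL2 K) * (b.1 : SL2 K)).1 0 0 =
      (a.1.1.1 0 0 * a.1.1.1 0 0) * (b.1.1.1 0 0 * b.1.1.1 0 0)
    rw [mul_00, (mem_stabilizer_iff G).1 b.2]
    ring

theorem alpha_apply (g : MulAction.stabilizer G (inf K)) :
    ((alpha G g : Kˣ) : K) = g.1.1.1 0 0 * g.1.1.1 0 0 := rfl

/-- The group of values of `alpha`. -/
noncomputable def A : Subgroup Kˣ := (alpha G).range

theorem mem_A {a : Kˣ} : a ∈ A G ↔ ∃ g : G, g.1.1 1 0 = 0 ∧ (a : K) = g.1.1 0 0 * g.1.1 0 0 := by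
  constructor
  · rintro ⟨g, rfl⟩
    exact ⟨g.1, (mem_stabilizer_iff G).1 g.2, rfl⟩
  · rintro ⟨g, h10, ha⟩
    refine ⟨⟨g, (mem_stabilizer_iff G).2 h10⟩, ?_⟩
    apply Units.ext
    rw [alpha_apply, ha]

/-- The elements of the stabiliser with equal diagonal entries. -/
def Ts : Subgroup G where
  carrier := {g | g.1.1 1 0 = 0 ∧ g.1.1 0 0 = g.1.1 1 1}
  mul_mem' := fun {a b} ha hb => by
    obtain ⟨a10, aeq⟩ := ha
    obtain ⟨b10, beq⟩ := hb
    refine ⟨?_, ?_⟩
    · show ((a : SL2 K) * (b : SL2 K)).1 1 0 = 0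
      rw [mul_10, a10, b10]; ring
    · show ((a : SL2 K) * (b : SL2 K)).1 0 0 = ((a : SL2 K) * (b : SL2 K)).1 1 1
      rw [mul_00, mul_11, a10, b10, aeq, beq]; ring
  one_mem' := ⟨one_10, by
    show (1 : SL2 K).1 0 0 = (1 : SL2 K).1 1 1
    rw [one_00, one_11]⟩
  inv_mem' := fun {a} ha => by
    obtain ⟨a10, aeq⟩ := ha
    refine ⟨?_, ?_⟩
    · show ((a : SL2 K)⁻¹).1 1 0 = 0
      rw [inv_10, a10, neg_zero]
    · show ((a : SL2 K)⁻¹).1 0 0 = ((a : SL2 K)⁻¹).1 1 1
      rw [inv_00, inv_11, aeq]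

theorem mem_Ts {g : G} : g ∈ Ts G ↔ g.1.1 1 0 = 0 ∧ g.1.1 0 0 = g.1.1 1 1 := Iff.rfl

theorem Ts_le : Ts G ≤ MulAction.stabilizer G (inf K) := fun _ hg =>
  (mem_stabilizer_iff G).2 hg.1

/-- The kernel of `alpha` is `Ts`. -/
theorem ker_alpha : (alpha G).ker = (Ts G).subgroupOf (MulAction.stabilizer G (inf K)) := by
  ext g
  rw [MonoidHom.mem_ker, Subgroup.mem_subgroupOf, mem_Ts]
  have h10 := (mem_stabilizer_iff G).1 g.2
  have hd := det_eq (g.1 : SL2 K)
  rw [h10] at hd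
  constructor
  · intro h
    have h1 : g.1.1.1 0 0 * g.1.1.1 0 0 = 1 := by
      have := congrArg (fun t : Kˣ => (t : K)) h
      simpa [alpha_apply] using this
    refine ⟨h10, ?_⟩
    have hne := entry_00_ne_zero h10
    have : g.1.1.1 0 0 * (g.1.1.1 0 0 - g.1.1.1 1 1) = 0 := by linear_combination h1 - hd
    rcases mul_eq_zero.1 this with h2 | h2
    · exact absurd h2 hne
    · exact sub_eq_zero.1 h2
  · rintro ⟨-, heq⟩
    apply Units.ext
    rw [alpha_apply]
    show g.1.1.1 0 0 * g.1.1.1 0 0 = 1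
    rw [← heq] at hd
    linear_combination hd

/-- `|Stab(∞)| = |Ts| · |A|`. -/
theorem card_stabilizer : Nat.card (MulAction.stabilizer G (inf K)) =
    Nat.card (Ts G) * Nat.card (A G) := by
  have h1 := Subgroup.card_mul_index (alpha G).ker
  rw [Subgroup.index_ker, ker_alpha] at h1
  rw [← h1]
  congr 1
  exact Nat.card_congr (Subgroup.subgroupOfEquivOfLe (Ts_le G)).toEquiv

end Group


section CharP

variable {K : Type*} [Field K] (p : ℕ) [Fact p.Prime] [CharP K p]

/-- The `p`-th power of an upper triangular element with equal diagonal entries is the scalar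
given by its diagonal entry (`p` odd). -/
theorem pow_char_upper (hp : p ≠ 2) (g : SL2 K) (h10 : g.1 1 0 = 0)
    (heq : g.1 0 0 = g.1 1 1) : IsScalar (g ^ p) ∧ (g ^ p).1 0 0 = g.1 0 0 := by
  have hp1 : p - 1 + 1 = p := Nat.sub_add_cancel (Fact.out : p.Prime).pos
  obtain ⟨e10, e00, e11, -⟩ := pow_upper g h10 heq p
  obtain ⟨-, -, -, e01⟩ := pow_upper g h10 heq (p - 1)
  rw [hp1] at e01
  have hcast : ((p : ℕ) : K) = 0 := CharP.cast_eq_zero K p
  rw [hcast, zero_mul, zero_mul] at e01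
  have hsq : g.1 0 0 * g.1 0 0 = 1 := by
    have := det_eq g
    rw [h10, ← heq] at this
    linear_combination this
  obtain ⟨k, hk⟩ := (Fact.out : p.Prime).odd_of_ne_two hp
  have hpow : g.1 0 0 ^ p = g.1 0 0 := by
    rw [hk, pow_succ, pow_mul, sq, hsq, one_pow, one_mul]
  exact ⟨⟨e01, e10, by rw [e00, e11]⟩, by rw [e00, hpow]⟩

/-- Decomposition `g = g ^ p * u (g₀₀ g₀₁)` of an upper triangular element with equal diagonal
entries. -/
theorem eq_pow_char_mul_u (hp : p ≠ 2) (g : SL2 K) (h10 : g.1 1 0 = 0)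
    (heq : g.1 0 0 = g.1 1 1) : g = g ^ p * u (g.1 0 0 * g.1 0 1) := by
  obtain ⟨⟨s01, s10, s00⟩, e00⟩ := pow_char_upper p hp g h10 heq
  have hsq : g.1 0 0 * g.1 0 0 = 1 := by
    have := det_eq g
    rw [h10, ← heq] at this
    linear_combination this
  apply sl2_ext
  · rw [mul_00, e00]; simp
  · rw [mul_01, e00, s01]; simp
    linear_combination (-g.1 0 1) * hsq
  · rw [mul_10, s10, ← s00, e00]; simp [h10]
  · rw [mul_11, s10, ← s00, e00]; simp [heq]

variable (G : Subgroup (SL2 K))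

/-- The map `(ζ, x) ↦ ζ · u x` from `Zs × X` to `Ts`. -/
def zu (a : Zs G × X G) : Ts G :=
  ⟨a.1.1 * ⟨u a.2.1, a.2.2⟩, by
    have hζ : IsScalar (a.1.1 : SL2 K) := a.1.2
    refine ⟨?_, ?_⟩
    · show ((a.1.1 : SL2 K) * u a.2.1).1 1 0 = 0
      rw [mul_10, hζ.2.1]; simp
    · show ((a.1.1 : SL2 K) * u a.2.1).1 0 0 = ((a.1.1 : SL2 K) * u a.2.1).1 1 1
      rw [mul_00, mul_11, hζ.2.1, hζ.2.2]; simp⟩

theorem zu_coe (a : Zs G × X G) : ((zu G a : G) : SL2 K) = (a.1.1 : SL2 K) * u a.2.1 := rfl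

theorem zu_injective : Function.Injective (zu G) := by
  rintro ⟨ζ, x⟩ ⟨ζ', x'⟩ h
  have h1 : (ζ.1 : SL2 K) * u x.1 = (ζ'.1 : SL2 K) * u x'.1 := by
    have := congrArg (fun t : Ts G => ((t : G) : SL2 K)) h
    simpa [zu_coe] using this
  have hζ : IsScalar (ζ.1 : SL2 K) := ζ.2
  have hζ' : IsScalar (ζ'.1 : SL2 K) := ζ'.2
  have e00 := congrArg (fun t : SL2 K => t.1 0 0) h1
  have e01 := congrArg (fun t : SL2 K => t.1 0 1) h1
  simp only [mul_00, mul_01, u_00, u_01, u_10, u_11, mul_one, mul_zero, add_zero] at e00 e01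
  rw [hζ.1, hζ'.1, add_zero, add_zero] at e01
  have hζζ' : ζ = ζ' := by
    apply Subtype.ext; apply Subtype.ext
    apply sl2_ext
    · exact e00
    · rw [hζ.1, hζ'.1]
    · rw [hζ.2.1, hζ'.2.1]
    · rw [← hζ.2.2, ← hζ'.2.2]; exact e00
  subst hζζ'
  have hne : (ζ.1 : SL2 K).1 0 0 ≠ 0 := entry_00_ne_zero hζ.2.1
  have hx : x.1 = x'.1 := mul_left_cancel₀ hne e01
  rw [Subtype.ext hx]

theorem zu_surjective (hp : p ≠ 2) : Function.Surjective (zu G) := by
  rintro ⟨g, h10, heq⟩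
  have hdec := eq_pow_char_mul_u p hp (g : SL2 K) h10 heq
  obtain ⟨hsc, -⟩ := pow_char_upper p hp (g : SL2 K) h10 heq
  have hζG : (g : SL2 K) ^ p ∈ G := G.pow_mem g.2 p
  have hux : u ((g : SL2 K).1 0 0 * (g : SL2 K).1 0 1) ∈ G := by
    have : u ((g : SL2 K).1 0 0 * (g : SL2 K).1 0 1) = ((g : SL2 K) ^ p)⁻¹ * g := by
      rw [eq_inv_mul_iff_mul_eq]; exact hdec.symm
    rw [this]
    exact G.mul_mem (G.inv_mem hζG) g.2
  refine ⟨⟨⟨⟨(g : SL2 K) ^ p, hζG⟩, hsc⟩, ⟨_, hux⟩⟩, ?_⟩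
  apply Subtype.ext; apply Subtype.ext
  exact hdec.symm

/-- `|Ts| = |Zs| · |X|`. -/
theorem card_Ts (hp : p ≠ 2) : Nat.card (Ts G) = Nat.card (Zs G) * Nat.card (X G) := by
  rw [← Nat.card_prod]
  exact (Nat.card_congr (Equiv.ofBijective (zu G) ⟨zu_injective G, zu_surjective p G hp⟩)).symm

theorem Zs_le_Ts : Zs G ≤ Ts G := fun _ hg => ⟨hg.2.1, hg.2.2⟩

end CharP

section Count

variable {K : Type*} [Field K] [Finite K] (p : ℕ) [Fact p.Prime] [CharP K p]
  (G : Subgroup (SL2 K))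

omit [Finite K] in
theorem smul_coe (g : G) (w : P1 K) : g • w = (g : SL2 K) • w := rfl

theorem fixN_coe (g : G) : fixN (P1 K) g = fixN (P1 K) (g : SL2 K) := rfl

/-- The parabolic elements of the stabiliser of `∞` are the elements of `Ts` outside `Zs`. -/
theorem parabolic_iff (g : G) :
    (g • inf K = inf K ∧ g ∉ Zs G ∧ fixN (P1 K) g = 1) ↔ (g ∈ Ts G ∧ g ∉ Zs G) := by
  constructor
  · rintro ⟨hfix, hnz, h1⟩
    have h10 : (g : SL2 K).1 1 0 = 0 := (smul_inf_eq_iff (g : SL2 K)).1 hfix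
    refine ⟨⟨h10, ?_⟩, hnz⟩
    by_contra hne
    have h2 := fixN_upper_of_ne (g : SL2 K) h10 hne
    rw [fixN_coe] at h1
    omega
  · rintro ⟨⟨h10, heq⟩, hnz⟩
    refine ⟨(smul_inf_eq_iff (g : SL2 K)).2 h10, hnz, ?_⟩
    rw [fixN_coe]
    apply fixN_upper_of_eq (g : SL2 K) h10 heq
    intro hb
    exact hnz ⟨hb, h10, heq⟩

/-- The count of parabolic elements in the stabiliser of `∞`. -/
theorem card_parabolic (hp : p ≠ 2) :
    Nat.card {g : G // g • inf K = inf K ∧ g ∉ Zs G ∧ fixN (P1 K) g = 1} + Nat.card (Zs G) =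
      Nat.card (Zs G) * Nat.card (X G) := by
  classical
  rw [← card_Ts p G hp]
  have e1 : Nat.card {g : G // g • inf K = inf K ∧ g ∉ Zs G ∧ fixN (P1 K) g = 1} =
      Nat.card {g : G // g ∈ Ts G ∧ g ∉ Zs G} :=
    Nat.card_congr (Equiv.subtypeEquivRight (parabolic_iff G))
  rw [e1]
  have e2 : Nat.card {g : G // g ∈ Ts G ∧ g ∉ Zs G} =
      (univ.filter fun g : G => g ∈ Ts G ∧ g ∉ Zs G).card := by
    rw [Nat.card_eq_fintype_card, Fintype.card_subtype]
  have e3 : Nat.card (Zs G) = (univ.filter fun g : G => g ∈ Zs G).card := by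
    rw [Nat.card_eq_fintype_card, Fintype.card_subtype]
  have e4 : Nat.card (Ts G) = (univ.filter fun g : G => g ∈ Ts G).card := by
    rw [Nat.card_eq_fintype_card, Fintype.card_subtype]
  rw [e2, e3, e4]
  have h := Finset.card_filter_add_card_filter_not (s := univ.filter fun g : G => g ∈ Ts G)
    (fun g : G => g ∈ Zs G)
  rw [Finset.filter_filter, Finset.filter_filter] at h
  have e5 : (univ.filter fun g : G => g ∈ Ts G ∧ g ∈ Zs G) = univ.filter fun g : G => g ∈ Zs G := by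
    apply Finset.filter_congr
    intro g _
    exact ⟨fun h => h.2, fun h => ⟨Zs_le_Ts G h, h⟩⟩
  rw [e5] at h
  rw [← h, add_comm]

omit [Finite K] in
/-- The order of the stabiliser of `∞`. -/
theorem card_stabilizer' (hp : p ≠ 2) : Nat.card (MulAction.stabilizer G (inf K)) =
    Nat.card (Zs G) * Nat.card (X G) * Nat.card (A G) := by
  rw [card_stabilizer, card_Ts p G hp]

end Count

section Orbit

variable {K : Type*} [Field K] [Finite K] (G : Subgroup (SL2 K))

/-- A `Fintype` structure on subgroups of subgroups of `SL₂` of a finite field (scoped). -/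
noncomputable scoped instance instFintypeSubgroupSubgroupSL2 (H : Subgroup G) : Fintype H :=
  Fintype.ofFinite _

open scoped Classical in
/-- `Us` acts freely away from `∞`. -/
theorem stabN_Us_eq_one {w : P1 K} (hw : w ≠ inf K) : stabN (Us G) w = 1 := by
  unfold stabN
  have : (univ.filter fun h : Us G => h • w = w) = {1} := by
    ext h
    simp only [mem_filter, mem_univ, true_and, mem_singleton]
    constructor
    · intro hfix
      obtain ⟨h10, h00, h11⟩ := h.2
      by_contra hne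
      have hb : (h.1 : SL2 K).1 0 1 ≠ 0 := by
        intro hb
        apply hne
        apply Subtype.ext; apply Subtype.ext
        show (h.1 : SL2 K) = 1
        rw [eq_u_of h10 h00 h11, hb, u_zero]
      exact hw ((fix_upper_of_eq (h.1 : SL2 K) h10 (h00.trans h11.symm) hb w).1 hfix)
    · rintro rfl
      exact one_smul _ w
  rw [this, Finset.card_singleton]

/-- The orbit of `∞` has `1 + m q` elements, with `m ≥ 1` as soon as `G` moves `∞`. -/
theorem card_orbit_inf : ∃ m : ℕ,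
    Nat.card (MulAction.orbit G (inf K)) = 1 + m * Nat.card (X G) ∧
      ((∃ g : G, g • inf K ≠ inf K) → 1 ≤ m) := by
  classical
  set T := (orb G (inf K)).erase (inf K) with hTdef
  have hT : ∀ h : Us G, ∀ x ∈ T, h • x ∈ T := by
    intro h x hx
    rw [hTdef, Finset.mem_erase] at hx ⊢
    obtain ⟨hne, hmem⟩ := hx
    have hfix : (h.1 : SL2 K) • inf K = inf K := (smul_inf_eq_iff _).2 h.2.1
    refine ⟨?_, ?_⟩
    · intro hcon
      apply hne
      have h1 : (h.1 : SL2 K)⁻¹ • ((h.1 : SL2 K) • x) = x := inv_smul_smul _ _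
      have h2 : (h.1 : SL2 K) • x = inf K := hcon
      rw [h2] at h1
      rw [← h1, inv_smul_eq_iff, hfix]
    · rw [mem_orb] at hmem ⊢
      obtain ⟨g, hg⟩ := MulAction.mem_orbit_iff.1 hmem
      refine MulAction.mem_orbit_iff.2 ⟨h.1 * g, ?_⟩
      rw [mul_smul, hg]
      rfl
  have hfree : ∀ x ∈ T, stabN (Us G) x = 1 := fun x hx =>
    stabN_Us_eq_one G (Finset.ne_of_mem_erase hx)
  obtain ⟨m, hm⟩ := card_dvd_card_of_free T hT hfree
  have hcard : (orb G (inf K)).card = T.card + 1 :=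
    (Finset.card_erase_add_one (self_mem_orb _)).symm
  refine ⟨m, ?_, ?_⟩
  · rw [← card_orb_eq_natCard, hcard, hm, ← card_Us, Nat.card_eq_fintype_card]
    ring
  · rintro ⟨g, hg⟩
    have hmem : g • inf K ∈ T := by
      rw [hTdef, Finset.mem_erase]
      exact ⟨hg, mem_orb.2 (MulAction.mem_orbit _ g)⟩
    have hpos : 0 < T.card := Finset.card_pos.2 ⟨_, hmem⟩
    rw [hm] at hpos
    exact Nat.pos_of_mul_pos_left hpos |> fun h => h

end Orbit

section Sylow

variable {K : Type*} [Field K] [Finite K] (p : ℕ) [Fact p.Prime] [CharP K p]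
  (G : Subgroup (SL2 K))

omit [Finite K] in
theorem two_ne_zero_of_char (hp : p ≠ 2) : (2 : K) ≠ 0 := by
  intro h
  have h2 : ((2 : ℕ) : K) = 0 := by exact_mod_cast h
  have hdvd := (CharP.cast_eq_zero_iff K p 2).1 h2
  have hle := Nat.le_of_dvd (by norm_num) hdvd
  have hge := (Fact.out : p.Prime).two_le
  omega

omit [Finite K] in
theorem eq_one_of_pow_char_pow {a : K} {k : ℕ} (h : a ^ p ^ k = 1) : a = 1 := by
  have h1 : (a - 1) ^ p ^ k = 0 := by
    rw [sub_pow_char_pow, h, one_pow, sub_self]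
  exact sub_eq_zero.1 (pow_eq_zero_iff (pow_ne_zero k (Fact.out : p.Prime).ne_zero) |>.1 h1)

omit [Finite K] [Fact p.Prime] in
/-- `Us` is a `p`-group. -/
theorem isPGroup_Us : IsPGroup p (Us G) := by
  intro h
  refine ⟨1, ?_⟩
  rw [pow_one]
  apply Subtype.ext; apply Subtype.ext
  show ((h.1 : SL2 K)) ^ p = 1
  obtain ⟨h10, h00, h11⟩ := h.2
  rw [eq_u_of h10 h00 h11, u_pow, CharP.cast_eq_zero K p, zero_mul, u_zero]

theorem not_dvd_card_P1 : ¬ p ∣ Nat.card (P1 K) := by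
  have := Fintype.ofFinite K
  rw [Projectivization.card_of_finrank_two K (Fin 2 → K) (Module.finrank_fin_fun K)]
  obtain ⟨n, -, hn⟩ := FiniteField.card K p
  rw [Nat.card_eq_fintype_card, hn]
  intro h
  have h1 : p ∣ p ^ (n : ℕ) := dvd_pow_self p n.ne_zero
  have := (Nat.dvd_add_right h1).1 h
  exact (Fact.out : p.Prime).one_lt.ne' (Nat.dvd_one.1 this)

omit [Finite K] in
theorem exists_mem_X_ne_zero (hX : X G ≠ ⊥) : ∃ x₀ ∈ X G, x₀ ≠ 0 := by
  by_contra hcon
  push Not at hcon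
  apply hX
  rw [eq_bot_iff]
  intro x hx
  rw [AddSubgroup.mem_bot]
  exact hcon x hx

/-- A `p`-subgroup of `G` containing `Us` is `Us` (if `Us` is non-trivial). -/
theorem le_Us_of_isPGroup (hX : X G ≠ ⊥) (S : Subgroup G) (hS : IsPGroup p S)
    (hle : Us G ≤ S) : S ≤ Us G := by
  obtain ⟨w, hw⟩ := hS.nonempty_fixed_point_of_prime_not_dvd_card (P1 K) (not_dvd_card_P1 p)
  rw [MulAction.mem_fixedPoints] at hw
  obtain ⟨x₀, hx₀, hx₀ne⟩ := exists_mem_X_ne_zero G hX
  have hwinf : w = inf K := by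
    have hmem : (⟨u x₀, hx₀⟩ : G) ∈ S := hle ⟨u_10 _, u_00 _, u_11 _⟩
    have h1 : (u x₀ : SL2 K) • w = w := hw ⟨_, hmem⟩
    exact (fix_upper_of_eq (u x₀) (u_10 _) rfl (by simpa using hx₀ne) w).1 h1
  intro g hg
  have hfix : (g : SL2 K) • inf K = inf K := by
    have := hw ⟨g, hg⟩
    rw [hwinf] at this
    exact this
  have h10 := (smul_inf_eq_iff (g : SL2 K)).1 hfix
  obtain ⟨k, hk⟩ := hS ⟨g, hg⟩
  have hk' : (g : SL2 K) ^ p ^ k = 1 := by
    have := congrArg (fun s : S => ((s : G) : SL2 K)) hk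
    simpa using this
  obtain ⟨-, e00, e11⟩ := pow_upper_diag (g : SL2 K) h10 (p ^ k)
  rw [hk'] at e00 e11
  have h00 : (g : SL2 K).1 0 0 = 1 := eq_one_of_pow_char_pow p (by rw [← e00]; simp)
  have h11 : (g : SL2 K).1 1 1 = 1 := eq_one_of_pow_char_pow p (by rw [← e11]; simp)
  exact ⟨h10, h00, h11⟩

/-- `Us` is a Sylow `p`-subgroup of `G` (if it is non-trivial). -/
theorem exists_sylow_eq_Us (hX : X G ≠ ⊥) : ∃ S : Sylow p G, (S : Subgroup G) = Us G := by
  obtain ⟨S, hS⟩ := (isPGroup_Us p G).exists_le_sylow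
  exact ⟨S, le_antisymm (le_Us_of_isPGroup p G hX S S.isPGroup' hS) hS⟩

theorem not_dvd_index_Us (hX : X G ≠ ⊥) : ¬ p ∣ (Us G).index := by
  obtain ⟨S, hS⟩ := exists_sylow_eq_Us p G hX
  rw [← hS]
  exact S.not_dvd_index

open scoped Pointwise in
/-- Every element of `G` of order dividing `p` is conjugate in `G` to an element of `Us`. -/
theorem exists_conj_mem_Us (hX : X G ≠ ⊥) (h : G) (hh : h ^ p = 1) :
    ∃ γ : G, γ * h * γ⁻¹ ∈ Us G := by
  obtain ⟨S, hS⟩ := exists_sylow_eq_Us p G hX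
  have hz : IsPGroup p (Subgroup.zpowers h) := by
    rintro ⟨_, n, rfl⟩
    refine ⟨1, ?_⟩
    apply Subtype.ext
    show (h ^ n) ^ p ^ 1 = 1
    rw [pow_one, ← zpow_natCast, ← zpow_mul, mul_comm, zpow_mul, zpow_natCast, hh, one_zpow]
  obtain ⟨Q, hQ⟩ := hz.exists_le_sylow
  obtain ⟨γ, hγ⟩ := MulAction.exists_smul_eq G Q S
  refine ⟨γ, ?_⟩
  rw [← hS, ← hγ, Sylow.coe_subgroup_smul]
  have : MulAut.conj γ • h ∈ MulAut.conj γ • (Q : Subgroup G) :=
    Subgroup.smul_mem_pointwise_smul_iff.2 (hQ (Subgroup.mem_zpowers h))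
  rwa [MulAut.smul_def, MulAut.conj_apply] at this

end Sylow

section Main

variable {K : Type*} [Field K] [Finite K] (p : ℕ) [Fact p.Prime] [CharP K p]
  (G : Subgroup (SL2 K))

/-- The fixed point of a parabolic element of `G` lies in the orbit of `∞`. -/
theorem parabolic_fixed_mem_orbit (hp : p ≠ 2) (hX : X G ≠ ⊥) (g : G) (hgZ : g ∉ Zs G)
    (hg1 : fixN (P1 K) g = 1) (w : P1 K) (hw : g • w = w) :
    w ∈ MulAction.orbit G (inf K) := by
  obtain ⟨σ, hσ⟩ := MulAction.exists_smul_eq (SL2 K) w (inf K)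
  set t : SL2 K := σ * (g : SL2 K) * σ⁻¹ with ht
  have hw' : (g : SL2 K) • w = w := hw
  have htinf : t • inf K = inf K := by
    rw [ht, mul_smul, mul_smul, ← hσ, inv_smul_smul, hw']
  have h10 : t.1 1 0 = 0 := (smul_inf_eq_iff t).1 htinf
  have hfixN : fixN (P1 K) t = 1 := by
    rw [ht, fixN_conj]
    exact hg1
  have htsc : ¬ IsScalar t := fun hsc => hgZ ((isScalar_conj_iff (g : SL2 K) σ).1 hsc)
  have heq : t.1 0 0 = t.1 1 1 := by
    by_contra hne
    have := fixN_upper_of_ne t h10 hne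
    omega
  have hb : t.1 0 1 ≠ 0 := fun hb => htsc ⟨hb, h10, heq⟩
  obtain ⟨hsc, e00⟩ := pow_char_upper p hp t h10 heq
  have hsq : t.1 0 0 * t.1 0 0 = 1 := by
    have := det_eq t
    rw [h10, ← heq] at this
    linear_combination this
  have e11 : (t ^ p).1 1 1 = t.1 0 0 := by rw [← hsc.2.2, e00]
  have htp2 : (t ^ p) ^ 2 = 1 := by
    rw [pow_two]
    apply sl2_ext
    · rw [mul_00, hsc.1, e00, one_00, zero_mul, add_zero, hsq]
    · rw [mul_01, hsc.1, one_01, mul_zero, zero_mul, add_zero]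
    · rw [mul_10, hsc.2.1, one_10, zero_mul, mul_zero, add_zero]
    · rw [mul_11, hsc.2.1, e11, one_11, zero_mul, zero_add, hsq]
  have hg2p : ((g : SL2 K) ^ 2) ^ p = 1 := by
    have e : (g : SL2 K) = σ⁻¹ * t * σ⁻¹⁻¹ := by rw [ht]; group
    rw [e, conj_pow, conj_pow, ← pow_mul, mul_comm 2 p, pow_mul, htp2]
    group
  have hh : (g ^ 2) ^ p = 1 := Subtype.ext (by simpa using hg2p)
  obtain ⟨γ, hγ⟩ := exists_conj_mem_Us p G hX (g ^ 2) hh
  have hγinf : ((γ : SL2 K) * ((g : SL2 K) ^ 2) * (γ : SL2 K)⁻¹) • inf K = inf K :=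
    (smul_inf_eq_iff _).2 hγ.1
  have hfix : ((g : SL2 K) ^ 2) • ((γ : SL2 K)⁻¹ • inf K) = (γ : SL2 K)⁻¹ • inf K := by
    rw [mul_smul, mul_smul] at hγinf
    exact eq_inv_smul_iff.2 hγinf
  have huniq : ∀ v : P1 K, ((g : SL2 K) ^ 2) • v = v → v = w := by
    intro v hv
    have e : t ^ 2 = σ * ((g : SL2 K) ^ 2) * σ⁻¹ := by rw [ht, conj_pow]
    have h1 : (t ^ 2) • (σ • v) = σ • v := by
      rw [e, mul_smul, mul_smul, inv_smul_smul, hv]
    obtain ⟨f10, f00, f11, -⟩ := pow_upper t h10 heq 2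
    obtain ⟨-, -, -, f01⟩ := pow_upper t h10 heq 1
    have hb2 : (t ^ 2).1 0 1 ≠ 0 := by
      have f01' : (t ^ 2).1 0 1 = ((1 + 1 : ℕ) : K) * t.1 0 0 ^ 1 * t.1 0 1 := f01
      rw [f01']
      have h2 := two_ne_zero_of_char (K := K) p hp
      have h00 : t.1 0 0 ≠ 0 := entry_00_ne_zero h10
      refine mul_ne_zero (mul_ne_zero ?_ (pow_ne_zero _ h00)) hb
      norm_num
      exact h2
    have h2 := (fix_upper_of_eq (t ^ 2) f10 (f00.trans f11.symm) hb2 (σ • v)).1 h1
    rw [← hσ] at h2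
    exact smul_left_cancel σ h2
  have hfin := huniq _ hfix
  rw [← hfin]
  exact MulAction.mem_orbit_iff.2 ⟨γ⁻¹, rfl⟩

omit [Finite K] in
theorem three_le_card_X (hp : p ≠ 2) (hX : X G ≠ ⊥) [Finite (X G)] : 3 ≤ Nat.card (X G) := by
  rw [← card_Us]
  rcases (isPGroup_Us p G).card_eq_or_dvd with h | h
  · exfalso
    rw [card_Us] at h
    exact hX (AddSubgroup.card_eq_one.1 h)
  · have hfin : Finite (Us G) := Finite.of_equiv _ (equivUsX G).symm
    have := Nat.le_of_dvd Nat.card_pos h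
    have h2 := (Fact.out : p.Prime).two_le
    omega

/-- **The counting inequality.**  Let `G ≤ SL₂(K)` (`K` finite of odd characteristic `p`) be a
subgroup all of whose elements have a fixed point on the projective line, which contains a
non-trivial `u x` and does not fix `∞`.  Then `|X| - 1 ≤ 2 |A|`, where `X = {x | u x ∈ G}` and
`A = {a² | diag(a, a⁻¹)·u(*) ∈ G}`. -/
theorem card_X_sub_one_le (hp : p ≠ 2) (hX : X G ≠ ⊥)
    (hsplit : ∀ g : G, ∃ w : P1 K, g • w = w) (hmove : ∃ g : G, g • inf K ≠ inf K) :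
    Nat.card (X G) - 1 ≤ 2 * Nat.card (A G) := by
  obtain ⟨m, horb, hm⟩ := card_orbit_inf G
  refine sub_one_le_two_mul' (Zs G) (inf K) (Nat.card (Zs G)) (Nat.card (X G)) (Nat.card (A G)) m
    rfl ?_ ?_ ?_ (card_parabolic p G hp) (card_stabilizer' p G hp) horb (hm hmove)
    (three_le_card_X p G hp hX) Nat.card_pos
  · intro g hg x
    exact IsScalar.smul_eq hg x
  · intro g hg
    exact fixN_eq_one_or_two (g : SL2 K) hg (hsplit g)
  · intro g hgZ hg1 x hx
    exact parabolic_fixed_mem_orbit p G hp hX g hgZ hg1 x hx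

end Main

section Normalise

variable {K : Type*} [Field K] (G : Subgroup (SL2 K))

/-- Conjugation of `u x` by an upper triangular element. -/
theorem conj_u (g : SL2 K) (h10 : g.1 1 0 = 0) (x : K) :
    g * u x * g⁻¹ = u (g.1 0 0 * g.1 0 0 * x) := by
  have hd := det_eq g
  rw [h10, mul_zero, sub_zero] at hd
  apply sl2_ext
  · rw [mul_00, mul_00, mul_01, inv_00, inv_10, h10]
    simp
    linear_combination hd
  · rw [mul_01, mul_00, mul_01, inv_01, inv_11]
    simp
    ring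
  · rw [mul_10, mul_10, mul_11, inv_00, inv_10, h10]
    simp
  · rw [mul_11, mul_10, mul_11, inv_01, inv_11, h10]
    simp
    linear_combination hd

/-- `A · X ⊆ X`. -/
theorem A_mul_X {a : Kˣ} (ha : a ∈ A G) {x : K} (hx : x ∈ X G) : (a : K) * x ∈ X G := by
  obtain ⟨g, h10, hag⟩ := (mem_A G).1 ha
  show u ((a : K) * x) ∈ G
  rw [hag, ← conj_u (g : SL2 K) h10 x]
  exact G.mul_mem (G.mul_mem g.2 hx) (G.inv_mem g.2)

end Normalise

end Fermat.Agent.S56.Group.SL2Points
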