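/-
The structure step (S) of Lemma H (S56, G-H): let `K` be a finite field, `X` a non-zero additive
subgroup of `K`, `A` a subgroup of `Kˣ` with `A · X ⊆ X` and `|X| - 1 ≤ 2 |A|`.  Let
`F = mult X = {β | β X ⊆ X}` be the multiplier ring of `X` (a subfield).  Then
* `X = F · x₀` for every non-zero `x₀ ∈ X` (`exists_eq_mul`), and `|F| = |X|`;
* `A` contains the squares of the non-zero elements of `F` (`exists_mem_A_eq_sq`);
* `F` is additively generated by `A` (`mem_of_forall_mem`).
-/
import Mathlib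

set_option autoImplicit false

namespace Fermat.Agent.S56.Group.Structure

variable {K : Type*} [Field K]

/-- The multiplier ring of an additive subgroup of a field. -/
def mult (X : AddSubgroup K) : Subring K where
  carrier := {β | ∀ x ∈ X, β * x ∈ X}
  mul_mem' := fun {a b} ha hb x hx => by
    show a * b * x ∈ X
    rw [mul_assoc]; exact ha _ (hb x hx)
  one_mem' := fun x hx => by
    show 1 * x ∈ X
    rwa [one_mul]
  add_mem' := fun {a b} ha hb x hx => by
    show (a + b) * x ∈ X
    rw [add_mul]; exact X.add_mem (ha x hx) (hb x hx)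
  zero_mem' := fun x _ => by
    show 0 * x ∈ X
    rw [zero_mul]; exact X.zero_mem
  neg_mem' := fun {a} ha x hx => by
    show -a * x ∈ X
    rw [neg_mul]; exact X.neg_mem (ha x hx)

theorem mem_mult {X : AddSubgroup K} {β : K} : β ∈ mult X ↔ ∀ x ∈ X, β * x ∈ X := Iff.rfl

section Fin

variable [Finite K] (X : AddSubgroup K)

/-- The multiplier ring is closed under inverses. -/
theorem inv_mem_mult {β : K} (hβ : β ∈ mult X) : β⁻¹ ∈ mult X := by
  by_cases h0 : β = 0
  · rw [h0, inv_zero]; exact (mult X).zero_mem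
  intro x hx
  let φ : X → X := fun y => ⟨β * y.1, hβ y.1 y.2⟩
  have hinj : Function.Injective φ := by
    intro y z hyz
    have h1 : β * y.1 = β * z.1 := congrArg Subtype.val hyz
    exact Subtype.ext (mul_left_cancel₀ h0 h1)
  obtain ⟨y, hy⟩ := (Finite.injective_iff_surjective.1 hinj) ⟨x, hx⟩
  have hy' : β * y.1 = x := congrArg Subtype.val hy
  rw [← hy', inv_mul_cancel_left₀ h0]
  exact y.2

/-- The non-zero elements of the multiplier ring, as a subgroup of `Kˣ`. -/
def multUnits : Subgroup Kˣ where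
  carrier := {a | (a : K) ∈ mult X}
  mul_mem' := fun {a b} ha hb => by
    show ((a * b : Kˣ) : K) ∈ mult X
    rw [Units.val_mul]; exact (mult X).mul_mem ha hb
  one_mem' := by
    show ((1 : Kˣ) : K) ∈ mult X
    rw [Units.val_one]; exact (mult X).one_mem
  inv_mem' := fun {a} ha => by
    show ((a⁻¹ : Kˣ) : K) ∈ mult X
    rw [Units.val_inv_eq_inv_val]; exact inv_mem_mult X ha

theorem mem_multUnits {a : Kˣ} : a ∈ multUnits X ↔ (a : K) ∈ mult X := Iff.rfl

/-- `|F| = |F^×| + 1`. -/
theorem card_mult : Nat.card (mult X) = Nat.card (multUnits X) + 1 := by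
  rw [← Finite.card_option]
  symm
  apply Nat.card_eq_of_bijective (fun o : Option (multUnits X) =>
    (match o with
      | none => (0 : mult X)
      | some a => (⟨(a.1 : K), a.2⟩ : mult X)))
  constructor
  · rintro (_ | a) (_ | b) h
    · rfl
    · exfalso
      have h1 : (0 : K) = (b.1 : K) := congrArg Subtype.val h
      exact b.1.ne_zero h1.symm
    · exfalso
      have h1 : (a.1 : K) = (0 : K) := congrArg Subtype.val h
      exact a.1.ne_zero h1
    · have h1 : (a.1 : K) = (b.1 : K) := congrArg Subtype.val h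
      rw [Subtype.ext (Units.ext h1)]
  · rintro ⟨β, hβ⟩
    by_cases h0 : β = 0
    · exact ⟨none, Subtype.ext h0.symm⟩
    · exact ⟨some ⟨Units.mk0 β h0, hβ⟩, rfl⟩

variable (A : Subgroup Kˣ) (hAX : ∀ a ∈ A, ∀ x ∈ X, (a : K) * x ∈ X)

include hAX in
theorem A_le_multUnits : A ≤ multUnits X := fun a ha => hAX a ha

include hAX in
theorem card_A_succ_le : Nat.card A + 1 ≤ Nat.card (mult X) := by
  rw [card_mult]
  exact Nat.succ_le_succ (Subgroup.card_le_of_le (A_le_multUnits X A hAX))

variable (hcount : Nat.card X - 1 ≤ 2 * Nat.card A)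

include hAX hcount in
/-- **(S1)** `X` is a line over its multiplier ring. -/
theorem exists_eq_mul {x₀ : K} (hx₀ : x₀ ∈ X) (h0 : x₀ ≠ 0) {x : K} (hx : x ∈ X) :
    ∃ β ∈ mult X, x = β * x₀ := by
  by_contra hcon
  push Not at hcon
  let ψ : (mult X) × (mult X) → X := fun ab =>
    ⟨ab.1.1 * x₀ + ab.2.1 * x, X.add_mem (ab.1.2 x₀ hx₀) (ab.2.2 x hx)⟩
  have hinj : Function.Injective ψ := by
    rintro ⟨a, b⟩ ⟨a', b'⟩ h
    have h1 : a.1 * x₀ + b.1 * x = a'.1 * x₀ + b'.1 * x := congrArg Subtype.val h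
    have hb : b = b' := by
      by_contra hne
      have hne' : b'.1 - b.1 ≠ 0 := sub_ne_zero.2 (fun e => hne (Subtype.ext e.symm))
      apply hcon ((b'.1 - b.1)⁻¹ * (a.1 - a'.1))
        ((mult X).mul_mem (inv_mem_mult X ((mult X).sub_mem b'.2 b.2))
          ((mult X).sub_mem a.2 a'.2))
      rw [mul_assoc, eq_inv_mul_iff_mul_eq₀ hne']
      linear_combination (-1 : K) * h1
    subst hb
    have ha : a.1 * x₀ = a'.1 * x₀ := by linear_combination h1
    have h2 := mul_right_cancel₀ h0 ha
    rw [Subtype.ext h2]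
  have hle := Nat.card_le_card_of_injective ψ hinj
  rw [Nat.card_prod] at hle
  have h1 := card_A_succ_le X A hAX
  have hc : 0 < Nat.card A := Nat.card_pos
  have h2 : (Nat.card A + 1) * (Nat.card A + 1) ≤ Nat.card (mult X) * Nat.card (mult X) :=
    Nat.mul_le_mul h1 h1
  have h3 : Nat.card X ≤ 2 * Nat.card A + 1 := by omega
  nlinarith

include hAX hcount in
/-- `|F| = |X|`. -/
theorem card_mult_eq (hX : X ≠ ⊥) : Nat.card (mult X) = Nat.card X := by
  obtain ⟨x₀, hx₀, h0⟩ : ∃ x₀ ∈ X, x₀ ≠ 0 := by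
    by_contra hcon
    push Not at hcon
    apply hX
    rw [eq_bot_iff]
    intro x hx
    rw [AddSubgroup.mem_bot]
    exact hcon x hx
  apply Nat.card_eq_of_bijective (fun β : mult X => (⟨β.1 * x₀, β.2 x₀ hx₀⟩ : X))
  constructor
  · intro β β' h
    have h1 : β.1 * x₀ = β'.1 * x₀ := congrArg Subtype.val h
    exact Subtype.ext (mul_right_cancel₀ h0 h1)
  · rintro ⟨x, hx⟩
    obtain ⟨β, hβ, rfl⟩ := exists_eq_mul X A hAX hcount hx₀ h0 hx
    exact ⟨⟨β, hβ⟩, rfl⟩

include hAX hcount in
/-- **(S2)** `A` contains the squares of the non-zero multipliers. -/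
theorem exists_mem_A_eq_sq (hX : X ≠ ⊥) {β : K} (hβ : β ∈ mult X) (h0 : β ≠ 0) :
    ∃ a ∈ A, (a : K) = β * β := by
  have hle : A ≤ multUnits X := A_le_multUnits X A hAX
  set H := A.subgroupOf (multUnits X) with hH
  have hcardH : Nat.card H = Nat.card A :=
    Nat.card_congr (Subgroup.subgroupOfEquivOfLe hle).toEquiv
  have hidx := H.index_mul_card
  have hFx : Nat.card (multUnits X) + 1 = Nat.card X := by
    rw [← card_mult, card_mult_eq X A hAX hcount hX]
  have hc : 0 < Nat.card A := Nat.card_pos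
  rw [hcardH] at hidx
  have hidx2 : H.index ≤ 2 := by
    by_contra hgt
    push Not at hgt
    have : 3 * Nat.card A ≤ H.index * Nat.card A := Nat.mul_le_mul_right _ hgt
    omega
  have hidx0 : H.index ≠ 0 := Subgroup.index_ne_zero_of_finite
  let b : multUnits X := ⟨Units.mk0 β h0, hβ⟩
  have hb2 : b ^ 2 ∈ H := by
    have h12 : H.index = 1 ∨ H.index = 2 := by omega
    rcases h12 with h1 | h2
    · rw [Subgroup.index_eq_one.1 h1]; exact Subgroup.mem_top _
    · exact Subgroup.sq_mem_of_index_two h2 b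
  refine ⟨((b ^ 2 : multUnits X) : Kˣ), Subgroup.mem_subgroupOf.1 hb2, ?_⟩
  simp [b, pow_two]

include hAX hcount in
/-- **(S3)** The multiplier ring is additively generated by `A`. -/
theorem mem_of_forall_mem (hX : X ≠ ⊥) (T : AddSubgroup K) (hT : ∀ a ∈ A, (a : K) ∈ T)
    {β : K} (hβ : β ∈ mult X) : β ∈ T := by
  set F : AddSubgroup K := (mult X).toAddSubgroup with hF
  set T' : AddSubgroup K := T ⊓ F with hT'
  have hle : T' ≤ F := inf_le_right
  have hcF : Nat.card F = Nat.card X := card_mult_eq X A hAX hcount hX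
  -- `A ∪ {0}` injects into `T'`
  have hcT : Nat.card A + 1 ≤ Nat.card T' := by
    rw [← Finite.card_option]
    apply Nat.card_le_card_of_injective (fun o : Option A =>
      (match o with
        | none => (0 : T')
        | some a => (⟨(a.1 : K), ⟨hT a.1 a.2, hAX a.1 a.2⟩⟩ : T')))
    rintro (_ | a) (_ | b) h
    · rfl
    · exfalso
      have h1 : (0 : K) = (b.1 : K) := congrArg Subtype.val h
      exact b.1.ne_zero h1.symm
    · exfalso
      have h1 : (a.1 : K) = (0 : K) := congrArg Subtype.val h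
      exact a.1.ne_zero h1
    · have h1 : (a.1 : K) = (b.1 : K) := congrArg Subtype.val h
      rw [Subtype.ext (Units.ext h1)]
  obtain ⟨j, hj⟩ := AddSubgroup.card_dvd_of_le hle
  have hXpos : 0 < Nat.card X := Nat.card_pos
  have hj1 : j = 1 := by
    rcases Nat.lt_or_ge j 2 with h | h
    · rcases Nat.eq_zero_or_pos j with h0 | h0
      · rw [h0, mul_zero, hcF] at hj; omega
      · omega
    · exfalso
      have : Nat.card T' * 2 ≤ Nat.card T' * j := Nat.mul_le_mul_left _ h
      rw [hcF] at hj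
      omega
  rw [hj1, mul_one] at hj
  have heq : T' = F := AddSubgroup.eq_of_le_of_card_ge hle hj.le
  have hβF : β ∈ F := hβ
  rw [← heq] at hβF
  exact hβF.1

end Fin

end Fermat.Agent.S56.Group.Structure
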