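/-
Lemma H of S56 (G-H), the vanishing step (V): for a subgroup `Γ` of `GL₂(K)` (`K` a finite field of
odd characteristic `p`) all of whose elements have an eigenvector, which has no common eigenvector,
every `1`-cocycle of `Γ` in the trace-zero `2 × 2` matrices with the twisted adjoint action
`g • m = det g • (g m g⁻¹) = g m adj(g)` is a coboundary, provided `p = 3` or some element of `Γ`
has determinant `δ` with `δ² ≠ 1`.
-/
import Mathlib
import Fermat.Agent.S56.Group.H1Vanish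
import Fermat.Agent.S56.Group.SL2Points
import Fermat.Agent.S56.Group.Structure

set_option autoImplicit false

namespace Fermat.Agent.S56.Group.Vanish

open Matrix groupCohomology
open Fermat.Agent.S56.Group.SL2Points

/-- `2 × 2` matrices, carrying the twisted adjoint action `g • m = g m adj(g)` of `GL₂`. -/
def TwAd (K : Type*) [Field K] : Type _ := Matrix (Fin 2) (Fin 2) K

namespace TwAd

variable {K : Type*} [Field K]

instance : AddCommGroup (TwAd K) := inferInstanceAs (AddCommGroup (Matrix (Fin 2) (Fin 2) K))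

instance : Module K (TwAd K) := inferInstanceAs (Module K (Matrix (Fin 2) (Fin 2) K))

/-- The underlying matrix. -/
def mat (x : TwAd K) : Matrix (Fin 2) (Fin 2) K := x

/-- A matrix as an element of `TwAd K`. -/
def of (m : Matrix (Fin 2) (Fin 2) K) : TwAd K := m

@[simp] theorem mat_of (m : Matrix (Fin 2) (Fin 2) K) : (of m).mat = m := rfl
@[simp] theorem of_mat (x : TwAd K) : of x.mat = x := rfl
theorem mat_add (x y : TwAd K) : (x + y).mat = x.mat + y.mat := rfl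
theorem mat_sub (x y : TwAd K) : (x - y).mat = x.mat - y.mat := rfl
theorem mat_neg (x : TwAd K) : (-x).mat = -x.mat := rfl
theorem mat_zero : (0 : TwAd K).mat = 0 := rfl
theorem mat_smul (c : K) (x : TwAd K) : (c • x).mat = c • x.mat := rfl
theorem mat_nsmul (n : ℕ) (x : TwAd K) : (n • x).mat = n • x.mat := rfl

theorem ext {x y : TwAd K} (h : x.mat = y.mat) : x = y := h

theorem ext_entries {x y : TwAd K} (h00 : x.mat 0 0 = y.mat 0 0) (h01 : x.mat 0 1 = y.mat 0 1)
    (h10 : x.mat 1 0 = y.mat 1 0) (h11 : x.mat 1 1 = y.mat 1 1) : x = y := by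
  apply ext
  ext i j
  fin_cases i <;> fin_cases j <;> assumption

/-- The twisted adjoint action of `GL₂(K)`. -/
instance : DistribMulAction (GL (Fin 2) K) (TwAd K) where
  smul g x := of (g.1 * x.mat * adjugate g.1)
  one_smul x := by
    show of ((1 : GL (Fin 2) K).1 * x.mat * adjugate (1 : GL (Fin 2) K).1) = x
    simp
  mul_smul g h x := by
    show of ((g * h).1 * x.mat * adjugate (g * h).1) =
      of (g.1 * (of (h.1 * x.mat * adjugate h.1)).mat * adjugate g.1)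
    rw [mat_of, Units.val_mul, adjugate_mul_distrib]
    simp only [Matrix.mul_assoc]
  smul_zero g := by
    show of (g.1 * (0 : TwAd K).mat * adjugate g.1) = 0
    rw [mat_zero, Matrix.mul_zero, Matrix.zero_mul]
    rfl
  smul_add g x y := by
    show of (g.1 * (x + y).mat * adjugate g.1) =
      of (g.1 * x.mat * adjugate g.1) + of (g.1 * y.mat * adjugate g.1)
    rw [mat_add, Matrix.mul_add, Matrix.add_mul]
    rfl

theorem smul_mat (g : GL (Fin 2) K) (x : TwAd K) :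
    (g • x).mat = g.1 * x.mat * adjugate g.1 := rfl

/-- The action of `SL₂(K)`, through `GL₂(K)`. -/
instance : DistribMulAction (SL2 K) (TwAd K) :=
  DistribMulAction.compHom (TwAd K) (SpecialLinearGroup.toGL : SL2 K →* GL (Fin 2) K)

theorem smul_SL_eq (s : SL2 K) (x : TwAd K) :
    s • x = (SpecialLinearGroup.toGL s : GL (Fin 2) K) • x := rfl

theorem smul_SL_mat (s : SL2 K) (x : TwAd K) :
    (s • x).mat = s.1 * x.mat * adjugate s.1 := rfl

/-- The entries of `g m adj(g)`. -/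
theorem twist_entries (g m : Matrix (Fin 2) (Fin 2) K) :
    g * m * adjugate g =
      !![(g 0 0 * m 0 0 + g 0 1 * m 1 0) * g 1 1 - (g 0 0 * m 0 1 + g 0 1 * m 1 1) * g 1 0,
         -(g 0 0 * m 0 0 + g 0 1 * m 1 0) * g 0 1 + (g 0 0 * m 0 1 + g 0 1 * m 1 1) * g 0 0;
         (g 1 0 * m 0 0 + g 1 1 * m 1 0) * g 1 1 - (g 1 0 * m 0 1 + g 1 1 * m 1 1) * g 1 0,
         -(g 1 0 * m 0 0 + g 1 1 * m 1 0) * g 0 1 + (g 1 0 * m 0 1 + g 1 1 * m 1 1) * g 0 0] := by
  rw [adjugate_fin_two]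
  ext i j
  fin_cases i <;> fin_cases j <;>
    simp [Matrix.mul_apply, Fin.sum_univ_two] <;> ring

/-- The trace of `g m adj(g)`. -/
theorem trace_twist (g m : Matrix (Fin 2) (Fin 2) K) :
    (g * m * adjugate g).trace = g.det * m.trace := by
  rw [twist_entries, trace_fin_two, trace_fin_two, det_fin_two]
  simp
  ring

theorem trace_smul (g : GL (Fin 2) K) (x : TwAd K) :
    (g • x).mat.trace = g.1.det * x.mat.trace := trace_twist _ _

end TwAd

section FunctionLevel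

variable {K : Type*} [Field K]

/-- **Cocycles of the unipotent group in characteristic `3`.**  The three component functions of a
cocycle of `u(X)` in the trace-zero matrices. -/
theorem cocycle_shape [CharP K 3] (X : AddSubgroup K) {x₀ : K} (hx₀ : x₀ ∈ X) (h0 : x₀ ≠ 0)
    (F H E : K → K)
    (c1 : ∀ x ∈ X, ∀ y ∈ X, F (x + y) = F y + F x)
    (c2 : ∀ x ∈ X, ∀ y ∈ X, H (x + y) = H y + x * F y + H x)
    (c3 : ∀ x ∈ X, ∀ y ∈ X, E (x + y) = E y - 2 * x * H y - x ^ 2 * F y + E x) :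
    (∀ x ∈ X, F x = 0) ∧ ∃ c₂ : K, (∀ x ∈ X, H x = c₂ * x) ∧
      ∀ x ∈ X, ∀ y ∈ X,
        E (x + y) + c₂ * (x + y) ^ 2 = (E x + c₂ * x ^ 2) + (E y + c₂ * y ^ 2) := by
  have h3 : (3 : K) = 0 := by
    have := CharP.cast_eq_zero K 3
    exact_mod_cast this
  have h2 : (2 : K) ≠ 0 := by
    intro h
    have : (1 : K) = 0 := by linear_combination h3 - h
    exact one_ne_zero this
  have hE0 : E 0 = 0 := by
    have := c3 0 X.zero_mem 0 X.zero_mem
    simp only [add_zero, mul_zero, zero_mul, sub_zero, ne_eq, OfNat.ofNat_ne_zero,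
      not_false_eq_true, zero_pow] at this
    linear_combination -this
  -- symmetry of `c2`
  have hsymF : ∀ x ∈ X, ∀ y ∈ X, x * F y = y * F x := by
    intro x hx y hy
    have e1 := c2 x hx y hy
    have e2 := c2 y hy x hx
    rw [add_comm y x] at e2
    linear_combination e2 - e1
  set c₁ := F x₀ / x₀ with hc₁
  have hF : ∀ x ∈ X, F x = c₁ * x := by
    intro x hx
    have := hsymF x₀ hx₀ x hx
    rw [hc₁]
    field_simp
    linear_combination this
  -- the carry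
  have hc₁0 : c₁ = 0 := by
    have hxx : x₀ + x₀ ∈ X := X.add_mem hx₀ hx₀
    have eH := c2 x₀ hx₀ x₀ hx₀
    have eE := c3 x₀ hx₀ x₀ hx₀
    have eF := c1 x₀ hx₀ x₀ hx₀
    have eE3 := c3 x₀ hx₀ (x₀ + x₀) hxx
    have e3x : x₀ + (x₀ + x₀) = 0 := by linear_combination x₀ * h3
    rw [e3x, hE0, eE, eH, eF, hF x₀ hx₀] at eE3
    have hkey : c₁ * x₀ ^ 3 = 0 := by
      linear_combination (-1 : K) * eE3 + (2 * c₁ * x₀ ^ 3 - E x₀ + 2 * x₀ * H x₀) * h3
    rcases mul_eq_zero.1 hkey with h | h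
    · exact h
    · exact absurd (pow_eq_zero_iff (by norm_num) |>.1 h) h0
  have hF0 : ∀ x ∈ X, F x = 0 := fun x hx => by rw [hF x hx, hc₁0, zero_mul]
  refine ⟨hF0, ?_⟩
  -- symmetry of `c3`
  have hsymH : ∀ x ∈ X, ∀ y ∈ X, x * H y = y * H x := by
    intro x hx y hy
    have e1 := c3 x hx y hy
    have e2 := c3 y hy x hx
    rw [add_comm y x] at e2
    rw [hF0 y hy] at e1
    rw [hF0 x hx] at e2
    have : 2 * (x * H y - y * H x) = 0 := by linear_combination e1 - e2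
    rcases mul_eq_zero.1 this with h | h
    · exact absurd h h2
    · exact sub_eq_zero.1 h
  set c₂ := H x₀ / x₀ with hc₂
  have hH : ∀ x ∈ X, H x = c₂ * x := by
    intro x hx
    have := hsymH x₀ hx₀ x hx
    rw [hc₂]
    field_simp
    linear_combination this
  refine ⟨c₂, hH, ?_⟩
  intro x hx y hy
  have e1 := c3 x hx y hy
  rw [hF0 y hy, hH y hy] at e1
  rw [e1]
  ring

/-- An additive function on `X` which is `A`-semi-invariant is linear. -/
theorem additive_linear [Finite K] (X : AddSubgroup K) (A : Subgroup Kˣ)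
    (hAX : ∀ a ∈ A, ∀ x ∈ X, (a : K) * x ∈ X) (hcount : Nat.card X - 1 ≤ 2 * Nat.card A)
    {x₀ : K} (hx₀ : x₀ ∈ X) (h0 : x₀ ≠ 0)
    (E₀ : K → K) (hadd : ∀ x ∈ X, ∀ y ∈ X, E₀ (x + y) = E₀ x + E₀ y)
    (hinv : ∀ a ∈ A, ∃ κ : K, ∀ x ∈ X, (a : K) * E₀ ((a : K)⁻¹ * x) = E₀ x + κ * x) :
    ∃ l : K, ∀ x ∈ X, E₀ x = l * x := by
  have hX : X ≠ ⊥ := by
    intro h
    rw [h, AddSubgroup.mem_bot] at hx₀
    exact h0 hx₀
  -- the order of the multiplicative group is invertible in `K`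
  have hn0 : ((Nat.card Kˣ : ℕ) : K) ≠ 0 := by
    have := Fintype.ofFinite K
    have h1 : ((Nat.card K : ℕ) : K) = 0 := by
      rw [Nat.card_eq_fintype_card]; exact FiniteField.cast_card_eq_zero K
    have hpos : 0 < Nat.card K := Nat.card_pos
    rw [Nat.card_units]
    intro h
    have h2 : ((Nat.card K - 1 + 1 : ℕ) : K) = 0 := by
      rw [Nat.sub_add_cancel hpos]; exact h1
    rw [Nat.cast_add, h, zero_add, Nat.cast_one] at h2
    exact one_ne_zero h2
  have hE00 : E₀ 0 = 0 := by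
    have := hadd 0 X.zero_mem 0 X.zero_mem
    rw [add_zero] at this
    linear_combination -this
  -- `κ = 0`
  have hκ : ∀ a ∈ A, ∀ x ∈ X, (a : K) * E₀ ((a : K)⁻¹ * x) = E₀ x := by
    intro a ha
    obtain ⟨κ, hκ⟩ := hinv a ha
    have hane : (a : K) ≠ 0 := a.ne_zero
    have hind : ∀ j : ℕ, ∀ x ∈ X,
        (a : K) ^ j * E₀ (((a : K)⁻¹) ^ j * x) = E₀ x + j * κ * x := by
      intro j
      induction j with
      | zero => intro x _; simp
      | succ j ih =>
        intro x hx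
        have hxj : ((a : K)⁻¹) ^ j * x ∈ X := by
          have h1 : ((a⁻¹) ^ j : Kˣ) ∈ A := A.pow_mem (A.inv_mem ha) j
          have h2 := hAX _ h1 x hx
          simpa using h2
        have h1 := hκ _ hxj
        have h2 := ih x hx
        have e : ((a : K)⁻¹) ^ (j + 1) * x = (a : K)⁻¹ * (((a : K)⁻¹) ^ j * x) := by ring
        have e2 : (a : K) ^ j * (κ * (((a : K)⁻¹) ^ j * x)) = κ * x := by
          rw [inv_pow]
          field_simp
        rw [e, pow_succ, mul_assoc, h1, mul_add, h2, e2]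
        push_cast
        ring
    have hn := hind (Nat.card Kˣ) x₀ hx₀
    have han : (a : K) ^ (Nat.card Kˣ) = 1 := by
      have h1 := pow_card_eq_one' (G := Kˣ) (x := a)
      have h2 := congrArg Units.val h1
      rw [Units.val_pow_eq_pow_val, Units.val_one] at h2
      exact h2
    rw [inv_pow, han, inv_one, one_mul, one_mul] at hn
    have hκ0 : κ = 0 := by
      have h1 : ((Nat.card Kˣ : ℕ) : K) * κ * x₀ = 0 := by linear_combination -hn
      rcases mul_eq_zero.1 h1 with h | h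
      · rcases mul_eq_zero.1 h with h' | h'
        · exact absurd h' hn0
        · exact h'
      · exact absurd h h0
    intro x hx
    rw [hκ x hx, hκ0, zero_mul, add_zero]
  have hlin : ∀ a ∈ A, ∀ x ∈ X, E₀ ((a : K) * x) = (a : K) * E₀ x := by
    intro a ha x hx
    have := hκ a ha ((a : K) * x) (hAX a ha x hx)
    rw [inv_mul_cancel_left₀ a.ne_zero] at this
    exact this.symm
  -- the additive group of multipliers over which `E₀` is linear
  let T : AddSubgroup K :=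
    { carrier := {β | β ∈ Structure.mult X ∧ ∀ x ∈ X, E₀ (β * x) = β * E₀ x}
      zero_mem' := ⟨(Structure.mult X).zero_mem, fun x _ => by
        rw [zero_mul, zero_mul, hE00]⟩
      add_mem' := fun {β β'} hβ hβ' => ⟨(Structure.mult X).add_mem hβ.1 hβ'.1, fun x hx => by
        rw [add_mul, hadd _ (hβ.1 x hx) _ (hβ'.1 x hx), hβ.2 x hx, hβ'.2 x hx, add_mul]⟩
      neg_mem' := fun {β} hβ => ⟨(Structure.mult X).neg_mem hβ.1, fun x hx => by
        have h1 := hadd _ (hβ.1 x hx) _ ((Structure.mult X).neg_mem hβ.1 x hx)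
        rw [← add_mul, add_neg_cancel, zero_mul, hE00, hβ.2 x hx] at h1
        linear_combination -h1⟩ }
  have hT : ∀ a ∈ A, (a : K) ∈ T := fun a ha => ⟨hAX a ha, hlin a ha⟩
  refine ⟨E₀ x₀ / x₀, fun x hx => ?_⟩
  obtain ⟨β, hβ, rfl⟩ := Structure.exists_eq_mul X A hAX hcount hx₀ h0 hx
  have h1 := (Structure.mem_of_forall_mem X A hAX hcount hX T hT hβ).2 x₀ hx₀
  rw [h1]
  field_simp

end FunctionLevel

section GLBasics

variable {K : Type*} [Field K]

/-- The inclusion `SL₂ → GL₂`. -/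
abbrev toGL : SL2 K →* GL (Fin 2) K := SpecialLinearGroup.toGL

theorem toGL_val (s : SL2 K) : (toGL s).1 = s.1 := rfl

/-- An element of `GL₂` of determinant one, as an element of `SL₂`. -/
def ofGL (γ : GL (Fin 2) K) (h : γ.1.det = 1) : SL2 K := ⟨γ.1, h⟩

theorem toGL_ofGL (γ : GL (Fin 2) K) (h : γ.1.det = 1) : toGL (ofGL γ h) = γ := Units.ext rfl

theorem det_ne_zero_GL (γ : GL (Fin 2) K) : γ.1.det ≠ 0 := by
  rw [← GeneralLinearGroup.val_det_apply]
  exact (GeneralLinearGroup.det γ).ne_zero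

theorem det_conj (γ s : GL (Fin 2) K) : (γ * s * γ⁻¹).1.det = s.1.det := by
  rw [← GeneralLinearGroup.val_det_apply, ← GeneralLinearGroup.val_det_apply, map_mul, map_mul,
    map_inv, mul_inv_cancel_comm]

variable (Γ : Subgroup (GL (Fin 2) K))

/-- `Γ ∩ SL₂`, as a subgroup of `SL₂`. -/
def GS : Subgroup (SL2 K) := Γ.comap toGL

theorem mem_GS {s : SL2 K} : s ∈ GS Γ ↔ toGL s ∈ Γ := Iff.rfl

theorem ofGL_mem {γ : GL (Fin 2) K} (hγ : γ ∈ Γ) (h : γ.1.det = 1) : ofGL γ h ∈ GS Γ := by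
  rw [mem_GS, toGL_ofGL]; exact hγ

/-- A matrix intertwining two upper unipotent matrices (the first one non-trivial) is upper
triangular. -/
theorem lower_eq_zero_of_comm (t : Matrix (Fin 2) (Fin 2) K) {x₀ : K} (hx₀ : x₀ ≠ 0) (y : K)
    (h : t * (u x₀).1 = (u y).1 * t) : t 1 0 = 0 := by
  have h1 := congrFun (congrFun h 1) 1
  simp only [Matrix.mul_apply, Fin.sum_univ_two, u_01, u_10, u_11] at h1
  have h2 : t 1 0 * x₀ = 0 := by linear_combination h1
  rcases mul_eq_zero.1 h2 with h3 | h3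
  · exact h3
  · exact absurd h3 hx₀

/-- An upper triangular matrix normalises the upper unipotent matrices. -/
theorem upper_mul_u (t : Matrix (Fin 2) (Fin 2) K) (h10 : t 1 0 = 0) (h11 : t 1 1 ≠ 0) (x : K) :
    t * (u x).1 = (u (t 0 0 / t 1 1 * x)).1 * t := by
  ext i j
  fin_cases i <;> fin_cases j <;>
    (simp [Matrix.mul_apply, Fin.sum_univ_two, h10]; try field_simp; try ring)

/-- Powers of an upper triangular matrix with equal diagonal entries. -/
theorem pow_upper_mat (M : Matrix (Fin 2) (Fin 2) K) (h10 : M 1 0 = 0) (heq : M 0 0 = M 1 1)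
    (n : ℕ) : (M ^ n) 1 0 = 0 ∧ (M ^ n) 0 0 = M 0 0 ^ n ∧ (M ^ n) 1 1 = M 0 0 ^ n ∧
      (M ^ (n + 1)) 0 1 = (n + 1 : ℕ) * M 0 0 ^ n * M 0 1 := by
  induction n with
  | zero => simp
  | succ n ih =>
    obtain ⟨i10, i00, i11, i01⟩ := ih
    have e10 : (M ^ (n + 1)) 1 0 = 0 := by
      rw [pow_succ, Matrix.mul_apply, Fin.sum_univ_two, i10, h10]; ring
    have e00 : (M ^ (n + 1)) 0 0 = M 0 0 ^ (n + 1) := by
      rw [pow_succ, Matrix.mul_apply, Fin.sum_univ_two, i00, h10]; ring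
    have e11 : (M ^ (n + 1)) 1 1 = M 0 0 ^ (n + 1) := by
      rw [pow_succ, Matrix.mul_apply, Fin.sum_univ_two, i11, i10, ← heq]; ring
    refine ⟨e10, e00, e11, ?_⟩
    rw [pow_succ, Matrix.mul_apply, Fin.sum_univ_two, e00, i01, ← heq]
    push_cast
    ring

/-- In characteristic `p`, the `p`-th power of an upper triangular matrix with equal diagonal
entries is scalar. -/
theorem pow_char_upper_mat (p : ℕ) [Fact p.Prime] [CharP K p] (M : Matrix (Fin 2) (Fin 2) K)
    (h10 : M 1 0 = 0) (heq : M 0 0 = M 1 1) :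
    M ^ p = (M 0 0 ^ p) • (1 : Matrix (Fin 2) (Fin 2) K) := by
  have hp1 : p - 1 + 1 = p := Nat.sub_add_cancel (Fact.out : p.Prime).pos
  obtain ⟨e10, e00, e11, -⟩ := pow_upper_mat M h10 heq p
  obtain ⟨-, -, -, e01⟩ := pow_upper_mat M h10 heq (p - 1)
  rw [hp1] at e01
  have hcast : ((p : ℕ) : K) = 0 := CharP.cast_eq_zero K p
  rw [hcast, zero_mul, zero_mul] at e01
  ext i j
  fin_cases i <;> fin_cases j <;> simp [e10, e00, e11, e01]

end GLBasics

section CaseDet

variable {K : Type*} [Field K] [Finite K] (p : ℕ) [Fact p.Prime] [CharP K p]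
  (Γ : Subgroup (GL (Fin 2) K))

include p in
/-- Frattini argument: every value of `det` on `Γ` is taken on the upper triangular elements of
`Γ` (if `Γ ∩ SL₂` contains a non-trivial upper unipotent element). -/
theorem exists_upper_det (hX : X (GS Γ) ≠ ⊥) {γ : GL (Fin 2) K} (hγ : γ ∈ Γ) :
    ∃ t ∈ Γ, t.1 1 0 = 0 ∧ t.1.det = γ.1.det := by
  obtain ⟨x₀, hx₀, hx₀ne⟩ := exists_mem_X_ne_zero (GS Γ) hX
  have hx₀Γ : toGL (u x₀) ∈ Γ := hx₀
  set sG : GL (Fin 2) K := γ * toGL (u x₀) * γ⁻¹ with hsG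
  have hsΓ : sG ∈ Γ := Γ.mul_mem (Γ.mul_mem hγ hx₀Γ) (Γ.inv_mem hγ)
  have hsdet : sG.1.det = 1 := by
    rw [hsG, det_conj]; exact (u x₀).2
  set s : SL2 K := ofGL sG hsdet with hs
  have hsmem : s ∈ GS Γ := ofGL_mem Γ hsΓ hsdet
  have hsp : (⟨s, hsmem⟩ : GS Γ) ^ p = 1 := by
    apply Subtype.ext
    show s ^ p = 1
    apply SpecialLinearGroup.toGL_injective
    show toGL (s ^ p) = toGL 1
    rw [map_pow, toGL_ofGL, hsG, conj_pow, ← map_pow, u_pow, CharP.cast_eq_zero, zero_mul, u_zero,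
      map_one, mul_one, mul_inv_cancel]
  obtain ⟨g₁, hg₁⟩ := exists_conj_mem_Us p (GS Γ) hX ⟨s, hsmem⟩ hsp
  refine ⟨toGL g₁.1 * γ, Γ.mul_mem g₁.2 hγ, ?_, ?_⟩
  · obtain ⟨h10, h00, h11⟩ := hg₁
    have hy : (g₁.1 * s * g₁.1⁻¹ : SL2 K) = u ((g₁.1 * s * g₁.1⁻¹ : SL2 K).1 0 1) :=
      eq_u_of h10 h00 h11
    set y := (g₁.1 * s * g₁.1⁻¹ : SL2 K).1 0 1 with hydef
    have hcomm : (toGL g₁.1 * γ) * toGL (u x₀) = toGL (u y) * (toGL g₁.1 * γ) := by
      rw [← hy, map_mul, map_mul, map_inv, toGL_ofGL, hsG]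
      group
    have hmat := congrArg (fun g : GL (Fin 2) K => g.1) hcomm
    exact lower_eq_zero_of_comm _ hx₀ne _ hmat
  · rw [Units.val_mul, det_mul, toGL_val, g₁.1.2, one_mul]

omit [Finite K] in
/-- A scalar element acts on `TwAd K` through the square of the scalar. -/
theorem smul_of_scalar (z : GL (Fin 2) K) (c : K)
    (hz : z.1 = c • (1 : Matrix (Fin 2) (Fin 2) K)) (x : TwAd K) : z • x = (c * c) • x := by
  have h00 : z.1 0 0 = c := by rw [hz]; simp
  have h01 : z.1 0 1 = 0 := by rw [hz]; simp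
  have h10 : z.1 1 0 = 0 := by rw [hz]; simp
  have h11 : z.1 1 1 = c := by rw [hz]; simp
  apply TwAd.ext
  rw [TwAd.smul_mat, TwAd.twist_entries, TwAd.mat_smul, h00, h01, h10, h11]
  ext i j
  fin_cases i <;> fin_cases j <;> simp <;> ring

/-- **(V), first case.**  If some element of `Γ` has determinant `δ` with `δ² ≠ 1`, every cocycle
of `Γ` in `TwAd K` is a coboundary (Sah's lemma applied to a central scalar `± δ^p`). -/
theorem isCoboundary_of_det (hp : p ≠ 2) (hX : X (GS Γ) ≠ ⊥)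
    (hsplit : ∀ g : GS Γ, ∃ w : P1 K, g • w = w) (hmove : ∃ g : GS Γ, g • inf K ≠ inf K)
    {γ : GL (Fin 2) K} (hγ : γ ∈ Γ) (hdet : γ.1.det ^ 2 ≠ 1) {f : Γ → TwAd K}
    (hf : IsCocycle₁ f) : IsCoboundary₁ f := by
  obtain ⟨t, ht, t10, tdet⟩ := exists_upper_det p Γ hX hγ
  set a := t.1 0 0 with hadef
  set d := t.1 1 1 with hddef
  have had : a * d = γ.1.det := by
    rw [← tdet, det_fin_two, t10]; ring
  have hδ0 : γ.1.det ≠ 0 := det_ne_zero_GL γ
  have ha0 : a ≠ 0 := by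
    intro h; rw [h, zero_mul] at had; exact hδ0 had.symm
  have hd0 : d ≠ 0 := by
    intro h; rw [h, mul_zero] at had; exact hδ0 had.symm
  -- `a / d` is a multiplier of `X`
  have hβ : a / d ∈ Structure.mult (X (GS Γ)) := by
    intro x hx
    have hxΓ : toGL (u x) ∈ Γ := hx
    have hmat := upper_mul_u t.1 t10 hd0 x
    have h1 : toGL (u (a / d * x)) = t * toGL (u x) * t⁻¹ := by
      rw [eq_mul_inv_iff_mul_eq]
      exact Units.ext hmat.symm
    show toGL (u (a / d * x)) ∈ Γ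
    rw [h1]
    exact Γ.mul_mem (Γ.mul_mem ht hxΓ) (Γ.inv_mem ht)
  have hβ0 : a / d ≠ 0 := div_ne_zero ha0 hd0
  have hcount := card_X_sub_one_le p (GS Γ) hp hX hsplit hmove
  obtain ⟨α, hαA, hαβ⟩ := Structure.exists_mem_A_eq_sq (X (GS Γ)) (A (GS Γ))
    (fun a ha x hx => A_mul_X (GS Γ) ha hx) hcount hX hβ hβ0
  obtain ⟨b', hb10, hb⟩ := (mem_A (GS Γ)).1 hαA
  rw [hαβ] at hb
  -- the element `t² b'⁻¹`
  have hbdet := det_eq (b'.1 : SL2 K)
  rw [hb10, mul_zero, sub_zero] at hbdet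
  set s₂ : GL (Fin 2) K := t * t * toGL (b'.1⁻¹) with hs₂def
  have hs₂ : s₂ ∈ Γ := by
    have : toGL (b'.1⁻¹) ∈ Γ := by rw [map_inv]; exact Γ.inv_mem b'.2
    exact Γ.mul_mem (Γ.mul_mem ht ht) this
  have s10 : s₂.1 1 0 = 0 := by
    rw [hs₂def, Units.val_mul, Units.val_mul, toGL_val, Matrix.mul_apply, Fin.sum_univ_two,
      Matrix.mul_apply, Fin.sum_univ_two, Matrix.mul_apply, Fin.sum_univ_two, inv_00, inv_10,
      hb10, t10]
    ring
  have s00 : s₂.1 0 0 = a * a * (b'.1 : SL2 K).1 1 1 := by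
    rw [hs₂def, Units.val_mul, Units.val_mul, toGL_val, Matrix.mul_apply, Fin.sum_univ_two,
      Matrix.mul_apply, Fin.sum_univ_two, Matrix.mul_apply, Fin.sum_univ_two, inv_00, inv_10,
      hb10, t10]
    ring
  have s11 : s₂.1 1 1 = d * d * (b'.1 : SL2 K).1 0 0 := by
    rw [hs₂def, Units.val_mul, Units.val_mul, toGL_val, Matrix.mul_apply, Fin.sum_univ_two,
      Matrix.mul_apply, Fin.sum_univ_two, Matrix.mul_apply, Fin.sum_univ_two, inv_01, inv_11,
      t10]
    ring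
  have hb00 : (b'.1 : SL2 K).1 0 0 ≠ 0 := entry_00_ne_zero hb10
  have seq : s₂.1 0 0 = s₂.1 1 1 := by
    rw [s00, s11]
    have h1 : a * a = d * d * ((b'.1 : SL2 K).1 0 0 * (b'.1 : SL2 K).1 0 0) := by
      rw [← hb]; field_simp
    apply mul_right_cancel₀ hb00
    linear_combination (a * a) * hbdet + h1
  have he2 : s₂.1 0 0 * s₂.1 0 0 = γ.1.det ^ 2 := by
    have h1 : s₂.1 0 0 * s₂.1 0 0 = s₂.1 0 0 * s₂.1 1 1 := by rw [← seq]
    rw [h1, s00, s11, ← had]
    linear_combination (a * a * d * d) * hbdet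
  obtain ⟨e, he⟩ : ∃ e : K, e = s₂.1 0 0 := ⟨_, rfl⟩
  rw [← he] at he2
  -- the central element
  have hz : (s₂ ^ p).1 = (e ^ p) • (1 : Matrix (Fin 2) (Fin 2) K) := by
    rw [Units.val_pow_eq_pow_val, he]
    exact pow_char_upper_mat p s₂.1 s10 seq
  have hzΓ : s₂ ^ p ∈ Γ := Γ.pow_mem hs₂ p
  have hcentral : ∀ g : Γ, (⟨s₂ ^ p, hzΓ⟩ : Γ) * g = g * ⟨s₂ ^ p, hzΓ⟩ := by
    intro g
    apply Subtype.ext
    apply Units.ext
    show (s₂ ^ p).1 * g.1.1 = g.1.1 * (s₂ ^ p).1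
    rw [hz, Matrix.smul_mul, Matrix.one_mul, Matrix.mul_smul, Matrix.mul_one]
  have hact : ∀ x : TwAd K, (⟨s₂ ^ p, hzΓ⟩ : Γ) • x = (e ^ p * e ^ p) • x := fun x =>
    smul_of_scalar (s₂ ^ p) (e ^ p) hz x
  have hunit : IsUnit (e ^ p * e ^ p - 1) := by
    rw [isUnit_iff_ne_zero, ← mul_pow, he2]
    intro h
    apply hdet
    have h1 : (γ.1.det ^ 2) ^ p ^ 1 = 1 := by
      rw [pow_one]; exact sub_eq_zero.1 h
    exact eq_one_of_pow_char_pow p h1
  exact isCoboundary₁_of_central_smul hf ⟨s₂ ^ p, hzΓ⟩ hcentral (e ^ p * e ^ p) hunit hact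

end CaseDet

section CaseThree

variable {K : Type*} [Field K]

/-- The action of `u x` on `TwAd K`, entrywise. -/
theorem u_smul_mat (x : K) (m : TwAd K) :
    (u x • m).mat =
      !![m.mat 0 0 + x * m.mat 1 0,
         m.mat 0 1 - x * m.mat 0 0 - x ^ 2 * m.mat 1 0 + x * m.mat 1 1;
         m.mat 1 0, m.mat 1 1 - x * m.mat 1 0] := by
  rw [TwAd.smul_SL_mat, TwAd.twist_entries]
  ext i j
  fin_cases i <;> fin_cases j <;> simp <;> ring

/-- The action of an upper triangular element of `SL₂` on `TwAd K`: first row. -/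
theorem upper_smul_mat (b : SL2 K) (h10 : b.1 1 0 = 0) (m : TwAd K) :
    (b • m).mat 0 0 = (b.1 0 0 * m.mat 0 0 + b.1 0 1 * m.mat 1 0) * b.1 1 1 ∧
      (b • m).mat 0 1 = -(b.1 0 0 * m.mat 0 0 + b.1 0 1 * m.mat 1 0) * b.1 0 1 +
        (b.1 0 0 * m.mat 0 1 + b.1 0 1 * m.mat 1 1) * b.1 0 0 := by
  rw [TwAd.smul_SL_mat, TwAd.twist_entries, h10]
  constructor
  · simp
  · simp

/-- **(V), characteristic `3`: the restriction of a cocycle to the upper unipotent subgroup is a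
coboundary.** -/
theorem exists_forall_Us [Finite K] [CharP K 3] (G : Subgroup (SL2 K)) (hX : X G ≠ ⊥)
    (hcount : Nat.card (X G) - 1 ≤ 2 * Nat.card (A G))
    {f' : G → TwAd K} (hf' : IsCocycle₁ f') (htr : ∀ g, (f' g).mat.trace = 0) :
    ∃ m : TwAd K, ∀ v ∈ Us G, v • m - m = f' v := by
  classical
  obtain ⟨x₀, hx₀, hx₀ne⟩ := exists_mem_X_ne_zero G hX
  have h3 : (3 : K) = 0 := by
    have := CharP.cast_eq_zero K 3
    exact_mod_cast this
  have h2 : (2 : K) ≠ 0 := by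
    intro h
    have : (1 : K) = 0 := by linear_combination h3 - h
    exact one_ne_zero this
  -- the restriction to `u(X)` as a function on `K`
  set φ : K → TwAd K := fun x => if h : x ∈ X G then f' ⟨u x, h⟩ else 0 with hφdef
  have hφ : ∀ x (hx : x ∈ X G), φ x = f' ⟨u x, hx⟩ := fun x hx => by
    rw [hφdef]; simp only [hx, dite_true]
  have hφtr : ∀ x, (φ x).mat 1 1 = -(φ x).mat 0 0 := by
    intro x
    have h0 : (φ x).mat.trace = 0 := by
      by_cases hx : x ∈ X G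
      · rw [hφ x hx]; exact htr _
      · rw [hφdef]; simp only [hx, dite_false]; rw [TwAd.mat_zero, Matrix.trace_zero]
    rw [trace_fin_two] at h0
    linear_combination h0
  have hcoc : ∀ x ∈ X G, ∀ y ∈ X G, φ (x + y) = u x • φ y + φ x := by
    intro x hx y hy
    rw [hφ x hx, hφ y hy, hφ (x + y) ((X G).add_mem hx hy)]
    have e : (⟨u (x + y), (X G).add_mem hx hy⟩ : G) = ⟨u x, hx⟩ * ⟨u y, hy⟩ :=
      Subtype.ext (u_add x y)
    rw [e, hf' ⟨u x, hx⟩ ⟨u y, hy⟩]
    rfl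
  set F : K → K := fun x => (φ x).mat 1 0 with hFdef
  set H : K → K := fun x => (φ x).mat 0 0 with hHdef
  set E : K → K := fun x => (φ x).mat 0 1 with hEdef
  have c1 : ∀ x ∈ X G, ∀ y ∈ X G, F (x + y) = F y + F x := by
    intro x hx y hy
    simp only [hFdef]
    rw [hcoc x hx y hy, TwAd.mat_add, Matrix.add_apply, u_smul_mat]
    simp
  have c2 : ∀ x ∈ X G, ∀ y ∈ X G, H (x + y) = H y + x * F y + H x := by
    intro x hx y hy
    simp only [hHdef, hFdef]
    rw [hcoc x hx y hy, TwAd.mat_add, Matrix.add_apply, u_smul_mat]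
    simp
  have c3 : ∀ x ∈ X G, ∀ y ∈ X G,
      E (x + y) = E y - 2 * x * H y - x ^ 2 * F y + E x := by
    intro x hx y hy
    simp only [hHdef, hFdef, hEdef]
    rw [hcoc x hx y hy, TwAd.mat_add, Matrix.add_apply, u_smul_mat, hφtr y]
    simp
    ring
  obtain ⟨hF0, c₂, hH, hE₀add⟩ := cocycle_shape (X G) hx₀ hx₀ne F H E c1 c2 c3
  set E₀ : K → K := fun x => E x + c₂ * x ^ 2 with hE₀def
  have hAX : ∀ a ∈ A G, ∀ x ∈ X G, (a : K) * x ∈ X G := fun a ha x hx => A_mul_X G ha hx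
  -- semi-invariance under the upper triangular elements of `G`
  have hinv : ∀ a ∈ A G, ∃ κ : K, ∀ x ∈ X G,
      (a : K) * E₀ ((a : K)⁻¹ * x) = E₀ x + κ * x := by
    intro a ha
    obtain ⟨b, hb10, hab⟩ := (mem_A G).1 ha
    have hbdet := det_eq (b : SL2 K)
    rw [hb10, mul_zero, sub_zero] at hbdet
    set a₀ := (b : SL2 K).1 0 0 with ha₀
    set d₀ := (b : SL2 K).1 1 1 with hd₀
    set β' := (b : SL2 K).1 0 1 with hβ'
    have ha₀ne : a₀ ≠ 0 := entry_00_ne_zero hb10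
    have hainv : (a : K)⁻¹ = d₀ * d₀ := by
      rw [hab]
      field_simp
      linear_combination (-(a₀ * d₀ + 1)) * hbdet
    refine ⟨(f' b).mat 1 1 - (f' b).mat 0 0 + 2 * β' * c₂ * d₀, fun x hx => ?_⟩
    have hx' : (a : K)⁻¹ * x ∈ X G := by
      have h1 : ((a⁻¹ : Kˣ) : K) * x ∈ X G := hAX _ ((A G).inv_mem ha) x hx
      rwa [Units.val_inv_eq_inv_val] at h1
    rw [hainv] at hx' ⊢
    -- the conjugation formula
    have hconj := conj_apply_of_isCocycle₁ hf' b ⟨u x, hx⟩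
    have e : b⁻¹ * ⟨u x, hx⟩ * b = (⟨u (d₀ * d₀ * x), hx'⟩ : G) := by
      apply Subtype.ext
      show (b : SL2 K)⁻¹ * u x * (b : SL2 K) = u (d₀ * d₀ * x)
      have h1 := conj_u ((b : SL2 K)⁻¹) (by rw [inv_10, hb10, neg_zero]) x
      rw [inv_inv, inv_00] at h1
      exact h1
    rw [e, ← hφ _ hx', ← hφ _ hx] at hconj
    have hconj' : (b : SL2 K) • φ (d₀ * d₀ * x) = φ x + (u x • f' b - f' b) := hconj
    have hmat := congrArg TwAd.mat hconj'
    obtain ⟨e00, e01⟩ := upper_smul_mat (b : SL2 K) hb10 (φ (d₀ * d₀ * x))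
    have eq00 := congrFun (congrFun hmat 0) 0
    have eq01 := congrFun (congrFun hmat 0) 1
    rw [e00, TwAd.mat_add, Matrix.add_apply, TwAd.mat_sub, Matrix.sub_apply, u_smul_mat] at eq00
    rw [e01, TwAd.mat_add, Matrix.add_apply, TwAd.mat_sub, Matrix.sub_apply, u_smul_mat,
      hφtr (d₀ * d₀ * x)] at eq01
    have hF' : (φ (d₀ * d₀ * x)).mat 1 0 = 0 := hF0 _ hx'
    have hH' : (φ (d₀ * d₀ * x)).mat 0 0 = c₂ * (d₀ * d₀ * x) := hH _ hx'
    have hHx : (φ x).mat 0 0 = c₂ * x := hH _ hx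
    rw [hF', hH'] at eq00 eq01
    rw [hHx] at eq00
    simp only [Matrix.cons_val', Matrix.cons_val_zero, Matrix.cons_val_one, Matrix.of_apply,
      Matrix.empty_val', Matrix.cons_val_fin_one] at eq00 eq01
    simp only [hE₀def, hEdef]
    rw [hab]
    linear_combination eq01 + x * eq00 +
      (a₀ * c₂ * d₀ ^ 3 * x ^ 2 + 2 * β' * c₂ * d₀ * x) * hbdet
  have hE₀add' : ∀ x ∈ X G, ∀ y ∈ X G, E₀ (x + y) = E₀ x + E₀ y := hE₀add
  obtain ⟨l, hl⟩ := additive_linear (X G) (A G) hAX hcount hx₀ hx₀ne E₀ hE₀add' hinv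
  obtain ⟨l', hl'⟩ : ∃ l' : K, 2 * l' = l := ⟨l / 2, mul_div_cancel₀ l h2⟩
  refine ⟨TwAd.of !![-l', 0; c₂, l'], fun v hv => ?_⟩
  obtain ⟨v10, v00, v11⟩ := hv
  have hvu : (v : SL2 K) = u ((v : SL2 K).1 0 1) := eq_u_of v10 v00 v11
  set y := (v : SL2 K).1 0 1 with hy
  have hyX : y ∈ X G := by
    show u y ∈ G
    rw [← hvu]; exact v.2
  have hv' : v = ⟨u y, hyX⟩ := Subtype.ext hvu
  rw [hv', ← hφ y hyX]
  show u y • TwAd.of !![-l', 0; c₂, l'] - TwAd.of !![-l', 0; c₂, l'] = φ y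
  have hly := hl y hyX
  simp only [hE₀def, hEdef] at hly
  have hHy : (φ y).mat 0 0 = c₂ * y := hH y hyX
  have hFy : (φ y).mat 1 0 = 0 := hF0 y hyX
  apply TwAd.ext_entries
  · rw [TwAd.mat_sub, Matrix.sub_apply, u_smul_mat, hHy]
    simp
    ring
  · rw [TwAd.mat_sub, Matrix.sub_apply, u_smul_mat]
    simp
    linear_combination -hly + y * hl'
  · rw [TwAd.mat_sub, Matrix.sub_apply, u_smul_mat, hFy]
    simp
  · rw [TwAd.mat_sub, Matrix.sub_apply, u_smul_mat, hφtr y, hHy]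
    simp
    ring

end CaseThree

section Assemble

variable {K : Type*} [Field K]

/-- Multiplication by an integer prime to the characteristic is bijective on `TwAd K`. -/
theorem bijective_nsmul (p : ℕ) [CharP K p] (n : ℕ) (hn : ¬ p ∣ n) :
    Function.Bijective (fun x : TwAd K => n • x) := by
  have hn0 : (n : K) ≠ 0 := fun h => hn ((CharP.cast_eq_zero_iff K p n).1 h)
  have e : ∀ x : TwAd K, n • x = (n : K) • x := fun x => (Nat.cast_smul_eq_nsmul K n x).symm
  constructor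
  · intro x y h
    simp only [e] at h
    exact smul_right_injective _ hn0 h
  · intro y
    refine ⟨(n : K)⁻¹ • y, ?_⟩
    simp only [e]
    rw [smul_smul, mul_inv_cancel₀ hn0, one_smul]

/-- The order of `Kˣ` is prime to the characteristic. -/
theorem not_dvd_card_units [Finite K] (p : ℕ) [Fact p.Prime] [CharP K p] :
    ¬ p ∣ Nat.card Kˣ := by
  have := Fintype.ofFinite K
  obtain ⟨n, -, hn⟩ := FiniteField.card K p
  rw [Nat.card_units, Nat.card_eq_fintype_card, hn]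
  intro h
  have h1 : p ∣ p ^ (n : ℕ) := dvd_pow_self p n.ne_zero
  have hpos : 0 < p ^ (n : ℕ) := pow_pos (Fact.out : p.Prime).pos _
  have h2 : p ∣ p ^ (n : ℕ) - (p ^ (n : ℕ) - 1) := Nat.dvd_sub h1 h
  have h3 : p ^ (n : ℕ) - (p ^ (n : ℕ) - 1) = 1 := by omega
  rw [h3] at h2
  exact (Fact.out : p.Prime).one_lt.ne' (Nat.dvd_one.1 h2)

/-- A coboundary with trace-zero values is the coboundary of a trace-zero element. -/
theorem exists_trace_zero (h2 : (2 : K) ≠ 0) (Γ : Subgroup (GL (Fin 2) K)) {f : Γ → TwAd K}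
    (htr : ∀ g, (f g).mat.trace = 0) (h : IsCoboundary₁ f) :
    ∃ m : TwAd K, m.mat.trace = 0 ∧ ∀ g : Γ, g • m - m = f g := by
  obtain ⟨x, hx⟩ := h
  have hkey : ∀ g : Γ, (g.1.1.det - 1) * x.mat.trace = 0 := by
    intro g
    have h1 := congrArg (fun y : TwAd K => y.mat.trace) (hx g)
    simp only [TwAd.mat_sub, Matrix.trace_sub] at h1
    have h3 : (g • x).mat.trace = g.1.1.det * x.mat.trace := TwAd.trace_smul g.1 x
    rw [h3, htr] at h1
    linear_combination h1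
  refine ⟨x - (x.mat.trace / 2) • TwAd.of 1, ?_, fun g => ?_⟩
  · rw [TwAd.mat_sub, Matrix.trace_sub, TwAd.mat_smul, Matrix.trace_smul, TwAd.mat_of,
      Matrix.trace_one, Fintype.card_fin, smul_eq_mul]
    push_cast
    field_simp
    ring
  · rw [← hx g]
    apply TwAd.ext
    have hg : ∀ y : TwAd K, (g • y).mat = g.1.1 * y.mat * adjugate g.1.1 := fun y => rfl
    simp only [TwAd.mat_sub, hg, TwAd.mat_smul, TwAd.mat_of]
    rw [Matrix.mul_sub, Matrix.sub_mul, Matrix.mul_smul, Matrix.smul_mul, Matrix.mul_one,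
      Matrix.mul_adjugate, smul_smul]
    have h4 : x.mat.trace / 2 * g.1.1.det = x.mat.trace / 2 := by
      have := hkey g
      field_simp
      linear_combination this
    rw [h4]
    abel

/-- The inclusion of `Γ ∩ SL₂` into `Γ`. -/
def inclGS (Γ : Subgroup (GL (Fin 2) K)) : GS Γ →* Γ where
  toFun s := ⟨toGL s.1, s.2⟩
  map_one' := Subtype.ext (map_one toGL)
  map_mul' := fun s s' => Subtype.ext (map_mul toGL s.1 s'.1)

theorem inclGS_smul (Γ : Subgroup (GL (Fin 2) K)) (s : GS Γ) (x : TwAd K) :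
    inclGS Γ s • x = s • x := rfl

/-- **(V), second case: characteristic `3`.** -/
theorem isCoboundary_of_three [Finite K] [CharP K 3] (Γ : Subgroup (GL (Fin 2) K))
    (hX : X (GS Γ) ≠ ⊥) (hsplit : ∀ g : GS Γ, ∃ w : P1 K, g • w = w)
    (hmove : ∃ g : GS Γ, g • inf K ≠ inf K) {f : Γ → TwAd K} (hf : IsCocycle₁ f)
    (htr : ∀ g, (f g).mat.trace = 0) : IsCoboundary₁ f := by
  have : Fact (Nat.Prime 3) := ⟨Nat.prime_three⟩
  have hcount := card_X_sub_one_le 3 (GS Γ) (by norm_num) hX hsplit hmove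
  set f' : GS Γ → TwAd K := fun s => f (inclGS Γ s) with hf'def
  have hf' : IsCocycle₁ f' := by
    intro s s'
    show f (inclGS Γ (s * s')) = s • f (inclGS Γ s') + f (inclGS Γ s)
    rw [map_mul, hf, inclGS_smul]
  have htr' : ∀ s, (f' s).mat.trace = 0 := fun s => htr _
  obtain ⟨m, hm⟩ := exists_forall_Us (GS Γ) hX hcount hf' htr'
  have hcob' : IsCoboundary₁ f' :=
    isCoboundary₁_of_restrict hf' (Us (GS Γ))
      (bijective_nsmul 3 _ (not_dvd_index_Us 3 (GS Γ) hX)) ⟨m, hm⟩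
  obtain ⟨x, hx⟩ := hcob'
  -- from `Γ ∩ SL₂` to `Γ`
  set detΓ : Γ →* Kˣ := GeneralLinearGroup.det.comp Γ.subtype with hdetΓ
  have hidx : ¬ 3 ∣ detΓ.ker.index := by
    rw [Subgroup.index_ker]
    intro h
    exact not_dvd_card_units (K := K) 3 (h.trans (Subgroup.card_subgroup_dvd_card _))
  refine isCoboundary₁_of_restrict hf detΓ.ker (bijective_nsmul 3 _ hidx) ⟨x, fun γ hγ => ?_⟩
  have hdet : γ.1.1.det = 1 := by
    have h1 : GeneralLinearGroup.det γ.1 = 1 := MonoidHom.mem_ker.1 hγ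
    have h2 := congrArg Units.val h1
    rwa [GeneralLinearGroup.val_det_apply, Units.val_one] at h2
  have e : inclGS Γ ⟨ofGL γ.1 hdet, ofGL_mem Γ γ.2 hdet⟩ = γ := Subtype.ext (toGL_ofGL _ _)
  have h3 := hx ⟨ofGL γ.1 hdet, ofGL_mem Γ γ.2 hdet⟩
  rw [hf'def] at h3
  simp only at h3
  rw [← inclGS_smul, e] at h3
  exact h3

/-- **(V), core form.**  `Γ ≤ GL₂(K)` such that `Γ ∩ SL₂` contains a non-trivial upper unipotent
element, does not fix `∞`, and all its elements have a fixed point on the projective line. -/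
theorem vanish_core [Finite K] (p : ℕ) [Fact p.Prime] [CharP K p] (hp : p ≠ 2)
    (Γ : Subgroup (GL (Fin 2) K)) (hX : X (GS Γ) ≠ ⊥)
    (hsplit : ∀ g : GS Γ, ∃ w : P1 K, g • w = w) (hmove : ∃ g : GS Γ, g • inf K ≠ inf K)
    (hdet : p = 3 ∨ ∃ γ ∈ Γ, γ.1.det ^ 2 ≠ 1) {f : Γ → TwAd K} (hf : IsCocycle₁ f)
    (htr : ∀ g, (f g).mat.trace = 0) :
    ∃ m : TwAd K, m.mat.trace = 0 ∧ ∀ g : Γ, g • m - m = f g := by
  have h2 : (2 : K) ≠ 0 := two_ne_zero_of_char p hp
  refine exists_trace_zero h2 Γ htr ?_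
  rcases hdet with h3 | ⟨γ, hγ, hγdet⟩
  · subst h3
    exact isCoboundary_of_three Γ hX hsplit hmove hf htr
  · exact isCoboundary_of_det p Γ hp hX hsplit hmove hγ hγdet hf

end Assemble

end Fermat.Agent.S56.Group.Vanish
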