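/-
Lemma H of S56 (G-H), final forms.  Let `k` be a finite field of odd characteristic `p`, `G` a group
acting on a `2`-dimensional `k`-vector space `V` (`ρ : G →* End_k V`) such that every `ρ g` has an
eigenvector in `V`, there is no common eigenvector, and (`p = 3` or some `det (ρ g)` has square
`≠ 1`).  Then every map `b : G → End_k V` with trace-zero values, constant on the fibres of `ρ`,
with `b (g h) = det (ρ g) • (ρ g ∘ b h ∘ (ρ g)⁻¹) + b g`, is of the form
`b g = det (ρ g) • (ρ g ∘ m ∘ (ρ g)⁻¹) - m` with `m` of trace zero (`lemmaH_end`).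
-/
import Mathlib
import Fermat.Agent.S56.Group.Vanish

set_option autoImplicit false

namespace Fermat.Agent.S56.Group.LemmaH

open Matrix groupCohomology Module
open Fermat.Agent.S56.Group.SL2Points Fermat.Agent.S56.Group.Vanish

section MatrixForm

variable {K : Type*} [Field K] {G : Type*} [Group G]

/-- A "cocycle" of `G` which is constant on the fibres of `ρ` descends to the image of `ρ`. -/
theorem exists_cocycle_range (ρ : G →* GL (Fin 2) K) (b : G → TwAd K)
    (hb : ∀ g h, b (g * h) = ρ g • b h + b g) (hconst : ∀ g h, ρ g = ρ h → b g = b h) :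
    ∃ f : ρ.range → TwAd K, IsCocycle₁ f ∧ ∀ g, f ⟨ρ g, ⟨g, rfl⟩⟩ = b g := by
  classical
  have hch : ∀ γ : ρ.range, ∃ g, ρ g = γ.1 := fun γ => γ.2
  choose sec hsec using hch
  refine ⟨fun γ => b (sec γ), ?_, ?_⟩
  · intro γ δ
    show b (sec (γ * δ)) = γ • b (sec δ) + b (sec γ)
    have h1 : ρ (sec (γ * δ)) = ρ (sec γ * sec δ) := by
      rw [hsec, map_mul, hsec, hsec]; rfl
    rw [hconst _ _ h1, hb]
    congr 1
    show ρ (sec γ) • b (sec δ) = γ.1 • b (sec δ)
    rw [hsec]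
  · intro g
    exact hconst _ _ (hsec _)

/-- Lemma H, matrix form, when `p` does not divide the order of the image. -/
theorem lemmaH_mat_coprime [Finite K] (p : ℕ) [Fact p.Prime] [CharP K p] (hp : p ≠ 2)
    (ρ : G →* GL (Fin 2) K) (hcop : ¬ p ∣ Nat.card ρ.range) (b : G → TwAd K)
    (htr : ∀ g, (b g).mat.trace = 0) (hb : ∀ g h, b (g * h) = ρ g • b h + b g)
    (hconst : ∀ g h, ρ g = ρ h → b g = b h) :
    ∃ m : TwAd K, m.mat.trace = 0 ∧ ∀ g, ρ g • m - m = b g := by
  obtain ⟨f, hf, hfb⟩ := exists_cocycle_range ρ b hb hconst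
  have hcob : IsCoboundary₁ f := isCoboundary₁_of_card_bijective hf (bijective_nsmul p _ hcop)
  have htr' : ∀ γ, (f γ).mat.trace = 0 := by
    rintro ⟨_, g, rfl⟩
    rw [hfb]; exact htr g
  obtain ⟨m, hm0, hm⟩ := exists_trace_zero (two_ne_zero_of_char p hp) ρ.range htr' hcob
  refine ⟨m, hm0, fun g => ?_⟩
  rw [← hfb g, ← hm ⟨ρ g, ⟨g, rfl⟩⟩]
  rfl

/-- Lemma H, matrix form, when the image contains a non-trivial upper unipotent matrix. -/
theorem lemmaH_mat_unip [Finite K] (p : ℕ) [Fact p.Prime] [CharP K p] (hp : p ≠ 2)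
    (ρ : G →* GL (Fin 2) K)
    (hs : ∀ g, ∃ v : Fin 2 → K, v ≠ 0 ∧ ∃ a : K, (ρ g).1 *ᵥ v = a • v)
    (hmv : ∃ g, (ρ g).1 1 0 ≠ 0)
    (hu : ∃ g₀ x₀, x₀ ≠ 0 ∧ ρ g₀ = toGL (u x₀))
    (hdet : p = 3 ∨ ∃ g, (ρ g).1.det ^ 2 ≠ 1) (b : G → TwAd K)
    (htr : ∀ g, (b g).mat.trace = 0) (hb : ∀ g h, b (g * h) = ρ g • b h + b g)
    (hconst : ∀ g h, ρ g = ρ h → b g = b h) :
    ∃ m : TwAd K, m.mat.trace = 0 ∧ ∀ g, ρ g • m - m = b g := by
  obtain ⟨f, hf, hfb⟩ := exists_cocycle_range ρ b hb hconst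
  have htr' : ∀ γ, (f γ).mat.trace = 0 := by
    rintro ⟨_, g, rfl⟩
    rw [hfb]; exact htr g
  obtain ⟨g₀, x₀, hx₀ne, hg₀⟩ := hu
  have hx₀ : x₀ ∈ X (GS ρ.range) := by
    show toGL (u x₀) ∈ ρ.range
    exact ⟨g₀, hg₀⟩
  have hX : X (GS ρ.range) ≠ ⊥ := by
    intro h
    rw [h, AddSubgroup.mem_bot] at hx₀
    exact hx₀ne hx₀
  -- fixed points
  have hsplit : ∀ s : GS ρ.range, ∃ w : P1 K, s • w = w := by
    intro s
    obtain ⟨g, hg⟩ : ∃ g, ρ g = toGL s.1 := s.2
    obtain ⟨v, hv, a, hva⟩ := hs g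
    have hmat : (ρ g).1 = s.1.1 := by rw [hg]; rfl
    rw [hmat] at hva
    have e0 := congrFun hva 0
    have e1 := congrFun hva 1
    simp only [Matrix.mulVec, dotProduct, Fin.sum_univ_two, Pi.smul_apply, smul_eq_mul] at e0 e1
    have hv' : v 0 ≠ 0 ∨ v 1 ≠ 0 := by
      by_contra hcon
      push Not at hcon
      apply hv
      ext i
      fin_cases i
      · exact hcon.1
      · exact hcon.2
    refine ⟨pt (v 0) (v 1) hv', ?_⟩
    show (s.1 : SL2 K) • pt (v 0) (v 1) hv' = pt (v 0) (v 1) hv'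
    rw [smul_pt_eq_iff, e0, e1]
    ring
  -- `∞` is moved
  have hmove : ∃ s : GS ρ.range, s • inf K ≠ inf K := by
    obtain ⟨g, hg⟩ := hmv
    set γ := ρ g with hγ
    have hγmem : γ ∈ ρ.range := ⟨g, rfl⟩
    have hxΓ : toGL (u x₀) ∈ ρ.range := hx₀
    set sG : GL (Fin 2) K := γ * toGL (u x₀) * γ⁻¹ with hsG
    have hsΓ : sG ∈ ρ.range :=
      (ρ.range).mul_mem ((ρ.range).mul_mem hγmem hxΓ) ((ρ.range).inv_mem hγmem)
    have hsdet : sG.1.det = 1 := by
      rw [hsG, Vanish.det_conj]; exact (u x₀).2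
    refine ⟨⟨ofGL sG hsdet, ofGL_mem _ hsΓ hsdet⟩, ?_⟩
    intro hfix
    have h10 : (ofGL sG hsdet).1 1 0 = 0 := (smul_inf_eq_iff _).1 hfix
    have h10' : sG.1 1 0 = 0 := h10
    have hcomm : sG * γ = γ * toGL (u x₀) := by rw [hsG]; group
    have hmat := congrArg (fun t : GL (Fin 2) K => t.1) hcomm
    simp only [Units.val_mul, toGL_val] at hmat
    have e10 := congrFun (congrFun hmat 1) 0
    have e11 := congrFun (congrFun hmat 1) 1
    simp only [Matrix.mul_apply, Fin.sum_univ_two, u_00, u_01, u_10, u_11, h10'] at e10 e11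
    have h11 : sG.1 1 1 = 1 := by
      have : (sG.1 1 1 - 1) * γ.1 1 0 = 0 := by linear_combination e10
      rcases mul_eq_zero.1 this with h | h
      · exact sub_eq_zero.1 h
      · exact absurd h hg
    rw [h11] at e11
    have : γ.1 1 0 * x₀ = 0 := by linear_combination -e11
    rcases mul_eq_zero.1 this with h | h
    · exact hg h
    · exact hx₀ne h
  have hdet' : p = 3 ∨ ∃ γ ∈ ρ.range, γ.1.det ^ 2 ≠ 1 := by
    rcases hdet with h | ⟨g, hg⟩
    · exact Or.inl h
    · exact Or.inr ⟨ρ g, ⟨g, rfl⟩, hg⟩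
  obtain ⟨m, hm0, hm⟩ := vanish_core p hp ρ.range hX hsplit hmove hdet' hf htr'
  refine ⟨m, hm0, fun g => ?_⟩
  rw [← hfb g, ← hm ⟨ρ g, ⟨g, rfl⟩⟩]
  rfl

end MatrixForm

section EndForm

variable {k : Type*} [Field k] {V : Type*} [AddCommGroup V] [Module k V] {G : Type*} [Group G]

/-- `det M • (M N M') = M N adj(M)` if `M M' = 1`. -/
theorem twist_eq (M M' N : Matrix (Fin 2) (Fin 2) k) (h : M * M' = 1) :
    M.det • (M * N * M') = M * N * adjugate M := by
  have h' : M' * M = 1 := mul_eq_one_comm.1 h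
  have e : adjugate M = M.det • M' := by
    calc adjugate M = adjugate M * (M * M') := by rw [h, Matrix.mul_one]
      _ = (adjugate M * M) * M' := by rw [Matrix.mul_assoc]
      _ = M.det • M' := by rw [adjugate_mul, Matrix.smul_mul, Matrix.one_mul]
  rw [e, Matrix.mul_smul]

/-- The matrix representation attached to `ρ` and a basis. -/
noncomputable def matRep (B : Basis (Fin 2) k V) (ρ : G →* Module.End k V) : G →* GL (Fin 2) k :=
  (Units.map ((LinearMap.toMatrixAlgEquiv B : Module.End k V ≃ₐ[k] _) : Module.End k V →* _)).comp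
    ρ.toHomUnits

theorem matRep_val (B : Basis (Fin 2) k V) (ρ : G →* Module.End k V) (g : G) :
    (matRep B ρ g).1 = LinearMap.toMatrix B B (ρ g) := rfl

theorem matRep_val' (B : Basis (Fin 2) k V) (ρ : G →* Module.End k V) (g : G) :
    (matRep B ρ g).1 = LinearMap.toMatrixAlgEquiv B (ρ g) := rfl

theorem matRep_det (B : Basis (Fin 2) k V) (ρ : G →* Module.End k V) (g : G) :
    (matRep B ρ g).1.det = LinearMap.det (ρ g) := by
  rw [matRep_val, LinearMap.det_toMatrix]

theorem matRep_eq_iff (B : Basis (Fin 2) k V) (ρ : G →* Module.End k V) (g h : G) :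
    matRep B ρ g = matRep B ρ h ↔ ρ g = ρ h := by
  constructor
  · intro e
    have := congrArg (fun t : GL (Fin 2) k => t.1) e
    simp only [matRep_val'] at this
    exact (LinearMap.toMatrixAlgEquiv B).injective this
  · intro e
    apply Units.ext
    rw [matRep_val', matRep_val', e]

/-- The matrix of `b g`, as an element of `TwAd k`. -/
noncomputable def matCoc (B : Basis (Fin 2) k V) (b : G → Module.End k V) (g : G) : TwAd k :=
  TwAd.of (LinearMap.toMatrixAlgEquiv B (b g))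

omit [Group G] in
theorem matCoc_mat (B : Basis (Fin 2) k V) (b : G → Module.End k V) (g : G) :
    (matCoc B b g).mat = LinearMap.toMatrixAlgEquiv B (b g) := rfl

theorem matRep_mul_inv (B : Basis (Fin 2) k V) (ρ : G →* Module.End k V) (g : G) :
    LinearMap.toMatrixAlgEquiv B (ρ g) * LinearMap.toMatrixAlgEquiv B (ρ g⁻¹) = 1 := by
  rw [← map_mul, ← map_mul, mul_inv_cancel, map_one, map_one]

/-- Transfer of the cocycle identity. -/
theorem matCoc_mul (B : Basis (Fin 2) k V) (ρ : G →* Module.End k V) (b : G → Module.End k V)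
    (hb : ∀ g h, b (g * h) = LinearMap.det (ρ g) • (ρ g * b h * ρ g⁻¹) + b g) (g h : G) :
    matCoc B b (g * h) = matRep B ρ g • matCoc B b h + matCoc B b g := by
  apply TwAd.ext
  rw [TwAd.mat_add, TwAd.smul_mat, matCoc_mat, matCoc_mat, matCoc_mat, hb, map_add, map_smul,
    map_mul, map_mul, matRep_val', ← twist_eq _ _ _ (matRep_mul_inv B ρ g)]
  congr 2
  rw [← matRep_val', matRep_det]

theorem matCoc_trace (B : Basis (Fin 2) k V) (b : G → Module.End k V)
    (htr : ∀ g, LinearMap.trace k V (b g) = 0) (g : G) : (matCoc B b g).mat.trace = 0 := by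
  rw [matCoc_mat, ← htr g, LinearMap.trace_eq_matrix_trace k B]
  rfl

theorem matCoc_const (B : Basis (Fin 2) k V) (ρ : G →* Module.End k V) (b : G → Module.End k V)
    (hconst : ∀ g h, ρ g = ρ h → b g = b h) (g h : G) (e : matRep B ρ g = matRep B ρ h) :
    matCoc B b g = matCoc B b h := by
  unfold matCoc
  rw [hconst g h ((matRep_eq_iff B ρ g h).1 e)]

/-- Transfer of the eigenvectors. -/
theorem matRep_eigvec (B : Basis (Fin 2) k V) (ρ : G →* Module.End k V)
    (hs : ∀ g, ∃ u : V, u ≠ 0 ∧ ∃ c : k, ρ g u = c • u) (g : G) :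
    ∃ v : Fin 2 → k, v ≠ 0 ∧ ∃ a : k, (matRep B ρ g).1 *ᵥ v = a • v := by
  obtain ⟨u, hu, c, huc⟩ := hs g
  refine ⟨B.equivFun u, ?_, c, ?_⟩
  · intro h0
    apply hu
    exact B.equivFun.map_eq_zero_iff.1 h0
  · rw [matRep_val, Basis.equivFun_apply, LinearMap.toMatrix_mulVec_repr, huc, map_smul]
    rfl

/-- Transfer of the conclusion. -/
theorem end_of_mat (B : Basis (Fin 2) k V) (ρ : G →* Module.End k V) (b : G → Module.End k V)
    (hmat : ∃ m : TwAd k, m.mat.trace = 0 ∧ ∀ g, matRep B ρ g • m - m = matCoc B b g) :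
    ∃ m : Module.End k V, LinearMap.trace k V m = 0 ∧
      ∀ g, b g = LinearMap.det (ρ g) • (ρ g * m * ρ g⁻¹) - m := by
  obtain ⟨mm, hm0, hm⟩ := hmat
  refine ⟨(LinearMap.toMatrixAlgEquiv B).symm mm.mat, ?_, fun g => ?_⟩
  · rw [LinearMap.trace_eq_matrix_trace k B]
    show ((LinearMap.toMatrixAlgEquiv B) ((LinearMap.toMatrixAlgEquiv B).symm mm.mat)).trace = 0
    rw [AlgEquiv.apply_symm_apply]
    exact hm0
  · apply (LinearMap.toMatrixAlgEquiv B).injective
    rw [map_sub, map_smul, map_mul, map_mul, AlgEquiv.apply_symm_apply,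
      ← matRep_det B ρ g, matRep_val', twist_eq _ _ _ (matRep_mul_inv B ρ g)]
    have h1 := congrArg TwAd.mat (hm g)
    rw [matCoc_mat] at h1
    rw [← h1]
    rfl

/-- A non-zero vector of a `2`-dimensional space is the first vector of a basis. -/
theorem exists_basis_fst (hV : Module.finrank k V = 2) {u₁ : V} (hu₁ : u₁ ≠ 0) :
    ∃ B : Basis (Fin 2) k V, B 0 = u₁ := by
  have hfin : Module.Finite k V := Module.finite_of_finrank_pos (by rw [hV]; norm_num)
  obtain ⟨u₂, hu₂⟩ : ∃ u₂ : V, u₂ ∉ Submodule.span k {u₁} := by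
    by_contra hcon
    push Not at hcon
    have htop : Submodule.span k {u₁} = ⊤ := by
      rw [eq_top_iff]; intro x _; exact hcon x
    have h1 := finrank_span_singleton (K := k) hu₁
    rw [htop, finrank_top, hV] at h1
    norm_num at h1
  have hli : LinearIndependent k ![u₁, u₂] := by
    rw [linearIndependent_fin2]
    refine ⟨?_, ?_⟩
    · show u₂ ≠ 0
      intro h
      apply hu₂
      rw [h]; exact Submodule.zero_mem _
    · intro a ha
      have ha' : a • u₂ = u₁ := ha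
      have ha0 : a ≠ 0 := by
        intro h0
        rw [h0, zero_smul] at ha'
        exact hu₁ ha'.symm
      apply hu₂
      have : u₂ = a⁻¹ • u₁ := by rw [← ha', smul_smul, inv_mul_cancel₀ ha0, one_smul]
      rw [this]
      exact Submodule.smul_mem _ _ (Submodule.mem_span_singleton_self u₁)
  refine ⟨basisOfLinearIndependentOfCardEqFinrank hli (by rw [hV]; rfl), ?_⟩
  rw [coe_basisOfLinearIndependentOfCardEqFinrank]
  rfl

/-- Powers of an endomorphism on an eigenvector. -/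
theorem pow_apply_eigvec (f : Module.End k V) {u : V} {c : k} (h : f u = c • u) (n : ℕ) :
    (f ^ n) u = c ^ n • u := by
  induction n with
  | zero => simp
  | succ n ih =>
    rw [pow_succ, Module.End.mul_apply, h, map_smul, ih, smul_smul, pow_succ, mul_comm]

/-- **Lemma H**, `End_k(V)`-form. -/
theorem lemmaH_end [Finite k] (p : ℕ) [Fact p.Prime] [CharP k p] (hp : p ≠ 2)
    (hV : Module.finrank k V = 2) (ρ : G →* Module.End k V)
    (hs : ∀ g, ∃ u : V, u ≠ 0 ∧ ∃ c : k, ρ g u = c • u)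
    (h1 : ¬ ∃ u : V, u ≠ 0 ∧ ∀ g, ∃ c : k, ρ g u = c • u)
    (hdet : p = 3 ∨ ∃ g, LinearMap.det (ρ g) ^ 2 ≠ 1)
    (b : G → Module.End k V) (htr : ∀ g, LinearMap.trace k V (b g) = 0)
    (hb : ∀ g h, b (g * h) = LinearMap.det (ρ g) • (ρ g * b h * ρ g⁻¹) + b g)
    (hconst : ∀ g h, ρ g = ρ h → b g = b h) :
    ∃ m : Module.End k V, LinearMap.trace k V m = 0 ∧
      ∀ g, b g = LinearMap.det (ρ g) • (ρ g * m * ρ g⁻¹) - m := by
  have hfin : Module.Finite k V := Module.finite_of_finrank_pos (by rw [hV]; norm_num)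
  let B₀ : Basis (Fin 2) k V := Module.finBasisOfFinrankEq k V hV
  by_cases hcop : p ∣ Nat.card (matRep B₀ ρ).range
  swap
  · exact end_of_mat B₀ ρ b (lemmaH_mat_coprime p hp (matRep B₀ ρ) hcop (matCoc B₀ b)
      (matCoc_trace B₀ b htr) (matCoc_mul B₀ ρ b hb) (matCoc_const B₀ ρ b hconst))
  -- an element of order `p`
  obtain ⟨γ, hγ⟩ := exists_prime_orderOf_dvd_card' p hcop
  obtain ⟨g₀, hg₀⟩ : ∃ g₀, matRep B₀ ρ g₀ = γ.1 := γ.2
  have hpow : ρ g₀ ^ p = 1 := by
    have e1 : γ ^ p = 1 := by rw [← hγ]; exact pow_orderOf_eq_one γ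
    have e2 : (matRep B₀ ρ g₀) ^ p = 1 := by
      rw [hg₀]
      have := congrArg Subtype.val e1
      simpa using this
    have e3 : matRep B₀ ρ (g₀ ^ p) = matRep B₀ ρ 1 := by rw [map_pow, e2, map_one]
    have e4 := (matRep_eq_iff B₀ ρ _ _).1 e3
    rwa [map_pow, map_one] at e4
  have hne : ρ g₀ ≠ 1 := by
    intro h
    have e3 : matRep B₀ ρ g₀ = matRep B₀ ρ 1 := (matRep_eq_iff B₀ ρ _ _).2 (by rw [h, map_one])
    rw [map_one, hg₀] at e3
    have e4 : γ = 1 := Subtype.ext e3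
    rw [e4, orderOf_one] at hγ
    exact (Fact.out : p.Prime).one_lt.ne hγ
  -- an eigenvector with eigenvalue one
  obtain ⟨u₁, hu₁, c, hc⟩ := hs g₀
  have hcp : c ^ p = 1 := by
    have e1 := pow_apply_eigvec (ρ g₀) hc p
    rw [hpow, Module.End.one_apply] at e1
    have e2 : (c ^ p - 1) • u₁ = 0 := by rw [sub_smul, one_smul, ← e1, sub_self]
    rcases smul_eq_zero.1 e2 with h | h
    · exact sub_eq_zero.1 h
    · exact absurd h hu₁
  have hc1 : c = 1 := eq_one_of_pow_char_pow p (k := 1) (by rwa [pow_one])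
  rw [hc1, one_smul] at hc
  obtain ⟨B, hB⟩ := exists_basis_fst hV hu₁
  -- the matrix of `ρ g₀` in the adapted basis
  set M := (matRep B ρ g₀).1 with hM
  have hM00 : M 0 0 = 1 := by
    rw [hM, matRep_val, LinearMap.toMatrix_apply, hB, hc, ← hB, Basis.repr_self]
    simp
  have hM10 : M 1 0 = 0 := by
    rw [hM, matRep_val, LinearMap.toMatrix_apply, hB, hc, ← hB, Basis.repr_self]
    simp
  have hMdet : M.det = 1 := by
    rw [hM, matRep_det]
    have e1 : LinearMap.det (ρ g₀) ^ p = 1 := by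
      rw [← map_pow, hpow, map_one]
    exact eq_one_of_pow_char_pow p (k := 1) (by rwa [pow_one])
  have hM11 : M 1 1 = 1 := by
    rw [det_fin_two, hM00, hM10] at hMdet
    linear_combination hMdet
  have hx₀ : M 0 1 ≠ 0 := by
    intro h01
    apply hne
    have e1 : matRep B ρ g₀ = matRep B ρ 1 := by
      rw [map_one]
      apply Units.ext
      show M = 1
      ext i j
      fin_cases i <;> fin_cases j <;> simp [hM00, hM10, hM11, h01]
    have e2 := (matRep_eq_iff B ρ _ _).1 e1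
    rwa [map_one] at e2
  have hu : ∃ g₀ x₀, x₀ ≠ 0 ∧ matRep B ρ g₀ = toGL (u x₀) := by
    refine ⟨g₀, M 0 1, hx₀, ?_⟩
    apply Units.ext
    show M = (u (M 0 1)).1
    ext i j
    fin_cases i <;> fin_cases j <;> simp [hM00, hM10, hM11]
  -- `∞` is moved
  have hmv : ∃ g, (matRep B ρ g).1 1 0 ≠ 0 := by
    by_contra hcon
    push Not at hcon
    apply h1
    refine ⟨B 0, B.ne_zero 0, fun g => ⟨B.repr (ρ g (B 0)) 0, ?_⟩⟩
    have e1 := B.sum_repr (ρ g (B 0))
    rw [Fin.sum_univ_two] at e1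
    have e2 : B.repr (ρ g (B 0)) 1 = 0 := by
      have := hcon g
      rwa [matRep_val, LinearMap.toMatrix_apply] at this
    rw [e2, zero_smul, add_zero] at e1
    exact e1.symm
  have hdet' : p = 3 ∨ ∃ g, (matRep B ρ g).1.det ^ 2 ≠ 1 := by
    rcases hdet with h | ⟨g, hg⟩
    · exact Or.inl h
    · exact Or.inr ⟨g, by rwa [matRep_det]⟩
  exact end_of_mat B ρ b (lemmaH_mat_unip p hp (matRep B ρ) (matRep_eigvec B ρ hs) hmv hu hdet'
    (matCoc B b) (matCoc_trace B b htr) (matCoc_mul B ρ b hb) (matCoc_const B ρ b hconst))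

end EndForm

end Fermat.Agent.S56.Group.LemmaH
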