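/-
S56 / TW block, Lemma H (task G-H, helper28's fixed-point-count route, board #2427), the `p = 3`
cocycle computation (helper24): `1`-cocycles of the unipotent group `U = u(X)`, `X ≤ (k, +)`,
`char k = 3`, with values in the trace zero `2 × 2` matrices (conjugation action).

* `(U1) exists_coboundary_add_E` : every cocycle is a coboundary plus `e₀ • E`, `e₀ : X →+ k`;
* `(U2) smul_E_isCoboundary_iff` : `e₀ • E` is a coboundary iff `e₀ ∈ k · incl`;
* `(U3) semilinear_of_twisted` : `A' ≤ kˣ` finite stabilising `X`, `e₀ (β x) = β e₀ x + c_β β x`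
  for `β ∈ A'` (invariance under the Borel up to coboundaries) ⇒ `c_β = 0`;
* `(U4) exists_eq_mul_of_closure` : if moreover `X` is a line over the ring generated by `A'`, then
  `e₀ ∈ k · incl`.

Mathlib only.
-/
import Mathlib

set_option autoImplicit false

namespace Fermat.Agent.S56.Group.CocycleU3

open Matrix

variable {k : Type*} [Field k]

/-- the upper unipotent matrix -/
def u (x : k) : Matrix (Fin 2) (Fin 2) k := !![1, x; 0, 1]

/-- the nilpotent `E` -/
def E : Matrix (Fin 2) (Fin 2) k := !![0, 1; 0, 0]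

theorem conj_apply (x : k) (M : Matrix (Fin 2) (Fin 2) k) :
    u x * M * u (-x) =
      !![M 0 0 + x * M 1 0, M 0 1 + x * M 1 1 - x * M 0 0 - x ^ 2 * M 1 0;
         M 1 0, M 1 1 - x * M 1 0] := by
  conv_lhs => rw [Matrix.eta_fin_two M]
  simp only [u, Matrix.mul_fin_two]
  ext i j
  fin_cases i <;> fin_cases j <;> simp <;> ring

variable [CharP k 3] (X : AddSubgroup k) (φ : X → Matrix (Fin 2) (Fin 2) k)

theorem three_eq_zero : (3 : k) = 0 := by
  have := CharP.cast_eq_zero k 3
  exact_mod_cast this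

/-- **(U1)** In characteristic `3`, every `1`-cocycle of `U = u(X)` with values in the trace zero
matrices is a coboundary plus `e₀ • E` with `e₀` additive. -/
theorem exists_coboundary_add_E
    (hφ : ∀ x y : X, φ (x + y) = φ x + u (x : k) * φ y * u (-(x : k)))
    (htr : ∀ x, (φ x).trace = 0) :
    ∃ (m : Matrix (Fin 2) (Fin 2) k) (e₀ : X →+ k), m.trace = 0 ∧
      ∀ x : X, φ x = (u (x : k) * m * u (-(x : k)) - m) + e₀ x • E := by
  have h3 : (3 : k) = 0 := three_eq_zero
  have h2 : (2 : k) ≠ 0 := by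
    intro h
    have : (1 : k) = 0 := by linear_combination h3 - h
    exact one_ne_zero this
  -- the entries
  have hd : ∀ x, φ x 1 1 = - φ x 0 0 := by
    intro x
    have := htr x
    rw [Matrix.trace_fin_two] at this
    linear_combination this
  have hf : ∀ x y : X, φ (x + y) 1 0 = φ x 1 0 + φ y 1 0 := by
    intro x y
    have := congrFun (congrFun (hφ x y) 1) 0
    rw [conj_apply] at this
    simpa using this
  have hh : ∀ x y : X, φ (x + y) 0 0 = φ x 0 0 + φ y 0 0 + (x : k) * φ y 1 0 := by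
    intro x y
    have := congrFun (congrFun (hφ x y) 0) 0
    rw [conj_apply] at this
    simp at this
    linear_combination this
  have he : ∀ x y : X, φ (x + y) 0 1 =
      φ x 0 1 + φ y 0 1 - 2 * (x : k) * φ y 0 0 - (x : k) ^ 2 * φ y 1 0 := by
    intro x y
    have := congrFun (congrFun (hφ x y) 0) 1
    rw [conj_apply] at this
    simp at this
    rw [hd y] at this
    linear_combination this
  -- values at `0`
  have hf0 : φ 0 1 0 = 0 := by
    have := hf 0 0
    rw [add_zero] at this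
    linear_combination -this
  have hh0 : φ 0 0 0 = 0 := by
    have := hh 0 0
    rw [add_zero] at this
    simp at this
    exact this
  have he0 : φ 0 0 1 = 0 := by
    have := he 0 0
    rw [add_zero] at this
    simp at this
    exact this
  -- `f = 0`
  have hfz : ∀ x : X, φ x 1 0 = 0 := by
    intro x
    by_cases hx : (x : k) = 0
    · have : x = 0 := Subtype.ext hx
      rw [this]; exact hf0
    · have hxxx : x + x + x = 0 := by
        apply Subtype.ext
        push_cast
        linear_combination (x : k) * h3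
      have e1 := he x x
      have e2 := he (x + x) x
      rw [hxxx, he0] at e2
      push_cast at e2
      have : (x : k) ^ 2 * φ x 1 0 = 0 := by
        linear_combination 2 * e2 + 2 * e1 + (2 * φ x 0 1 - 4 * (x : k) * φ x 0 0 - 3 * (x : k) ^ 2 * φ x 1 0) * h3
      rcases mul_eq_zero.1 this with h | h
      · exact absurd ((pow_eq_zero_iff two_ne_zero).1 h) hx
      · exact h
  -- `h` is linear
  have hsymm : ∀ x y : X, (x : k) * φ y 0 0 = (y : k) * φ x 0 0 := by
    intro x y
    have e1 := he x y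
    have e2 := he y x
    rw [add_comm y x, e1, hfz, hfz] at e2
    have : 2 * ((x : k) * φ y 0 0 - (y : k) * φ x 0 0) = 0 := by linear_combination (-1 : k) * e2
    rcases mul_eq_zero.1 this with h | h
    · exact absurd h h2
    · linear_combination h
  obtain ⟨c₂, hc₂⟩ : ∃ c₂ : k, ∀ x : X, φ x 0 0 = c₂ * x := by
    by_cases hX : ∀ x : X, (x : k) = 0
    · refine ⟨0, fun x => ?_⟩
      have : x = 0 := Subtype.ext (hX x)
      rw [this, hh0]; simp
    · push Not at hX
      obtain ⟨x₀, hx₀⟩ := hX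
      refine ⟨φ x₀ 0 0 / x₀, fun x => ?_⟩
      have := hsymm x₀ x
      field_simp
      linear_combination this
  -- the additive function `e₀`
  let e₀ : X →+ k := AddMonoidHom.mk' (fun x => φ x 0 1 + c₂ * (x : k) ^ 2) (by
    intro x y
    show φ (x + y) 0 1 + c₂ * ((x + y : X) : k) ^ 2 = _
    rw [he x y, hfz, hc₂ y]
    push_cast
    ring)
  refine ⟨!![0, 0; c₂, 0], e₀, by simp [Matrix.trace_fin_two], fun x => ?_⟩
  rw [conj_apply]
  ext i j
  fin_cases i <;> fin_cases j
  · simp [E, hc₂ x]; ring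
  · show φ x 0 1 = _
    simp [E, e₀]
    ring
  · show φ x 1 0 = _
    simp [E, hfz x]
  · show φ x 1 1 = _
    simp [E, hd x, hc₂ x]
    ring

omit [CharP k 3] in
/-- **(U2)** `e₀ • E` is a coboundary iff `e₀` is a multiple of the inclusion. -/
theorem smul_E_isCoboundary_iff (h2 : (2 : k) ≠ 0) (e₀ : X →+ k) :
    (∃ m : Matrix (Fin 2) (Fin 2) k, m.trace = 0 ∧
        ∀ x : X, e₀ x • E = u (x : k) * m * u (-(x : k)) - m) ↔
      ∃ c : k, ∀ x : X, e₀ x = c * x := by
  constructor
  · rintro ⟨m, -, hm⟩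
    refine ⟨m 1 1 - m 0 0, fun x => ?_⟩
    have h00 := congrFun (congrFun (hm x) 0) 0
    have h01 := congrFun (congrFun (hm x) 0) 1
    rw [conj_apply] at h00 h01
    simp [E] at h00 h01
    have hx2 : (x : k) ^ 2 * m 1 0 = 0 := by
      rcases h00 with h | h
      · rw [h]; simp
      · rw [h, mul_zero]
    linear_combination h01 - hx2
  · rintro ⟨c, hc⟩
    refine ⟨!![-(c / 2), 0; 0, c / 2], by simp [Matrix.trace_fin_two], fun x => ?_⟩
    rw [conj_apply, hc x]
    ext i j
    fin_cases i <;> fin_cases j <;> simp [E]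
    field_simp
    ring

/-- in characteristic `3` a unit of finite order has order prime to `3` -/
theorem natCast_orderOf_ne_zero (β : kˣ) (hβ : IsOfFinOrder β) : ((orderOf β : ℕ) : k) ≠ 0 := by
  have h3 : (3 : k) = 0 := three_eq_zero
  intro h0
  rw [CharP.cast_eq_zero_iff k 3] at h0
  obtain ⟨m, hm⟩ := h0
  have hpow : ((β : k) ^ m) ^ 3 = 1 := by
    rw [← pow_mul, mul_comm, ← hm, ← Units.val_pow_eq_pow_val, pow_orderOf_eq_one, Units.val_one]
  have hcube : ((β : k) ^ m - 1) ^ 3 = 0 := by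
    linear_combination hpow - ((β : k) ^ m) * ((β : k) ^ m - 1) * h3
  have h1 : (β : k) ^ m = 1 := by
    have := pow_eq_zero_iff (n := 3) (by norm_num) |>.1 hcube
    linear_combination this
  have h2 : β ^ m = 1 := Units.ext (by rw [Units.val_pow_eq_pow_val, h1, Units.val_one])
  have h4 := orderOf_dvd_of_pow_eq_one h2
  rw [hm] at h4
  have hpos := hβ.orderOf_pos
  rw [hm] at hpos
  have hm0 : 0 < m := by omega
  have := Nat.le_of_dvd hm0 h4
  omega

/-- **(U3)** a finite group `A' ≤ kˣ` (char `3`) stabilising `X`: if `e₀` is `A'`-semilinear up to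
multiples of the inclusion, it is `A'`-semilinear. -/
theorem semilinear_of_twisted (A' : Subgroup kˣ) [Finite A']
    (hA : ∀ β ∈ A', ∀ x ∈ X, (β : k) * x ∈ X) (e₀ : X →+ k)
    (hinv : ∀ β ∈ A', ∃ c : k, ∀ x y : X, (y : k) = (β : k) * x → e₀ y = β * e₀ x + c * y) :
    ∀ β ∈ A', ∀ x y : X, (y : k) = (β : k) * x → e₀ y = β * e₀ x := by
  intro β hβ x y hxy
  obtain ⟨c, hc⟩ := hinv β hβ
  -- it suffices that `c * y = 0`
  suffices hcy : c * (y : k) = 0 by rw [hc x y hxy, hcy, add_zero]
  have hfin : IsOfFinOrder β := by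
    have h1 : (⟨β, hβ⟩ : A') ^ Nat.card A' = 1 := pow_card_eq_one'
    have h2 : β ^ Nat.card A' = 1 := by
      have := congrArg (fun a : A' => (a : kˣ)) h1
      simpa only [Subgroup.coe_pow, Subgroup.coe_one] using this
    exact isOfFinOrder_iff_pow_eq_one.2 ⟨Nat.card A', Nat.card_pos, h2⟩
  -- iterate: `e₀ (β^j x) = β^j e₀ x + j c β^j x`
  have hβX : ∀ j : ℕ, ((β : k) ^ j * x) ∈ X := by
    intro j
    induction j with
    | zero => simp
    | succ j ih =>
      have := hA β hβ _ ih
      rwa [← mul_assoc, ← pow_succ'] at this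
  have hiter : ∀ j : ℕ, e₀ ⟨(β : k) ^ j * x, hβX j⟩ =
      (β : k) ^ j * e₀ x + j * c * ((β : k) ^ j * x) := by
    intro j
    induction j with
    | zero =>
      have : (⟨(β : k) ^ 0 * x, hβX 0⟩ : X) = x := Subtype.ext (by simp)
      rw [this]; simp
    | succ j ih =>
      have := hc ⟨(β : k) ^ j * x, hβX j⟩ ⟨(β : k) ^ (j + 1) * x, hβX (j + 1)⟩
        (by show (β : k) ^ (j + 1) * x = β * ((β : k) ^ j * x); ring)
      rw [this, ih]
      push_cast
      ring
  have hn := hiter (orderOf β)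
  have hpow : (β : k) ^ orderOf β = 1 := by
    rw [← Units.val_pow_eq_pow_val, pow_orderOf_eq_one, Units.val_one]
  have hxx : (⟨(β : k) ^ orderOf β * x, hβX _⟩ : X) = x := Subtype.ext (by simp [hpow])
  rw [hxx, hpow, one_mul, one_mul] at hn
  have h0 : ((orderOf β : ℕ) : k) * (c * (x : k)) = 0 := by linear_combination -hn
  rcases mul_eq_zero.1 h0 with h | h
  · exact absurd h (natCast_orderOf_ne_zero β hfin)
  · rw [hxy]
    linear_combination (β : k) * h

omit [CharP k 3] in
/-- **(U4)** if moreover `X` is a line over the ring generated by `A'`, then `e₀` is a multiple of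
the inclusion. -/
theorem exists_eq_mul_of_closure (A' : Subgroup kˣ)
    (hA : ∀ β ∈ A', ∀ x ∈ X, (β : k) * x ∈ X) (e₀ : X →+ k)
    (hsemi : ∀ β ∈ A', ∀ x y : X, (y : k) = (β : k) * x → e₀ y = β * e₀ x)
    (x₀ : X) (hx₀ : (x₀ : k) ≠ 0)
    (hgen : ∀ x : X, ∃ l ∈ Subring.closure {b : k | ∃ β ∈ A', (β : k) = b}, (x : k) = l * x₀) :
    ∃ c : k, ∀ x : X, e₀ x = c * x := by
  -- semilinearity for the ring generated by `A'`
  have key : ∀ l ∈ Subring.closure {b : k | ∃ β ∈ A', (β : k) = b},
      ∀ x : X, ∃ h : l * (x : k) ∈ X, e₀ ⟨l * x, h⟩ = l * e₀ x := by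
    intro l hl
    induction hl using Subring.closure_induction with
    | mem b hb =>
      obtain ⟨β, hβ, rfl⟩ := hb
      intro x
      exact ⟨hA β hβ x x.2, hsemi β hβ x ⟨_, hA β hβ x x.2⟩ rfl⟩
    | zero =>
      intro x
      refine ⟨by simp, ?_⟩
      have : (⟨(0 : k) * x, by simp⟩ : X) = 0 := Subtype.ext (by simp)
      rw [this]; simp
    | one =>
      intro x
      refine ⟨by simp, ?_⟩
      have : (⟨(1 : k) * x, by simp⟩ : X) = x := Subtype.ext (by simp)
      rw [this]; simp
    | add a b _ _ iha ihb =>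
      intro x
      obtain ⟨ha, ha'⟩ := iha x
      obtain ⟨hb, hb'⟩ := ihb x
      have hab : (a + b) * (x : k) ∈ X := by rw [add_mul]; exact X.add_mem ha hb
      refine ⟨hab, ?_⟩
      have : (⟨(a + b) * x, hab⟩ : X) = ⟨a * x, ha⟩ + ⟨b * x, hb⟩ :=
        Subtype.ext (by simp [add_mul])
      rw [this, map_add, ha', hb']; ring
    | neg a _ iha =>
      intro x
      obtain ⟨ha, ha'⟩ := iha x
      have hna : (-a) * (x : k) ∈ X := by rw [neg_mul]; exact X.neg_mem ha
      refine ⟨hna, ?_⟩
      have : (⟨(-a) * x, hna⟩ : X) = -⟨a * x, ha⟩ := Subtype.ext (by simp)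
      rw [this, map_neg, ha']; ring
    | mul a b _ _ iha ihb =>
      intro x
      obtain ⟨hb, hb'⟩ := ihb x
      obtain ⟨ha, ha'⟩ := iha ⟨b * x, hb⟩
      have hab : (a * b) * (x : k) ∈ X := by rw [mul_assoc]; exact ha
      refine ⟨hab, ?_⟩
      have : (⟨(a * b) * x, hab⟩ : X) = ⟨a * (⟨b * x, hb⟩ : X), ha⟩ :=
        Subtype.ext (by simp [mul_assoc])
      rw [this, ha', hb']; ring
  refine ⟨e₀ x₀ / x₀, fun x => ?_⟩
  obtain ⟨l, hl, hx⟩ := hgen x
  obtain ⟨h, hh⟩ := key l hl x₀
  have : x = ⟨l * x₀, h⟩ := Subtype.ext hx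
  rw [this, hh]
  show l * e₀ x₀ = e₀ x₀ / x₀ * (l * x₀)
  field_simp

end Fermat.Agent.S56.Group.CocycleU3
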